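import Fermat.Agent.ES.A.HeckeFun
import Fermat.Agent.ES.B.Main

/-!
# ES library, Part A4 : (HT) over `ℚ̄`

The formal Hecke operators `heckeTS p ζ` (`p ∤ N`), `normU q ζ` (`q ∣ N`) preserve
`modularFunctionFieldBar N = FK ℚ̄ N` and `MDiv ℚ̄ m`, and commute with the base change `ℚ̄ → ℂ`.
-/

set_option autoImplicit false
set_option linter.unusedSectionVars false

open ModularCurve AlgebraicCurve
open Fermat.Agent.S24lib

namespace Fermat.Agent.ESlib

variable {N : ℕ} [NeZero N]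

/-- abstract descent: an operator on Laurent series which commutes with the coefficient embedding
and preserves `FK ℂ N` preserves `FK ℚ̄ N`. -/
theorem mem_bar_of_coeffMap {x : LaurentSeries Kb}
    (h : coeffMap (algebraMap Kb ℂ) x ∈ laurentBaseChange ℂ (modularFunctionFieldFull N)) :
    x ∈ modularFunctionFieldBar N := by
  obtain ⟨y, hy⟩ := exists_bc_eq_of_coeff_mem Kb ℂ (modularFunctionFieldFull N) ⟨_, h⟩
    (fun k => ⟨x.coeff k, by simp [coeffMap_coeff]⟩)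
  have h2 : coeffMap (algebraMap Kb ℂ) (y : LaurentSeries Kb) = coeffMap (algebraMap Kb ℂ) x :=
    congrArg Subtype.val hy
  have h3 : (y : LaurentSeries Kb) = x :=
    coeffMap_injective _ (algebraMap Kb ℂ).injective h2
  rw [← h3]
  exact y.2

theorem heckeTS_mem_bar {p : ℕ} [NeZero p] (hp : p.Prime) (hpN : ¬ p ∣ N) {ζ : Kbˣ}
    (hζ : IsPrimitiveRoot ζ p) (u : LaurentSeries Kb) (hu : u ∈ modularFunctionFieldBar N) :
    heckeTS p ζ u ∈ modularFunctionFieldBar N := by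
  apply mem_bar_of_coeffMap
  rw [coeffMap_heckeTS_of_injective (algebraMap Kb ℂ) (algebraMap Kb ℂ).injective hζ
    (isPrimitiveRoot_zetaC p)]
  exact heckeTS_mem hp hpN (isPrimitiveRoot_zetaC p) (bc Kb ℂ (modularFunctionFieldFull N) ⟨u, hu⟩)

theorem normU_mem_bar {q : ℕ} [NeZero q] (hq : q.Prime) (hqN : q ∣ N) {ζ : Kbˣ}
    (hζ : IsPrimitiveRoot ζ q) (u : LaurentSeries Kb) (hu : u ∈ modularFunctionFieldBar N) :
    normU q ζ u ∈ modularFunctionFieldBar N := by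
  apply mem_bar_of_coeffMap
  rw [coeffMap_normU_of_injective (algebraMap Kb ℂ) (algebraMap Kb ℂ).injective hζ
    (isPrimitiveRoot_zetaC q)]
  exact normU_mem hq hqN (isPrimitiveRoot_zetaC q) (bc Kb ℂ (modularFunctionFieldFull N) ⟨u, hu⟩)

/-- base change commutes with `T_p` -/
theorem bc_heckeTS {p : ℕ} [NeZero p] (hp : p.Prime) (hpN : ¬ p ∣ N) {ζ : Kbˣ}
    (hζ : IsPrimitiveRoot ζ p) {ζ' : ℂˣ} (hζ' : IsPrimitiveRoot ζ' p)
    (f : modularFunctionFieldBar N) :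
    bc Kb ℂ (modularFunctionFieldFull N) ⟨heckeTS p ζ (f : LaurentSeries Kb),
        heckeTS_mem_bar hp hpN hζ _ f.2⟩
      = ⟨heckeTS p ζ' (bc Kb ℂ (modularFunctionFieldFull N) f : LaurentSeries ℂ),
        heckeTS_mem hp hpN hζ' _⟩ :=
  Subtype.ext (coeffMap_heckeTS_of_injective (algebraMap Kb ℂ) (algebraMap Kb ℂ).injective hζ
    hζ' _)

/-- base change commutes with `U_q` -/
theorem bc_normU {q : ℕ} [NeZero q] (hq : q.Prime) (hqN : q ∣ N) {ζ : Kbˣ}
    (hζ : IsPrimitiveRoot ζ q) {ζ' : ℂˣ} (hζ' : IsPrimitiveRoot ζ' q)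
    (f : modularFunctionFieldBar N) :
    bc Kb ℂ (modularFunctionFieldFull N) ⟨normU q ζ (f : LaurentSeries Kb),
        normU_mem_bar hq hqN hζ _ f.2⟩
      = ⟨normU q ζ' (bc Kb ℂ (modularFunctionFieldFull N) f : LaurentSeries ℂ),
        normU_mem hq hqN hζ' _⟩ :=
  Subtype.ext (coeffMap_normU_of_injective (algebraMap Kb ℂ) (algebraMap Kb ℂ).injective hζ
    hζ' _)

variable {m : ℕ}

theorem mDiv_heckeTS_bar (hm : m ≠ 0) {p : ℕ} [NeZero p] (hp : p.Prime) (hpN : ¬ p ∣ N) {ζ : Kbˣ}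
    (hζ : IsPrimitiveRoot ζ p) {f : modularFunctionFieldBar N} (hf : MDiv Kb m f) :
    MDiv Kb m (⟨heckeTS p ζ (f : LaurentSeries Kb), heckeTS_mem_bar hp hpN hζ _ f.2⟩ :
      modularFunctionFieldBar N) := by
  rw [← mDiv_bc_iff Kb ℂ (modularFunctionFieldFull N) (isFF_FK N),
    bc_heckeTS hp hpN hζ (isPrimitiveRoot_zetaC p)]
  exact mDiv_heckeTS hm hp hpN (isPrimitiveRoot_zetaC p) (mDiv_bc Kb ℂ (modularFunctionFieldFull N) hf)

theorem mDiv_normU_bar (hm : m ≠ 0) {q : ℕ} [NeZero q] (hq : q.Prime) (hqN : q ∣ N) {ζ : Kbˣ}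
    (hζ : IsPrimitiveRoot ζ q) {f : modularFunctionFieldBar N} (hf : MDiv Kb m f) :
    MDiv Kb m (⟨normU q ζ (f : LaurentSeries Kb), normU_mem_bar hq hqN hζ _ f.2⟩ :
      modularFunctionFieldBar N) := by
  rw [← mDiv_bc_iff Kb ℂ (modularFunctionFieldFull N) (isFF_FK N),
    bc_normU hq hqN hζ (isPrimitiveRoot_zetaC q)]
  exact mDiv_normU hm hq hqN (isPrimitiveRoot_zetaC q) (mDiv_bc Kb ℂ (modularFunctionFieldFull N) hf)

end Fermat.Agent.ESlib
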