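import Fermat.Agent.S23lib.Decomp
import Fermat.Agent.S23lib.Abstract
import Fermat.Agent.S22b.Alg
import Fermat.Prelude.Def_ModularCurve_PeriodHomPair

/-!
# T-ES, Part A5: the Betti lattice `Hom_par(Γ₀(N), ℤ)`

`betti N` is the `ℤ`-module of integer valued parabolic homomorphisms `Γ₀(N) → ℂ`.  It is free of
finite rank and a `ℤ`-basis of it is a `ℂ`-basis of `parabolicHoms ℂ (Gamma0 N) ℂ`.
-/

set_option autoImplicit false

open CongruenceSubgroup ModularCurve ModularCurve.Period
open scoped MatrixGroups TensorProduct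

namespace Fermat.Agent.ESlib

noncomputable section

variable (N : ℕ)

/-- The Betti lattice: integer valued parabolic homomorphisms. -/
def betti : Submodule ℤ (Additive (Gamma0 N) →+ ℂ) where
  carrier := {ψ | ψ ∈ parabolicHoms ℂ (Gamma0 N) ℂ ∧ ∀ γ, ∃ m : ℤ, ψ γ = m}
  zero_mem' := ⟨Submodule.zero_mem _, fun _ => ⟨0, by simp⟩⟩
  add_mem' := by
    rintro φ ψ ⟨h1, h2⟩ ⟨h3, h4⟩
    refine ⟨Submodule.add_mem _ h1 h3, fun γ => ?_⟩
    obtain ⟨a, ha⟩ := h2 γ
    obtain ⟨b, hb⟩ := h4 γ
    exact ⟨a + b, by rw [AddMonoidHom.add_apply, ha, hb]; push_cast; rfl⟩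
  smul_mem' := by
    rintro c ψ ⟨h1, h2⟩
    refine ⟨?_, fun γ => ?_⟩
    · rw [← Int.cast_smul_eq_zsmul ℂ]
      exact Submodule.smul_mem _ _ h1
    · obtain ⟨a, ha⟩ := h2 γ
      exact ⟨c * a, by rw [AddMonoidHom.smul_apply, ha]; simp⟩

variable {N}

theorem mem_betti {ψ : Additive (Gamma0 N) →+ ℂ} :
    ψ ∈ betti N ↔ ψ ∈ parabolicHoms ℂ (Gamma0 N) ℂ ∧ ∀ γ, ∃ m : ℤ, ψ γ = m := Iff.rfl

/-- the integer values of an element of the Betti lattice -/
def betti.val (ψ : betti N) (γ : Additive (Gamma0 N)) : ℤ := (ψ.2.2 γ).choose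

theorem betti.val_spec (ψ : betti N) (γ : Additive (Gamma0 N)) :
    ((betti.val ψ γ : ℤ) : ℂ) = (ψ : Additive (Gamma0 N) →+ ℂ) γ := (ψ.2.2 γ).choose_spec.symm

/-- an element of the Betti lattice as a homomorphism to `ℤ` -/
def betti.toInt : betti N →ₗ[ℤ] (Additive (Gamma0 N) →+ ℤ) where
  toFun ψ :=
    { toFun := betti.val ψ
      map_zero' := by
        have := betti.val_spec ψ 0
        rw [map_zero] at this
        exact_mod_cast this
      map_add' := fun a b => by
        have := betti.val_spec ψ (a + b)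
        rw [map_add, ← betti.val_spec, ← betti.val_spec] at this
        exact_mod_cast this }
  map_add' φ ψ := by
    refine AddMonoidHom.ext fun γ => ?_
    have := betti.val_spec (φ + ψ) γ
    rw [Submodule.coe_add, AddMonoidHom.add_apply, ← betti.val_spec, ← betti.val_spec] at this
    exact_mod_cast this
  map_smul' c ψ := by
    refine AddMonoidHom.ext fun γ => ?_
    have := betti.val_spec (c • ψ) γ
    rw [Submodule.coe_smul, AddMonoidHom.smul_apply, ← betti.val_spec] at this
    have h2 : ((betti.val (c • ψ) γ : ℤ) : ℂ) = ((c * betti.val ψ γ : ℤ) : ℂ) := by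
      rw [this]; simp
    exact_mod_cast h2

@[simp] theorem betti.toInt_apply (ψ : betti N) (γ : Additive (Gamma0 N)) :
    ((betti.toInt ψ γ : ℤ) : ℂ) = (ψ : Additive (Gamma0 N) →+ ℂ) γ := betti.val_spec ψ γ

theorem betti.toInt_injective : Function.Injective (betti.toInt (N := N)) := by
  intro φ ψ h
  apply Subtype.ext
  refine AddMonoidHom.ext fun γ => ?_
  rw [← betti.toInt_apply, ← betti.toInt_apply, h]

theorem betti.toInt_mem (ψ : betti N) : betti.toInt ψ ∈ parabolicHoms ℤ (Gamma0 N) ℤ := by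
  rw [mem_parabolicHoms_iff]
  intro γ hγ
  have h := (mem_parabolicHoms_iff.mp ψ.2.1) γ hγ
  rw [← betti.toInt_apply] at h
  exact_mod_cast h

/-- every integral parabolic homomorphism is in the Betti lattice -/
def betti.ofInt (χ : Additive (Gamma0 N) →+ ℤ) (hχ : χ ∈ parabolicHoms ℤ (Gamma0 N) ℤ) : betti N :=
  ⟨(Int.castAddHom ℂ).comp χ, by
    refine ⟨?_, fun γ => ⟨χ γ, rfl⟩⟩
    rw [mem_parabolicHoms_iff]
    intro γ hγ
    rw [AddMonoidHom.comp_apply, (mem_parabolicHoms_iff.mp hχ) γ hγ, map_zero]⟩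

theorem betti.toInt_ofInt (χ : Additive (Gamma0 N) →+ ℤ)
    (hχ : χ ∈ parabolicHoms ℤ (Gamma0 N) ℤ) : betti.toInt (betti.ofInt χ hχ) = χ := by
  refine AddMonoidHom.ext fun γ => ?_
  have h : ((betti.toInt (betti.ofInt χ hχ) γ : ℤ) : ℂ) = ((χ γ : ℤ) : ℂ) :=
    betti.toInt_apply (betti.ofInt χ hχ) γ
  exact_mod_cast h

section Finite

variable [NeZero N]

/-- evaluation on a finite generating set -/
theorem betti.exists_embedding : ∃ (S : Finset (Gamma0 N)) (e : betti N →ₗ[ℤ] (S → ℤ)),
    Function.Injective e := by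
  classical
  have hfg : Group.FG (Gamma0 N) := Fermat.Agent.S22b.fg_Gamma0 N
  obtain ⟨S, hS⟩ := hfg.out
  refine ⟨S, { toFun := fun ψ s => betti.toInt ψ (Additive.ofMul (s : Gamma0 N))
               map_add' := fun φ ψ => by funext s; simp
               map_smul' := fun c ψ => by funext s; simp }, ?_⟩
  intro φ ψ h
  apply betti.toInt_injective
  refine AddMonoidHom.ext fun γ => ?_
  have hγ : Additive.toMul γ ∈ Subgroup.closure (S : Set (Gamma0 N)) := hS ▸ Subgroup.mem_top _
  have key : ∀ g : Gamma0 N, g ∈ Subgroup.closure (S : Set (Gamma0 N)) →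
      betti.toInt φ (Additive.ofMul g) = betti.toInt ψ (Additive.ofMul g) := by
    intro g hg
    induction hg using Subgroup.closure_induction with
    | mem x hx => exact congrFun h ⟨x, hx⟩
    | one => simp
    | mul x y _ _ hx hy => rw [ofMul_mul, map_add, map_add, hx, hy]
    | inv x _ hx => rw [ofMul_inv, map_neg, map_neg, hx]
  exact key _ hγ

instance betti.instFinite : Module.Finite ℤ (betti N) := by
  obtain ⟨S, e, he⟩ := betti.exists_embedding (N := N)
  exact Module.Finite.of_injective e he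

instance betti.instFree : Module.Free ℤ (betti N) := by
  obtain ⟨S, e, he⟩ := betti.exists_embedding (N := N)
  exact Module.Free.of_equiv (LinearEquiv.ofInjective e he).symm

end Finite

section Complex

open Fermat.Agent.S23lib

/-- `ℤ`-linearly independent families of the Betti lattice are `ℂ`-linearly independent. -/
theorem betti.linearIndependent_coe {ι : Type*} [Fintype ι] (b : ι → betti N)
    (hb : LinearIndependent ℤ b) :
    LinearIndependent ℂ (fun i => (b i : Additive (Gamma0 N) →+ ℂ)) := by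
  classical
  rw [Fintype.linearIndependent_iff]
  intro c hc i₀
  apply eq_zero_of_forall_ratFunctional
  intro l
  obtain ⟨D, n, hD, hn⟩ := exists_common_den (fun i => l (c i))
  have hs : ∑ i, n i • b i = 0 := by
    apply betti.toInt_injective
    refine AddMonoidHom.ext fun γ => ?_
    rw [map_sum, map_zero, AddMonoidHom.zero_apply, AddMonoidHom.finsetSum_apply]
    simp only [map_smul, AddMonoidHom.smul_apply, smul_eq_mul]
    have h0 : ∑ i, c i * ((betti.toInt (b i) γ : ℤ) : ℂ) = 0 := by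
      have := congrArg (fun u : Additive (Gamma0 N) →+ ℂ => u γ) hc
      simpa [AddMonoidHom.finsetSum_apply] using this
    have h1 : ∑ i, ((betti.toInt (b i) γ : ℤ) : ℚ) * l (c i) = 0 := by
      have := congrArg l h0
      rw [map_sum, map_zero] at this
      rw [← this]
      refine Finset.sum_congr rfl fun i _ => ?_
      have : c i * ((betti.toInt (b i) γ : ℤ) : ℂ) = ((betti.toInt (b i) γ : ℤ) : ℚ) • c i := by
        rw [Rat.smul_def]; push_cast; ring
      rw [this, map_smul, smul_eq_mul]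
    have h2 : ((∑ i, n i * betti.toInt (b i) γ : ℤ) : ℚ) = 0 := by
      push_cast
      calc ∑ i, (n i : ℚ) * ((betti.toInt (b i) γ : ℤ) : ℚ)
          = (D : ℚ) * ∑ i, ((betti.toInt (b i) γ : ℤ) : ℚ) * l (c i) := by
            rw [Finset.mul_sum]
            refine Finset.sum_congr rfl fun i _ => ?_
            rw [← hn i]; ring
        _ = 0 := by rw [h1, mul_zero]
    exact_mod_cast h2
  have hn0 := (Fintype.linearIndependent_iff.mp hb) n hs i₀
  have := hn i₀
  rw [hn0, Int.cast_zero] at this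
  rcases mul_eq_zero.mp this with h | h
  · exact absurd (by exact_mod_cast h) hD
  · exact h

variable [NeZero N]

/-- the Betti lattice spans the complex parabolic homomorphisms -/
theorem betti.span_eq :
    Submodule.span ℂ ((betti N : Submodule ℤ (Additive (Gamma0 N) →+ ℂ)) :
      Set (Additive (Gamma0 N) →+ ℂ)) = parabolicHoms ℂ (Gamma0 N) ℂ := by
  apply le_antisymm
  · rw [Submodule.span_le]
    intro ψ hψ
    exact hψ.1
  · intro ψ hψ
    have : Group.FG (Gamma0 N) := Fermat.Agent.S22b.fg_Gamma0 N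
    obtain ⟨n, e, L, hL1, hL2⟩ := exists_int_decomp (G := Gamma0 N) ψ
    have h1 : ψ = ∑ i, e i • (L i).comp ψ := by
      refine AddMonoidHom.ext fun γ => ?_
      rw [AddMonoidHom.finsetSum_apply]
      simpa using hL2 γ
    rw [h1]
    refine Submodule.sum_mem _ fun i _ => Submodule.smul_mem _ _ (Submodule.subset_span ?_)
    refine ⟨?_, fun γ => hL1 i γ⟩
    rw [mem_parabolicHoms_iff] at hψ ⊢
    intro γ hγ
    rw [AddMonoidHom.comp_apply, hψ γ hγ, map_zero]

/-- index type of a basis of the Betti lattice -/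
abbrev betti.Idx (N : ℕ) [NeZero N] : Type := Module.Free.ChooseBasisIndex ℤ (betti N)

/-- a `ℤ`-basis of the Betti lattice -/
def betti.basis (N : ℕ) [NeZero N] : Module.Basis (betti.Idx N) ℤ (betti N) :=
  Module.Free.chooseBasis ℤ (betti N)

/-- the same vectors, as a `ℂ`-basis of the space of complex parabolic homomorphisms -/
def betti.basisC (N : ℕ) [NeZero N] :
    Module.Basis (betti.Idx N) ℂ (parabolicHoms ℂ (Gamma0 N) ℂ) :=
  Module.Basis.mk (v := fun i => (⟨(betti.basis N i : Additive (Gamma0 N) →+ ℂ),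
      (betti.basis N i).2.1⟩ : parabolicHoms ℂ (Gamma0 N) ℂ))
    (by
      have h := betti.linearIndependent_coe (betti.basis N) (betti.basis N).linearIndependent
      exact LinearIndependent.of_comp (parabolicHoms ℂ (Gamma0 N) ℂ).subtype h)
    (by
      rintro ⟨ψ, hψ⟩ -
      have h1 : ψ ∈ Submodule.span ℂ ((betti N : Submodule ℤ (Additive (Gamma0 N) →+ ℂ)) :
          Set (Additive (Gamma0 N) →+ ℂ)) := by rw [betti.span_eq]; exact hψ
      have h2 : Submodule.span ℂ ((betti N : Submodule ℤ (Additive (Gamma0 N) →+ ℂ)) :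
          Set (Additive (Gamma0 N) →+ ℂ)) ≤ (Submodule.span ℂ (Set.range fun i =>
            (⟨(betti.basis N i : Additive (Gamma0 N) →+ ℂ), (betti.basis N i).2.1⟩ :
              parabolicHoms ℂ (Gamma0 N) ℂ))).map (parabolicHoms ℂ (Gamma0 N) ℂ).subtype := by
        rw [Submodule.span_le]
        intro φ hφ
        have h3 := (betti.basis N).sum_repr ⟨φ, hφ⟩
        have h4 : φ = ∑ i, ((betti.basis N).repr ⟨φ, hφ⟩ i : ℂ) •
            (betti.basis N i : Additive (Gamma0 N) →+ ℂ) := by
          have := congrArg (Subtype.val) h3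
          simp only [Submodule.coe_sum, Submodule.coe_smul] at this
          refine this.symm.trans ?_
          refine Finset.sum_congr rfl fun i _ => ?_
          rw [Int.cast_smul_eq_zsmul]
        rw [h4]
        refine Submodule.sum_mem _ fun i _ => Submodule.smul_mem _ _ ?_
        exact ⟨_, Submodule.subset_span ⟨i, rfl⟩, rfl⟩
      obtain ⟨x, hx, hxψ⟩ := h2 h1
      have : x = ⟨ψ, hψ⟩ := Subtype.ext hxψ
      rwa [this] at hx)

@[simp] theorem betti.basisC_apply (i : betti.Idx N) :
    ((betti.basisC N i : parabolicHoms ℂ (Gamma0 N) ℂ) : Additive (Gamma0 N) →+ ℂ) =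
      (betti.basis N i : Additive (Gamma0 N) →+ ℂ) := by
  rw [betti.basisC, Module.Basis.mk_apply]

/-- `ℂ ⊗ Λ = Hom_par(Γ₀(N), ℂ)` -/
def betti.tensorEquiv (N : ℕ) [NeZero N] :
    (ℂ ⊗[ℤ] betti N) ≃ₗ[ℂ] parabolicHoms ℂ (Gamma0 N) ℂ :=
  ((betti.basis N).baseChange ℂ).equiv (betti.basisC N) (Equiv.refl _)

theorem betti.tensorEquiv_tmul (c : ℂ) (ψ : betti N) :
    ((betti.tensorEquiv N (c ⊗ₜ ψ) : parabolicHoms ℂ (Gamma0 N) ℂ) : Additive (Gamma0 N) →+ ℂ) =
      c • (ψ : Additive (Gamma0 N) →+ ℂ) := by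
  have h1 : ∀ i, betti.tensorEquiv N ((1 : ℂ) ⊗ₜ betti.basis N i) = betti.basisC N i := by
    intro i
    rw [betti.tensorEquiv, ← Module.Basis.baseChange_apply, Module.Basis.equiv_apply]
    rfl
  have h2 : c ⊗ₜ[ℤ] ψ = ∑ i, (c * ((betti.basis N).repr ψ i : ℂ)) •
      ((1 : ℂ) ⊗ₜ[ℤ] betti.basis N i) := by
    conv_lhs => rw [← (betti.basis N).sum_repr ψ, TensorProduct.tmul_sum]
    refine Finset.sum_congr rfl fun i _ => ?_
    rw [TensorProduct.tmul_smul, TensorProduct.smul_tmul', TensorProduct.smul_tmul', smul_eq_mul,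
      mul_one, zsmul_eq_mul, mul_comm]
  rw [h2, map_sum, Submodule.coe_sum]
  simp only [map_smul, h1, Submodule.coe_smul, betti.basisC_apply]
  conv_rhs => rw [← (betti.basis N).sum_repr ψ]
  rw [Submodule.coe_sum, Finset.smul_sum]
  refine Finset.sum_congr rfl fun i _ => ?_
  rw [Submodule.coe_smul, mul_smul, Int.cast_smul_eq_zsmul]

end Complex

end

end Fermat.Agent.ESlib
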