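import Fermat.Agent.ES.A.BettiHecke
import Fermat.Agent.S22
import Fermat.Agent.S23
import Fermat.Agent.S23lib.QExp

/-!
# T-ES, Part A5: every system of Hecke eigenvalues occurs with multiplicity two in `ℂ ⊗ Λ`
-/

set_option autoImplicit false

open CongruenceSubgroup ModularCurve ModularCurve.Period ModularFormClass
open scoped MatrixGroups TensorProduct
open Fermat.Agent.S23lib Fermat.Agent.S49
open P2MW.S_CuspForm_intLattice_fg.W3WsD

namespace Fermat.Agent.ESlib

noncomputable section

/-- Duality between a commutative algebra of operators with an integral structure and the space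
it acts on (copied from the proof of `S23lib.span_integral_eq_top`). -/
theorem exists_vector_of_additive {V : Type*} [AddCommGroup V] [Module ℂ V] {X : Type*}
    (𝕋 : Subalgebra ℤ (Module.End ℂ V)) (hcomm : ∀ s ∈ 𝕋, ∀ t ∈ 𝕋, s * t = t * s)
    [Module.Finite ℤ 𝕋]
    (a : V →ₗ[ℂ] ℂ) (hnd : ∀ f, (∀ t ∈ 𝕋, a (t f) = 0) → f = 0)
    (P : V →ₗ[ℂ] (X → ℂ)) (hP : Function.Injective P)
    (VZ : Set V) (hVZ : ∀ f ∈ VZ, ∀ x, ∃ m : ℤ, P f x = m)
    (hstab : ∀ t ∈ 𝕋, ∀ f ∈ VZ, t f ∈ VZ)
    (hspan : Submodule.span ℂ VZ = ⊤) (μ : 𝕋 →+ ℂ) :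
    ∃ f : V, ∀ t : 𝕋, a ((t : Module.End ℂ V) f) = μ t := by
  classical
  have : IsAddTorsionFree (Module.End ℂ V) := .of_isTorsionFree ℂ _
  have : IsAddTorsionFree 𝕋 := by
    refine ⟨fun n hn x y hxy => Subtype.ext ?_⟩
    have h : n • (x : Module.End ℂ V) = n • (y : Module.End ℂ V) := congrArg Subtype.val hxy
    exact nsmul_right_injective hn h
  have : Module.Free ℤ 𝕋 := Module.free_of_finite_type_torsion_free'
  let b := Module.Free.chooseBasis ℤ 𝕋
  -- every element of `𝕋` is an integral combination of the basis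
  have hrepr : ∀ t : 𝕋, (t : Module.End ℂ V) = ∑ i, (b.repr t i) • (b i : Module.End ℂ V) := by
    intro t
    conv_lhs => rw [← b.sum_repr t]
    simp
  -- Step 1
  have step1 : ∀ c : _ → ℂ, ∑ i, c i • (b i : Module.End ℂ V) = 0 → c = 0 := by
    intro c hc
    funext i₀
    apply eq_zero_of_forall_ratFunctional
    intro l
    obtain ⟨D, n, hD, hn⟩ := exists_common_den (fun i => l (c i))
    have hs : ∑ i, n i • (b i : Module.End ℂ V) = 0 := by
      apply LinearMap.ext_on hspan
      intro f hf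
      apply hP
      funext x
      choose m hm using fun i => hVZ _ (hstab (b i) (b i).2 f hf) x
      have h0 : ∑ i, c i * (m i : ℂ) = 0 := by
        have := congrArg (fun u : Module.End ℂ V => P (u f) x) hc
        simpa [LinearMap.sum_apply, hm] using this
      have h1 : ∑ i, (m i : ℚ) * l (c i) = 0 := by
        have := congrArg l h0
        rw [map_sum, map_zero] at this
        rw [← this]
        refine Finset.sum_congr rfl fun i _ => ?_
        have : c i * (m i : ℂ) = (m i : ℚ) • c i := by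
          rw [Rat.smul_def]; push_cast; ring
        rw [this, map_smul, smul_eq_mul]
      have h2 : ∑ i, (n i : ℚ) * (m i : ℚ) = 0 := by
        have : ∑ i, (n i : ℚ) * (m i : ℚ) = D * ∑ i, (m i : ℚ) * l (c i) := by
          rw [Finset.mul_sum]
          refine Finset.sum_congr rfl fun i _ => ?_
          rw [← hn i]; ring
        rw [this, h1, mul_zero]
      have h3 : ∑ i, (n i : ℂ) * (m i : ℂ) = 0 := by
        have := congrArg (fun r : ℚ => (r : ℂ)) h2
        simpa using this
      simpa [LinearMap.sum_apply, hm] using h3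
    have hs' : ∑ i, n i • b i = 0 := by
      apply Subtype.ext
      simpa using hs
    have hn0 : n i₀ = 0 := by
      have := Fintype.linearIndependent_iff.mp b.linearIndependent n hs' i₀
      exact this
    have := hn i₀
    rw [hn0] at this
    have hD' : (D : ℚ) ≠ 0 := by exact_mod_cast hD
    simpa [hD'] using this
  -- the functionals
  let Φ : V →ₗ[ℂ] (_ → ℂ) := LinearMap.pi fun i => a ∘ₗ (b i : Module.End ℂ V)
  have hΦ : ∀ f i, Φ f i = a ((b i : Module.End ℂ V) f) := fun f i => rfl
  have hat : ∀ (t : 𝕋) (f : V), a ((t : Module.End ℂ V) f) = ∑ i, (b.repr t i : ℂ) * Φ f i := by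
    intro t f
    rw [hrepr t]
    simp [LinearMap.sum_apply, hΦ]
  have hinj : Function.Injective Φ := by
    rw [injective_iff_map_eq_zero]
    intro f hf
    apply hnd
    intro t ht
    rw [hat ⟨t, ht⟩ f, hf]
    simp
  have hsurj : LinearMap.range Φ = ⊤ := by
    by_contra hne
    obtain ⟨g, hg0, hg⟩ := Submodule.exists_le_ker_of_lt_top _ (lt_top_iff_ne_top.mpr hne)
    apply hg0
    have hgv : ∀ v, g v = ∑ i, v i * g (Pi.single i 1) := by
      intro v
      conv_lhs => rw [← Finset.univ_sum_single v]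
      rw [map_sum]
      refine Finset.sum_congr rfl fun i _ => ?_
      have : (Pi.single i (v i) : _ → ℂ) = v i • Pi.single i 1 := by
        rw [← Pi.single_smul, smul_eq_mul, mul_one]
      rw [this, map_smul, smul_eq_mul]
    have hc : (fun i => g (Pi.single i 1)) = 0 := by
      apply step1
      -- u := ∑ c i • b i kills everything
      apply LinearMap.ext
      intro f
      apply hnd
      intro t ht
      have hcomm' : t ((∑ i, g (Pi.single i 1) • (b i : Module.End ℂ V)) f) =
          (∑ i, g (Pi.single i 1) • (b i : Module.End ℂ V)) (t f) := by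
        simp only [LinearMap.sum_apply, LinearMap.smul_apply, map_sum, map_smul]
        refine Finset.sum_congr rfl fun i _ => ?_
        congr 1
        exact congrArg (fun u : Module.End ℂ V => u f) (hcomm t ht (b i) (b i).2)
      rw [hcomm']
      have h1 : g (Φ (t f)) = 0 := hg ⟨t f, rfl⟩
      rw [hgv] at h1
      rw [← h1]
      simp only [LinearMap.sum_apply, LinearMap.smul_apply, map_sum, map_smul, smul_eq_mul, hΦ]
      exact Finset.sum_congr rfl fun i _ => mul_comm _ _
    apply LinearMap.ext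
    intro v
    rw [hgv]
    simp [congrFun hc]
  have hex : (fun i => μ (b i)) ∈ LinearMap.range Φ := hsurj ▸ Submodule.mem_top
  obtain ⟨f, hf⟩ := hex
  refine ⟨f, fun t => ?_⟩
  rw [hat t f, hf]
  conv_rhs => rw [← b.sum_repr t, map_sum]
  refine Finset.sum_congr rfl fun i _ => ?_
  rw [map_zsmul, zsmul_eq_mul]

variable (N : ℕ) [NeZero N]

/-- the `q`-coefficients, as a linear map -/
def qMap : S2 N →ₗ[ℂ] (ℕ → ℂ) where
  toFun f n := qCoeff ⇑f n
  map_add' f g := funext fun n => qCoeff_add f g n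
  map_smul' c f := funext fun n => by simpa using qCoeff_csmul c f n

theorem qMap_injective : Function.Injective (qMap N) := by
  rw [injective_iff_map_eq_zero]
  intro f hf
  exact eq_zero_of_qCoeff f fun n => congrFun hf n

variable {N}

/-- every additive functional on the full Hecke algebra is `t ↦ a₁(t f)` -/
theorem exists_form_of_additive (μ : CuspForm.heckeAlgebra N 2 ∅ →+ ℂ) :
    ∃ f : S2 N, ∀ t : CuspForm.heckeAlgebra N 2 ∅, a1 N ((t : Module.End ℂ (S2 N)) f) = μ t := by
  have : Module.Finite ℤ (CuspForm.heckeAlgebra N 2 ∅) := Fermat.Agent.S22.result N 2 ∅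
  refine exists_vector_of_additive (CuspForm.heckeAlgebra N 2 ∅) ?_ (a1 N) eq_zero_of_forall_a1
    (qMap N) (qMap_injective N) (CuspForm.intLattice N 2 : Set (S2 N)) ?_ ?_
    (Fermat.Agent.S23.result N) μ
  · intro s hs t ht
    exact congrArg Subtype.val (mul_comm (⟨s, hs⟩ : CuspForm.heckeAlgebra N 2 ∅) ⟨t, ht⟩)
  · intro f hf n
    exact (mem_intLattice_iff f).mp hf n
  · intro t ht f hf
    exact CuspForm.mem_intLattice_of_mem_heckeAlgebra one_le_two ht hf

/-- **Existence of eigenforms**: every ring homomorphism from the full Hecke algebra to `ℂ` is the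
system of eigenvalues of a normalised eigenform. -/
theorem exists_eigenform (lam : CuspForm.heckeAlgebra N 2 ∅ →+* ℂ) :
    ∃ f : S2 N, a1 N f = 1 ∧
      ∀ t : CuspForm.heckeAlgebra N 2 ∅, (t : Module.End ℂ (S2 N)) f = lam t • f := by
  obtain ⟨f, hf⟩ := exists_form_of_additive (lam : CuspForm.heckeAlgebra N 2 ∅ →+ ℂ)
  refine ⟨f, ?_, fun t => ?_⟩
  · have := hf 1
    simpa using this
  · rw [← sub_eq_zero]
    apply eq_zero_of_forall_a1
    intro s hs
    have h1 := hf (⟨s, hs⟩ * t)
    have h2 := hf ⟨s, hs⟩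
    rw [map_sub, map_sub, map_smul, map_smul, smul_eq_mul]
    simp only [AddMonoidHom.coe_coe, map_mul, Subalgebra.coe_mul, Module.End.mul_apply] at h1 h2
    rw [h1, h2]
    ring

/-- **Multiplicity one.** -/
theorem eq_smul_of_eigen (lam : CuspForm.heckeAlgebra N 2 ∅ →+* ℂ) {f g : S2 N} (hf1 : a1 N f = 1)
    (hf : ∀ t : CuspForm.heckeAlgebra N 2 ∅, (t : Module.End ℂ (S2 N)) f = lam t • f)
    (hg : ∀ t : CuspForm.heckeAlgebra N 2 ∅, (t : Module.End ℂ (S2 N)) g = lam t • g) :
    g = a1 N g • f := by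
  rw [← sub_eq_zero]
  apply eq_zero_of_forall_a1
  intro s hs
  have h1 := hf ⟨s, hs⟩
  have h2 := hg ⟨s, hs⟩
  simp only at h1 h2
  rw [map_sub, map_smul, h1, h2, map_sub, map_smul, map_smul, map_smul, hf1]
  simp only [smul_eq_mul]
  ring

variable (N)

/-- `ℂ ⊗ Λ = S₂ × S₂` -/
def betti.formsEquiv : (ℂ ⊗[ℤ] betti N) ≃ₗ[ℂ] (S2 N × S2 N) :=
  (betti.tensorEquiv N).trans (pairEquiv N).symm

variable {N}

theorem betti.formsEquiv_baseChange (t : CuspForm.heckeAlgebra N 2 ∅) (x : ℂ ⊗[ℤ] betti N) :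
    betti.formsEquiv N ((bettiHecke N t).baseChange ℂ x) =
      ((t : Module.End ℂ (S2 N)) (betti.formsEquiv N x).1,
        (t : Module.End ℂ (S2 N)) (betti.formsEquiv N x).2) := by
  rw [betti.formsEquiv, LinearEquiv.trans_apply, betti.tensorEquiv_baseChange,
    LinearEquiv.symm_apply_eq, ← heckeV_pairEquiv, LinearEquiv.trans_apply, Prod.mk.eta,
    LinearEquiv.apply_symm_apply]

theorem betti.mem_eigen_iff (lam : CuspForm.heckeAlgebra N 2 ∅ →+* ℂ) (x : ℂ ⊗[ℤ] betti N) :
    x ∈ (⨅ t : CuspForm.heckeAlgebra N 2 ∅, LinearMap.ker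
      ((bettiHecke N t).baseChange ℂ - lam t • (LinearMap.id : (ℂ ⊗[ℤ] betti N) →ₗ[ℂ] _))
        : Submodule ℂ (ℂ ⊗[ℤ] betti N)) ↔
      ∀ t : CuspForm.heckeAlgebra N 2 ∅, (bettiHecke N t).baseChange ℂ x = lam t • x := by
  rw [Submodule.mem_iInf]
  refine forall_congr' fun t => ?_
  rw [LinearMap.mem_ker, LinearMap.sub_apply, sub_eq_zero]
  rfl

/-- **Multiplicity two**: the field `eigen` of `TateDatum`. -/
theorem betti.finrank_eigen (lam : CuspForm.heckeAlgebra N 2 ∅ →+* ℂ) :
    Module.finrank ℂ (⨅ t : CuspForm.heckeAlgebra N 2 ∅, LinearMap.ker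
      ((bettiHecke N t).baseChange ℂ - lam t • (LinearMap.id : (ℂ ⊗[ℤ] betti N) →ₗ[ℂ] _))
        : Submodule ℂ (ℂ ⊗[ℤ] betti N)) = 2 := by
  obtain ⟨f, hf1, hf⟩ := exists_eigenform lam
  have hf0 : f ≠ 0 := by
    rintro rfl
    rw [map_zero] at hf1
    exact zero_ne_one hf1
  let J : (ℂ × ℂ) →ₗ[ℂ] (ℂ ⊗[ℤ] betti N) :=
    (betti.formsEquiv N).symm.toLinearMap ∘ₗ
      (LinearMap.prodMap (LinearMap.toSpanSingleton ℂ (S2 N) f)
        (LinearMap.toSpanSingleton ℂ (S2 N) f))
  have hJ : ∀ c d : ℂ, betti.formsEquiv N (J (c, d)) = (c • f, d • f) := by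
    intro c d
    simp [J]
  have hJinj : Function.Injective J := by
    rw [injective_iff_map_eq_zero]
    rintro ⟨c, d⟩ h
    have h1 := hJ c d
    rw [h, map_zero] at h1
    have h2 := congrArg Prod.fst h1
    have h3 := congrArg Prod.snd h1
    simp only [Prod.fst_zero, Prod.snd_zero] at h2 h3
    rcases smul_eq_zero.mp h2.symm with h4 | h4
    · rcases smul_eq_zero.mp h3.symm with h5 | h5
      · rw [h4, h5]; rfl
      · exact absurd h5 hf0
    · exact absurd h4 hf0
  have hrange : LinearMap.range J = (⨅ t : CuspForm.heckeAlgebra N 2 ∅, LinearMap.ker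
      ((bettiHecke N t).baseChange ℂ - lam t • (LinearMap.id : (ℂ ⊗[ℤ] betti N) →ₗ[ℂ] _))) := by
    apply le_antisymm
    · rintro _ ⟨⟨c, d⟩, rfl⟩
      rw [betti.mem_eigen_iff]
      intro t
      apply (betti.formsEquiv N).injective
      rw [betti.formsEquiv_baseChange, map_smul, hJ]
      simp only [map_smul, hf t, Prod.smul_mk]
      rw [smul_comm c, smul_comm d]
    · intro x hx
      rw [betti.mem_eigen_iff] at hx
      have hx' : ∀ t : CuspForm.heckeAlgebra N 2 ∅,
          ((t : Module.End ℂ (S2 N)) (betti.formsEquiv N x).1,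
            (t : Module.End ℂ (S2 N)) (betti.formsEquiv N x).2) =
          lam t • betti.formsEquiv N x := by
        intro t
        rw [← betti.formsEquiv_baseChange, hx t, map_smul]
      have h1 := eq_smul_of_eigen lam hf1 hf (g := (betti.formsEquiv N x).1)
        (fun t => congrArg Prod.fst (hx' t))
      have h2 := eq_smul_of_eigen lam hf1 hf (g := (betti.formsEquiv N x).2)
        (fun t => congrArg Prod.snd (hx' t))
      refine ⟨(a1 N (betti.formsEquiv N x).1, a1 N (betti.formsEquiv N x).2), ?_⟩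
      apply (betti.formsEquiv N).injective
      rw [hJ, ← h1, ← h2]
  rw [← hrange, LinearMap.finrank_range_of_inj hJinj]
  simp

end

end Fermat.Agent.ESlib
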