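import Fermat.Agent.ES.A.Betti
import Fermat.Agent.S21
import Fermat.Agent.S23lib.Stable
import Fermat.Prelude.Def_CuspForm_HeckeAlgebra

/-!
# T-ES, Part A5: the Hecke action on the Betti lattice
-/

set_option autoImplicit false

open CongruenceSubgroup ModularCurve ModularCurve.Period Matrix.SpecialLinearGroup
open scoped MatrixGroups TensorProduct ModularForm
open P2MW.S_ModularForm_heckeT_slash_eq_self_of_mem_Gamma0.ModularForm.HeckeSlashInvariance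
open Fermat.Agent.S23lib

namespace Fermat.Agent.ESlib

noncomputable section

section Pair

variable {N : ℕ}

theorem periodMap_hecke_conj {J' : Type*} [Fintype J'] (α : J' → GL (Fin 2) ℝ)
    (hdet : ∀ j, 0 < (α j).det.val)
    (hJ : ∃ ρ : Equiv.Perm J', ∀ j, ∃ ε ∈ Gamma0 N, jc (α j) = mapGL ℝ ε * α (ρ j))
    (hE : ∀ f : CuspForm (Gamma0 N) 2, ∃ F, HasEquivariantPrimitive N f F)
    (f g : CuspForm (Gamma0 N) 2) (ht : ⇑g = ∑ j, (⇑f) ∣[(2 : ℤ)] α j)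
    (γ : Gamma0 N) (π : Equiv.Perm J') (γ' : J' → Gamma0 N)
    (hmul : ∀ j, α j * mapGL ℝ (γ : SL(2, ℤ)) = mapGL ℝ (γ' j : SL(2, ℤ)) * α (π j)) :
    periodMap N g (Additive.ofMul (jConjGamma0 N γ))
      = ∑ j, periodMap N f (Additive.ofMul (jConjGamma0 N (γ' j))) := by
  obtain ⟨ρ, hρ⟩ := hJ
  refine periodMap_hecke (fun j => jc (α j)) (fun j => by rw [det_jc]; exact hdet j) hE f g ?_
    (jConjGamma0 N γ) π (fun j => jConjGamma0 N (γ' j)) ?_
  · rw [ht, ← Equiv.sum_comp ρ]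
    refine Finset.sum_congr rfl fun j _ => ?_
    obtain ⟨ε, hε, he⟩ := hρ j
    rw [he, SlashAction.slash_mul,
      SlashInvariantFormClass.slash_action_eq f _ (Subgroup.mem_map_of_mem (mapGL ℝ) hε)]
  · intro j
    rw [jConjGamma0_coe, jConjGamma0_coe, ← jc_mapGL, ← jc_mapGL, ← jc_mul, ← jc_mul, hmul]

variable [NeZero N]

theorem periodHomPair_apply_apply (f g : CuspForm (Gamma0 N) 2) (γ : Gamma0 N) :
    periodHomPair N (f, g) (Additive.ofMul γ)
      = (periodMap N f (Additive.ofMul γ) + periodMap N f (Additive.ofMul (jConjGamma0 N γ)))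
        + (periodMap N g (Additive.ofMul γ) - periodMap N g (Additive.ofMul (jConjGamma0 N γ))) := by
  rw [Fermat.Agent.S21lib.periodHomPair_apply]
  rfl

/-- the transfer formula for `periodHomPair` -/
theorem periodHomPair_hecke {J' : Type*} [Fintype J'] (α : J' → GL (Fin 2) ℝ)
    (hdet : ∀ j, 0 < (α j).det.val)
    (hJ : ∃ ρ : Equiv.Perm J', ∀ j, ∃ ε ∈ Gamma0 N, jc (α j) = mapGL ℝ ε * α (ρ j))
    (f₁ f₂ g₁ g₂ : CuspForm (Gamma0 N) 2) (ht₁ : ⇑g₁ = ∑ j, (⇑f₁) ∣[(2 : ℤ)] α j)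
    (ht₂ : ⇑g₂ = ∑ j, (⇑f₂) ∣[(2 : ℤ)] α j)
    (γ : Gamma0 N) (π : Equiv.Perm J') (γ' : J' → Gamma0 N)
    (hmul : ∀ j, α j * mapGL ℝ (γ : SL(2, ℤ)) = mapGL ℝ (γ' j : SL(2, ℤ)) * α (π j)) :
    periodHomPair N (g₁, g₂) (Additive.ofMul γ)
      = ∑ j, periodHomPair N (f₁, f₂) (Additive.ofMul (γ' j)) := by
  have hE : ∀ f : CuspForm (Gamma0 N) 2, ∃ F, HasEquivariantPrimitive N f F :=
    Fermat.Agent.S21lib.exists_hasEquivariantPrimitive
  simp only [periodHomPair_apply_apply]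
  rw [periodMap_hecke α hdet hE f₁ g₁ ht₁ γ π γ' hmul,
    periodMap_hecke α hdet hE f₂ g₂ ht₂ γ π γ' hmul,
    periodMap_hecke_conj α hdet hJ hE f₁ g₁ ht₁ γ π γ' hmul,
    periodMap_hecke_conj α hdet hJ hE f₂ g₂ ht₂ γ π γ' hmul]
  simp only [Finset.sum_add_distrib, Finset.sum_sub_distrib]

end Pair

variable (N : ℕ) [NeZero N]

/-- `S₂(Γ₀(N))` -/
abbrev S2 : Type := CuspForm (Gamma0 N) 2

/-- `Hom_par(Γ₀(N), ℂ)` -/
abbrev VPar : Type := parabolicHoms ℂ (Gamma0 N) ℂ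

/-- Eichler-Shimura (S21) as a linear equivalence. -/
def pairEquiv : (S2 N × S2 N) ≃ₗ[ℂ] VPar N :=
  (LinearEquiv.ofInjective (periodHomPair N) (Fermat.Agent.S21.result N).1).trans
    (LinearEquiv.ofEq _ _ (Fermat.Agent.S21.result N).2)

@[simp] theorem coe_pairEquiv (x : S2 N × S2 N) :
    ((pairEquiv N x : VPar N) : Additive (Gamma0 N) →+ ℂ) = periodHomPair N x := rfl

/-- the action of `End(S₂)` on `Hom_par(Γ₀(N), ℂ) = S₂ × S₂` (diagonal). -/
def heckeV : Module.End ℂ (S2 N) →+* Module.End ℂ (VPar N) :=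
  ((pairEquiv N).conjRingEquiv : Module.End ℂ (S2 N × S2 N) →+* Module.End ℂ (VPar N)).comp
    ((LinearMap.prodMapRingHom ℂ (S2 N) (S2 N)).comp
      ((RingHom.id (Module.End ℂ (S2 N))).prod (RingHom.id (Module.End ℂ (S2 N)))))

theorem heckeV_pairEquiv (t : Module.End ℂ (S2 N)) (f g : S2 N) :
    heckeV N t (pairEquiv N (f, g)) = pairEquiv N (t f, t g) := by
  simp [heckeV, LinearEquiv.conjRingEquiv]

variable {N}

/-- **Transfer formula for `T_ℓ`** on `Hom_par(Γ₀(N), ℂ)`. -/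
theorem heckeV_T_apply {ℓ : ℕ} [Fact ℓ.Prime] (hℓ : ℓ.Prime) (hℓN : ¬ ℓ ∣ N) (ψ : VPar N)
    (γ : Gamma0 N) (π : Equiv.Perm (OnePoint (ZMod ℓ))) (γ' : OnePoint (ZMod ℓ) → Gamma0 N)
    (hmul : ∀ x, heckeRep ℓ x * mapGL ℝ (γ : SL(2, ℤ)) =
      mapGL ℝ (γ' x : SL(2, ℤ)) * heckeRep ℓ (π x)) :
    ((heckeV N (CuspForm.heckeTLin 2 hℓ hℓN) ψ : VPar N) : Additive (Gamma0 N) →+ ℂ)
        (Additive.ofMul γ) =
      ∑ x, (ψ : Additive (Gamma0 N) →+ ℂ) (Additive.ofMul (γ' x)) := by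
  obtain ⟨⟨f, g⟩, rfl⟩ := (pairEquiv N).surjective ψ
  rw [heckeV_pairEquiv, coe_pairEquiv]
  simp only [coe_pairEquiv]
  refine periodHomPair_hecke (heckeRep ℓ) ?_ ?_ f g _ _ ?_ ?_ γ π γ' hmul
  · intro x
    induction x using OnePoint.rec with
    | infty => exact ModularForm.det_heckeDiagMatrix_pos ℓ
    | coe j => exact ModularForm.det_heckeMatrix_pos ℓ _
  · refine ⟨Equiv.optionCongr (Equiv.neg (ZMod ℓ)), fun x => ?_⟩
    induction x using OnePoint.rec with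
    | infty =>
      refine ⟨1, one_mem _, ?_⟩
      rw [map_one, one_mul]
      exact jc_heckeDiagMatrix hℓ.ne_zero
    | coe j => exact jc_heckeMatrix j
  · rw [CuspForm.coe_heckeTLin_apply, heckeT_eq_sum_onePoint]
  · rw [CuspForm.coe_heckeTLin_apply, heckeT_eq_sum_onePoint]

/-- existence of a Hecke representative system for `T_ℓ` -/
theorem exists_system_T {ℓ : ℕ} [Fact ℓ.Prime] (hℓN : ¬ ℓ ∣ N) (γ : Gamma0 N) :
    ∃ (π : Equiv.Perm (OnePoint (ZMod ℓ))) (γ' : OnePoint (ZMod ℓ) → Gamma0 N),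
      ∀ x, heckeRep ℓ x * mapGL ℝ (γ : SL(2, ℤ)) =
        mapGL ℝ (γ' x : SL(2, ℤ)) * heckeRep ℓ (π x) := by
  have hcN : (N : ℤ) ∣ (γ : SL(2, ℤ)) 1 0 :=
    (ZMod.intCast_zmod_eq_zero_iff_dvd _ _).mp (CongruenceSubgroup.Gamma0_mem.mp γ.2)
  have hex : ∀ x, ∃ g' : Gamma0 N, heckeRep ℓ x * mapGL ℝ (γ : SL(2, ℤ)) =
      mapGL ℝ (g' : SL(2, ℤ)) * heckeRep ℓ (MulAction.toPerm (redMatrix ℓ γ) x) := by
    intro x
    obtain ⟨g', hg', hmul⟩ := heckeRep_mul hℓN γ hcN x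
    exact ⟨⟨g', CongruenceSubgroup.Gamma0_mem.mpr
      ((ZMod.intCast_zmod_eq_zero_iff_dvd _ _).mpr hg')⟩, hmul⟩
  choose γ' hγ' using hex
  exact ⟨_, γ', hγ'⟩

/-- **Transfer formula for `U_q`** on `Hom_par(Γ₀(N), ℂ)`. -/
theorem heckeV_U_apply {q : ℕ} [NeZero q] (hqN : q ∣ N) (ψ : VPar N)
    (γ : Gamma0 N) (π : Equiv.Perm (ZMod q)) (γ' : ZMod q → Gamma0 N)
    (hmul : ∀ x : ZMod q, ModularForm.heckeMatrix q x.val * mapGL ℝ (γ : SL(2, ℤ)) =
      mapGL ℝ (γ' x : SL(2, ℤ)) * ModularForm.heckeMatrix q (π x).val) :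
    ((heckeV N (CuspForm.heckeULin 2 hqN) ψ : VPar N) : Additive (Gamma0 N) →+ ℂ)
        (Additive.ofMul γ) =
      ∑ x, (ψ : Additive (Gamma0 N) →+ ℂ) (Additive.ofMul (γ' x)) := by
  obtain ⟨⟨f, g⟩, rfl⟩ := (pairEquiv N).surjective ψ
  rw [heckeV_pairEquiv, coe_pairEquiv]
  simp only [coe_pairEquiv]
  refine periodHomPair_hecke (fun x : ZMod q => ModularForm.heckeMatrix q x.val) ?_ ?_ f g _ _ ?_ ?_
    γ π γ' hmul
  · intro x
    exact ModularForm.det_heckeMatrix_pos q _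
  · exact ⟨Equiv.neg (ZMod q), fun x => jc_heckeMatrix x⟩
  · rw [CuspForm.coe_heckeULin_apply, heckeU_eq_sum_zmod]
  · rw [CuspForm.coe_heckeULin_apply, heckeU_eq_sum_zmod]

/-- existence of a Hecke representative system for `U_q` -/
theorem exists_system_U {q : ℕ} [NeZero q] (hqN : q ∣ N) (γ : Gamma0 N) :
    ∃ (π : Equiv.Perm (ZMod q)) (γ' : ZMod q → Gamma0 N),
      ∀ x : ZMod q, ModularForm.heckeMatrix q x.val * mapGL ℝ (γ : SL(2, ℤ)) =
        mapGL ℝ (γ' x : SL(2, ℤ)) * ModularForm.heckeMatrix q (π x).val := by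
  have hcN : (N : ℤ) ∣ (γ : SL(2, ℤ)) 1 0 :=
    (ZMod.intCast_zmod_eq_zero_iff_dvd _ _).mp (CongruenceSubgroup.Gamma0_mem.mp γ.2)
  have hc : (q : ℤ) ∣ (γ : SL(2, ℤ)) 1 0 := (Int.natCast_dvd_natCast.mpr hqN).trans hcN
  have hex : ∀ x : ZMod q, ∃ g' : Gamma0 N,
      ModularForm.heckeMatrix q x.val * mapGL ℝ (γ : SL(2, ℤ)) =
      mapGL ℝ (g' : SL(2, ℤ)) * ModularForm.heckeMatrix q
        ((affinePerm (γ : SL(2, ℤ)) ((ZMod.intCast_zmod_eq_zero_iff_dvd _ _).mpr hc)) x).val := by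
    intro x
    obtain ⟨g', hg', hmul⟩ := heckeMatrix_mul_of_dvd (γ : SL(2, ℤ)) hc x
    refine ⟨⟨g', ?_⟩, hmul⟩
    rw [CongruenceSubgroup.Gamma0_mem, hg']
    push_cast
    rw [CongruenceSubgroup.Gamma0_mem.mp γ.2, mul_zero]
  choose γ' hγ' using hex
  exact ⟨_, γ', hγ'⟩

/-- integer valued elements of `Hom_par(Γ₀(N), ℂ)` -/
def IsInt (ψ : VPar N) : Prop := ∀ γ, ∃ m : ℤ, (ψ : Additive (Gamma0 N) →+ ℂ) γ = m

/-- the Hecke algebra preserves integrality -/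
theorem IsInt.heckeV {t : Module.End ℂ (S2 N)} (ht : t ∈ CuspForm.heckeAlgebra N 2 ∅)
    {ψ : VPar N} (hψ : IsInt ψ) : IsInt (heckeV N t ψ) := by
  induction ht using Algebra.adjoin_induction generalizing ψ with
  | mem x hx =>
    rcases hx with ⟨ℓ, hℓ, hℓN, -, rfl⟩ | ⟨q, hqN, hq, -, rfl⟩
    · have : Fact ℓ.Prime := ⟨hℓ⟩
      intro γ
      obtain ⟨π, γ', h⟩ := exists_system_T hℓN (Additive.toMul γ)
      have := heckeV_T_apply hℓ hℓN ψ (Additive.toMul γ) π γ' h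
      rw [ofMul_toMul] at this
      rw [this]
      exact exists_int_sum _ _ fun j _ => hψ _
    · have : NeZero q := ⟨hq.ne_zero⟩
      intro γ
      obtain ⟨π, γ', h⟩ := exists_system_U hqN (Additive.toMul γ)
      have := heckeV_U_apply hqN ψ (Additive.toMul γ) π γ' h
      rw [ofMul_toMul] at this
      rw [this]
      exact exists_int_sum _ _ fun j _ => hψ _
  | algebraMap r =>
    intro γ
    obtain ⟨m, hm⟩ := hψ γ
    refine ⟨r * m, ?_⟩
    rw [show algebraMap ℤ (Module.End ℂ (S2 N)) r = (r : Module.End ℂ (S2 N)) from rfl, map_intCast]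
    simp [hm]
  | add x y _ _ hx hy =>
    intro γ
    obtain ⟨m1, hm1⟩ := hx hψ γ
    obtain ⟨m2, hm2⟩ := hy hψ γ
    refine ⟨m1 + m2, ?_⟩
    rw [map_add, LinearMap.add_apply, Submodule.coe_add, AddMonoidHom.add_apply, hm1, hm2]
    simp
  | mul x y _ _ hx hy =>
    rw [map_mul, Module.End.mul_apply]
    exact hx (hy hψ)

/-- the inclusion of the Betti lattice in `Hom_par(Γ₀(N), ℂ)` -/
def betti.toV : betti N →ₗ[ℤ] VPar N where
  toFun ψ := ⟨ψ, ψ.2.1⟩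
  map_add' _ _ := rfl
  map_smul' c ψ := by
    apply Subtype.ext
    rfl

@[simp] theorem betti.coe_toV (ψ : betti N) :
    ((betti.toV ψ : VPar N) : Additive (Gamma0 N) →+ ℂ) = ψ := rfl

theorem betti.toV_injective : Function.Injective (betti.toV (N := N)) := by
  intro φ ψ h
  exact Subtype.ext (congrArg (fun x : VPar N => (x : Additive (Gamma0 N) →+ ℂ)) h)

theorem betti.isInt_toV (ψ : betti N) : IsInt (betti.toV ψ) := ψ.2.2

/-- integer valued elements lie in the lattice -/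
def betti.ofV (ψ : VPar N) (h : IsInt ψ) : betti N := ⟨ψ, ψ.2, h⟩

@[simp] theorem betti.toV_ofV (ψ : VPar N) (h : IsInt ψ) : betti.toV (betti.ofV ψ h) = ψ := rfl

variable (N)

/-- **The Hecke action on the Betti lattice.** -/
def bettiHecke : CuspForm.heckeAlgebra N 2 ∅ →+* Module.End ℤ (betti N) where
  toFun t :=
    { toFun := fun ψ => betti.ofV (heckeV N t (betti.toV ψ)) (IsInt.heckeV t.2 (betti.isInt_toV ψ))
      map_add' := fun φ ψ => betti.toV_injective (by simp)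
      map_smul' := fun c ψ => betti.toV_injective (by simp) }
  map_one' := LinearMap.ext fun ψ => betti.toV_injective (by simp)
  map_mul' s t := LinearMap.ext fun ψ => betti.toV_injective (by simp)
  map_zero' := LinearMap.ext fun ψ => betti.toV_injective (by simp)
  map_add' s t := LinearMap.ext fun ψ => betti.toV_injective (by simp)

variable {N}

@[simp] theorem toV_bettiHecke (t : CuspForm.heckeAlgebra N 2 ∅) (ψ : betti N) :
    betti.toV (bettiHecke N t ψ) = heckeV N t (betti.toV ψ) := rfl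

theorem betti.tensorEquiv_tmul' (c : ℂ) (ψ : betti N) :
    betti.tensorEquiv N (c ⊗ₜ ψ) = c • betti.toV ψ :=
  Subtype.ext (betti.tensorEquiv_tmul c ψ)

/-- `ℂ ⊗ Λ = Hom_par(Γ₀(N), ℂ)` is Hecke equivariant. -/
theorem betti.tensorEquiv_baseChange (t : CuspForm.heckeAlgebra N 2 ∅) (x : ℂ ⊗[ℤ] betti N) :
    betti.tensorEquiv N ((bettiHecke N t).baseChange ℂ x) = heckeV N t (betti.tensorEquiv N x) := by
  induction x using TensorProduct.induction_on with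
  | zero => simp
  | tmul c ψ =>
    rw [LinearMap.baseChange_tmul, betti.tensorEquiv_tmul', betti.tensorEquiv_tmul', map_smul,
      toV_bettiHecke]
  | add x y hx hy => rw [map_add, map_add, map_add, map_add, hx, hy]

/-- **Transfer formula for `T_ℓ`** on the Betti lattice. -/
theorem bettiHecke_T_apply {ℓ : ℕ} [Fact ℓ.Prime] (hℓ : ℓ.Prime) (hℓN : ¬ ℓ ∣ N) (ψ : betti N)
    (γ : Gamma0 N) (π : Equiv.Perm (OnePoint (ZMod ℓ))) (γ' : OnePoint (ZMod ℓ) → Gamma0 N)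
    (hmul : ∀ x, heckeRep ℓ x * mapGL ℝ (γ : SL(2, ℤ)) =
      mapGL ℝ (γ' x : SL(2, ℤ)) * heckeRep ℓ (π x)) :
    betti.toInt (bettiHecke N (CuspForm.heckeAlgebra.T hℓ hℓN (Set.notMem_empty ℓ)) ψ)
        (Additive.ofMul γ) = ∑ x, betti.toInt ψ (Additive.ofMul (γ' x)) := by
  have h := heckeV_T_apply hℓ hℓN (betti.toV ψ) γ π γ' hmul
  have h2 : ((betti.toInt (bettiHecke N (CuspForm.heckeAlgebra.T hℓ hℓN (Set.notMem_empty ℓ)) ψ)
      (Additive.ofMul γ) : ℤ) : ℂ) = ((∑ x, betti.toInt ψ (Additive.ofMul (γ' x)) : ℤ) : ℂ) := by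
    rw [betti.toInt_apply]
    push_cast
    simp only [betti.toInt_apply]
    exact h
  exact_mod_cast h2

/-- **Transfer formula for `U_q`** on the Betti lattice. -/
theorem bettiHecke_U_apply {q : ℕ} [NeZero q] (hq : q.Prime) (hqN : q ∣ N) (ψ : betti N)
    (γ : Gamma0 N) (π : Equiv.Perm (ZMod q)) (γ' : ZMod q → Gamma0 N)
    (hmul : ∀ x : ZMod q, ModularForm.heckeMatrix q x.val * mapGL ℝ (γ : SL(2, ℤ)) =
      mapGL ℝ (γ' x : SL(2, ℤ)) * ModularForm.heckeMatrix q (π x).val) :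
    betti.toInt (bettiHecke N (CuspForm.heckeAlgebra.U hq hqN (Set.notMem_empty q)) ψ)
        (Additive.ofMul γ) = ∑ x, betti.toInt ψ (Additive.ofMul (γ' x)) := by
  have h := heckeV_U_apply hqN (betti.toV ψ) γ π γ' hmul
  have h2 : ((betti.toInt (bettiHecke N (CuspForm.heckeAlgebra.U hq hqN (Set.notMem_empty q)) ψ)
      (Additive.ofMul γ) : ℤ) : ℂ) = ((∑ x, betti.toInt ψ (Additive.ofMul (γ' x)) : ℤ) : ℂ) := by
    rw [betti.toInt_apply]
    push_cast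
    simp only [betti.toInt_apply]
    exact h
  exact_mod_cast h2

end

end Fermat.Agent.ESlib
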