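import Fermat.Agent.ES.A.Betti
import Fermat.Agent.S16.Potential

/-!
# T-ES, Part A5 (5): the Betti lattice modulo `m`

* `betti.toInt_eq_zero_of_trace` : elements of the Betti lattice vanish on all `γ` with
  `(tr γ)² ≤ 4` (parabolic, elliptic, `±1`);
* `betti.mem_range_lsmul_iff` : `ψ ∈ m Λ` iff all the values of `ψ` are divisible by `m`;
* `betti.exists_lift` : every homomorphism `Γ₀(N) → ℤ/m` which is trivial on all `γ` with
  `(tr γ)² ≤ 4` is the reduction of an element of the Betti lattice.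
-/

set_option autoImplicit false

open CongruenceSubgroup ModularCurve ModularCurve.Period ModularGroup
open scoped MatrixGroups
open Fermat.Agent.S21h9

namespace Fermat.Agent.ESlib

noncomputable section

section Pot

variable {Γ : Subgroup SL(2, ℤ)} {A : Type*} [AddCommGroup A]

/-- The potential attached to a parabolic homomorphism with arbitrary coefficients. -/
def potOfA (φ : Additive Γ →+ A) (g : SL(2, ℤ)) : A :=
  φ (Additive.ofMul (Classical.choose (Classical.choose_spec (exists_decomp Γ g))))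

lemma potOfA_eq {φ : Additive Γ →+ A} (hφ : IsParabolicHom Γ φ) (g : SL(2, ℤ)) (n : ℤ) (γ : Γ)
    (h : g = T ^ n * rep Γ g * γ) : potOfA φ g = φ (Additive.ofMul γ) := by
  set n0 := Classical.choose (exists_decomp Γ g) with hn0
  set γ0 := Classical.choose (Classical.choose_spec (exists_decomp Γ g)) with hγ0
  have h0 : g = T ^ n0 * rep Γ g * γ0 :=
    Classical.choose_spec (Classical.choose_spec (exists_decomp Γ g))
  have hδ : ((γ * γ0⁻¹ : Γ) : SL(2, ℤ)) = (rep Γ g)⁻¹ * T ^ (n0 - n) * rep Γ g := by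
    have h1 : T ^ n * rep Γ g * (γ : SL(2, ℤ)) = T ^ n0 * rep Γ g * γ0 := by rw [← h, ← h0]
    have h2 : (γ : SL(2, ℤ)) = (rep Γ g)⁻¹ * T ^ (n0 - n) * rep Γ g * γ0 := by
      calc (γ : SL(2, ℤ)) = (rep Γ g)⁻¹ * (T ^ n)⁻¹ * (T ^ n * rep Γ g * (γ : SL(2, ℤ))) := by group
        _ = (rep Γ g)⁻¹ * (T ^ n)⁻¹ * (T ^ n0 * rep Γ g * γ0) := by rw [h1]
        _ = (rep Γ g)⁻¹ * T ^ (n0 - n) * rep Γ g * γ0 := by group
    rw [Subgroup.coe_mul, Subgroup.coe_inv]
    conv_lhs => rw [h2]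
    group
  have hz : φ (Additive.ofMul (γ * γ0⁻¹)) = 0 := by
    apply hφ
    rw [hδ, trace_conj_T_zpow]
    norm_num
  have : φ (Additive.ofMul γ) = φ (Additive.ofMul (γ * γ0⁻¹)) + φ (Additive.ofMul γ0) := by
    rw [← map_add, ← ofMul_mul, inv_mul_cancel_right]
  rw [this, hz, zero_add]
  rfl

lemma potOfA_T_mul {φ : Additive Γ →+ A} (hφ : IsParabolicHom Γ φ) (g : SL(2, ℤ)) :
    potOfA φ (T * g) = potOfA φ g := by
  obtain ⟨n, γ, h⟩ := exists_decomp Γ g
  rw [potOfA_eq hφ g n γ h, potOfA_eq hφ (T * g) (n + 1) γ]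
  rw [rep_T_mul]
  conv_lhs => rw [h]
  group

lemma potOfA_mul {φ : Additive Γ →+ A} (hφ : IsParabolicHom Γ φ) (g : SL(2, ℤ)) (δ : Γ) :
    potOfA φ (g * δ) = potOfA φ g + φ (Additive.ofMul δ) := by
  obtain ⟨n, γ, h⟩ := exists_decomp Γ g
  rw [potOfA_eq hφ g n γ h, potOfA_eq hφ (g * δ) n (γ * δ), ofMul_mul, map_add]
  rw [rep_mul_mem Γ g δ.2, Subgroup.coe_mul]
  conv_lhs => rw [h]
  group

end Pot

section Trace

lemma trace_conj_SL (r x : SL(2, ℤ)) :
    ((r⁻¹ * x * r : SL(2, ℤ)) : Matrix (Fin 2) (Fin 2) ℤ).trace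
      = (x : Matrix (Fin 2) (Fin 2) ℤ).trace := by
  rw [Matrix.SpecialLinearGroup.coe_mul, Matrix.SpecialLinearGroup.coe_mul,
    Matrix.trace_mul_cycle, ← Matrix.SpecialLinearGroup.coe_mul, mul_inv_cancel,
    Matrix.SpecialLinearGroup.coe_one, one_mul]

/-- an element of `SL(2, ℤ)` with `(tr γ)² < 4` has order dividing `12` -/
lemma pow_twelve_eq_one_of_trace (γ : SL(2, ℤ))
    (h : (γ : Matrix (Fin 2) (Fin 2) ℤ).trace ^ 2 < 4) : γ ^ 12 = 1 := by
  set M : Matrix (Fin 2) (Fin 2) ℤ := (γ : Matrix (Fin 2) (Fin 2) ℤ) with hM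
  set t : ℤ := M.trace with ht
  have hdet : M 0 0 * M 1 1 - M 0 1 * M 1 0 = 1 := by
    have := γ.det_coe
    rwa [Matrix.det_fin_two] at this
  have htr : M 0 0 + M 1 1 = t := by rw [ht, Matrix.trace_fin_two]
  have hCH : M * M = t • M - 1 := by
    rw [← htr]
    ext i j
    fin_cases i <;> fin_cases j <;>
      simp only [Matrix.mul_apply, Fin.sum_univ_two, Matrix.sub_apply, Matrix.smul_apply,
        smul_eq_mul, Matrix.one_apply, Fin.zero_eta, Fin.mk_one, Fin.isValue, if_true,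
        zero_ne_one, one_ne_zero, if_false] <;> first | ring1 | linear_combination -hdet
  have ht3 : t = 0 ∨ t = 1 ∨ t = -1 := by
    have h1 : -2 < t := by nlinarith
    have h2 : t < 2 := by nlinarith
    omega
  have key : M ^ 12 = 1 := by
    rcases ht3 with h0 | h0 | h0
    · rw [h0, zero_smul, zero_sub] at hCH
      calc M ^ 12 = (M * M) ^ 6 := by rw [← pow_two, ← pow_mul]
        _ = 1 := by rw [hCH, Even.neg_one_pow ⟨3, rfl⟩]
    · rw [h0, one_smul] at hCH
      have h3 : M * M * M = -1 := by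
        rw [hCH, sub_mul, hCH, one_mul]; abel
      calc M ^ 12 = (M * M * M) ^ 4 := by rw [← pow_two, ← pow_succ, ← pow_mul]
        _ = 1 := by rw [h3, Even.neg_one_pow ⟨2, rfl⟩]
    · rw [h0, neg_one_smul] at hCH
      have h3 : M * M * M = 1 := by
        rw [hCH, sub_mul, neg_mul, hCH, one_mul]; abel
      calc M ^ 12 = (M * M * M) ^ 4 := by rw [← pow_two, ← pow_succ, ← pow_mul]
        _ = 1 := by rw [h3, one_pow]
  apply Subtype.ext
  rw [Matrix.SpecialLinearGroup.coe_pow, Matrix.SpecialLinearGroup.coe_one]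
  exact key

end Trace

variable {N : ℕ}

/-- elements of the Betti lattice vanish on parabolic and elliptic elements and on `±1` -/
theorem betti.toInt_eq_zero_of_trace (ψ : betti N) (γ : Gamma0 N)
    (h : ((γ : SL(2, ℤ)) : Matrix (Fin 2) (Fin 2) ℤ).trace ^ 2 ≤ 4) :
    betti.toInt ψ (Additive.ofMul γ) = 0 := by
  rcases h.lt_or_eq with h | h
  · have h12 : γ ^ 12 = 1 := by
      apply Subtype.ext
      rw [Subgroup.coe_pow, Subgroup.coe_one]
      exact pow_twelve_eq_one_of_trace _ h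
    have h1 : (12 : ℕ) • betti.toInt ψ (Additive.ofMul γ) = 0 := by
      rw [← map_nsmul, ← ofMul_pow, h12, ofMul_one, map_zero]
    simpa using h1
  · exact (mem_parabolicHoms_iff.mp (betti.toInt_mem ψ)) γ h

/-- `ψ ∈ m Λ` iff all the values of `ψ` are divisible by `m` -/
theorem betti.mem_range_lsmul_iff (m : ℤ) (hm : m ≠ 0) (ψ : betti N) :
    ψ ∈ LinearMap.range (LinearMap.lsmul ℤ (betti N) m) ↔ ∀ γ, m ∣ betti.toInt ψ γ := by
  constructor
  · rintro ⟨φ, rfl⟩ γ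
    rw [LinearMap.lsmul_apply, map_smul, AddMonoidHom.smul_apply, smul_eq_mul]
    exact Dvd.intro _ rfl
  · intro h
    choose c hc using h
    have hadd : ∀ a b, c (a + b) = c a + c b := by
      intro a b
      apply mul_left_cancel₀ hm
      rw [mul_add, ← hc, ← hc, ← hc, map_add]
    let χ : Additive (Gamma0 N) →+ ℤ := AddMonoidHom.mk' c hadd
    have hχ : χ ∈ parabolicHoms ℤ (Gamma0 N) ℤ := by
      rw [mem_parabolicHoms_iff]
      intro γ hγ
      have h0 := (mem_parabolicHoms_iff.mp (betti.toInt_mem ψ)) γ hγ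
      rw [hc] at h0
      exact (mul_eq_zero.mp h0).resolve_left hm
    refine ⟨betti.ofInt χ hχ, ?_⟩
    apply betti.toInt_injective
    refine AddMonoidHom.ext fun γ => ?_
    rw [LinearMap.lsmul_apply, map_smul, AddMonoidHom.smul_apply, smul_eq_mul, betti.toInt_ofInt, hc]
    rfl

variable [NeZero N]

/-- **Lifting.**  Every homomorphism `Γ₀(N) → ℤ/m` which is trivial on the parabolic and elliptic
elements and on `±1` is the reduction of an element of the Betti lattice. -/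
theorem betti.exists_lift (m : ℕ) [NeZero m] (φ : Additive (Gamma0 N) →+ ZMod m)
    (hφ : ∀ γ : Gamma0 N, ((γ : SL(2, ℤ)) : Matrix (Fin 2) (Fin 2) ℤ).trace ^ 2 ≤ 4 →
      φ (Additive.ofMul γ) = 0) :
    ∃ ψ : betti N, ∀ γ, ((betti.toInt ψ γ : ℤ) : ZMod m) = φ γ := by
  have hpar : IsParabolicHom (Gamma0 N) φ := fun γ hγ => hφ γ hγ.le
  set vb : SL(2, ℤ) → ZMod m := fun g => potOfA φ g - potOfA φ 1 with hvb
  have hmul : ∀ (g : SL(2, ℤ)) (δ : Gamma0 N), vb (g * δ) = vb g + φ (Additive.ofMul δ) := by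
    intro g δ
    simp only [hvb]
    rw [potOfA_mul hpar]
    ring
  have hval : ∀ δ : Gamma0 N, vb δ = φ (Additive.ofMul δ) := by
    intro δ
    have := hmul 1 δ
    rw [one_mul] at this
    rw [this]
    simp [hvb]
  have hT : ∀ g, vb (T * g) = vb g := by
    intro g
    simp only [hvb]
    rw [potOfA_T_mul hpar]
  have hΓ : ∀ γ ∈ Gamma0 N, ∀ g, vb (g * γ) = vb g + vb γ := by
    intro γ hγ g
    rw [hmul g ⟨γ, hγ⟩, hval ⟨γ, hγ⟩]
  have hneg : ∀ g, vb (-g) = vb g := by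
    intro g
    have h1 : -g = g * ((⟨-1, Fermat.Agent.S21h9.neg_one_mem_Gamma0 N⟩ : Gamma0 N) : SL(2, ℤ)) := by
      simp
    rw [h1, hmul, hφ, add_zero]
    simp
  have hfS : ∀ g : SL(2, ℤ), ((S * g : SL(2, ℤ)) : SL(2, ℤ) ⧸ Gamma0 N) = g →
      vb g = vb (S⁻¹ * g) := by
    intro g hg
    have hδ : g⁻¹ * S⁻¹ * g ∈ Gamma0 N := by
      have := QuotientGroup.eq.1 hg
      rwa [mul_inv_rev] at this
    have h1 : S⁻¹ * g = g * ((⟨_, hδ⟩ : Gamma0 N) : SL(2, ℤ)) := by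
      simp only
      group
    rw [h1, hmul, hφ, add_zero]
    simp only
    rw [trace_conj_SL]
    decide
  have hfST : ∀ g : SL(2, ℤ), ((S * T * g : SL(2, ℤ)) : SL(2, ℤ) ⧸ Gamma0 N) = g →
      vb g = vb (S⁻¹ * g) := by
    intro g hg
    have hδ : g⁻¹ * (T⁻¹ * S⁻¹) * g ∈ Gamma0 N := by
      have := QuotientGroup.eq.1 hg
      rwa [mul_inv_rev, mul_inv_rev] at this
    have h1 : S⁻¹ * g = T * (g * ((⟨_, hδ⟩ : Gamma0 N) : SL(2, ℤ))) := by
      simp only
      group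
    rw [h1, hT, hmul, hφ, add_zero]
    simp only
    rw [trace_conj_SL]
    decide
  obtain ⟨ψ, hψ, h⟩ := Fermat.Agent.S16lib.exists_integral_parabolic N m vb hT hΓ hneg hfS hfST
  have hint : ∀ γ, ∃ k : ℤ, ψ γ = k := by
    intro γ
    obtain ⟨k, hk, -⟩ := h (Additive.toMul γ)
    exact ⟨k, hk⟩
  refine ⟨⟨ψ, hψ, hint⟩, fun γ => ?_⟩
  obtain ⟨k, hk, hk2⟩ := h (Additive.toMul γ)
  have h1 : ((betti.toInt (⟨ψ, hψ, hint⟩ : betti N) γ : ℤ) : ℂ) = (k : ℂ) := by
    rw [betti.toInt_apply]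
    exact hk
  have h2 : betti.toInt (⟨ψ, hψ, hint⟩ : betti N) γ = k := by exact_mod_cast h1
  rw [h2, hk2, hval]
  rfl

end

end Fermat.Agent.ESlib
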