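import Mathlib

/-!
# ES library, Part A, item A3a: Eisenstein series with a character of `Γ₀(N)`

For a bounded weight function `w : (Fin 2 → ℤ) → ℂ` we study the weighted Eisenstein series
`wEis k w z = ∑' v, w v * (v 0 z + v 1)^(-k)`; then we specialise to the weight function attached to
a unitary character `χ` of `Γ₀(N)` which is trivial on the upper triangular matrices.
-/

set_option autoImplicit false

open UpperHalfPlane ModularForm MatrixGroups Filter Topology EisensteinSeries CongruenceSubgroup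
  Matrix
open scoped Manifold

namespace Fermat.Agent.ESlib

/-- weighted Eisenstein series -/
noncomputable def wEis (k : ℤ) (w : (Fin 2 → ℤ) → ℂ) (z : ℍ) : ℂ :=
  ∑' v : Fin 2 → ℤ, w v * eisSummand k v z

theorem norm_wEis_summand_le {w : (Fin 2 → ℤ) → ℂ} (hw : ∀ v, ‖w v‖ ≤ 1) (k : ℤ)
    (v : Fin 2 → ℤ) (z : ℍ) : ‖w v * eisSummand k v z‖ ≤ ‖eisSummand k v z‖ := by
  rw [norm_mul]
  exact mul_le_of_le_one_left (norm_nonneg _) (hw v)

theorem summable_wEis {k : ℤ} (hk : 3 ≤ k) {w : (Fin 2 → ℤ) → ℂ} (hw : ∀ v, ‖w v‖ ≤ 1) (z : ℍ) :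
    Summable fun v : Fin 2 → ℤ => w v * eisSummand k v z :=
  Summable.of_norm_bounded (summable_norm_eisSummand hk z) (fun v => norm_wEis_summand_le hw k v z)

/-- right multiplication by `γ` as a permutation of `ℤ²` -/
noncomputable def vecMulEquiv (γ : SL(2, ℤ)) : (Fin 2 → ℤ) ≃ (Fin 2 → ℤ) where
  toFun v := v ᵥ* γ
  invFun v := v ᵥ* ↑(γ⁻¹)
  left_inv v := by
    simp_rw [vecMul_vecMul, ← Matrix.SpecialLinearGroup.coe_mul, mul_inv_cancel,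
      Matrix.SpecialLinearGroup.coe_one, vecMul_one]
  right_inv v := by
    simp_rw [vecMul_vecMul, ← Matrix.SpecialLinearGroup.coe_mul, inv_mul_cancel,
      Matrix.SpecialLinearGroup.coe_one, vecMul_one]

theorem wEis_slash (k : ℤ) (w : (Fin 2 → ℤ) → ℂ) (γ : SL(2, ℤ)) :
    wEis k w ∣[k] γ =
      wEis k (fun v => w (v ᵥ* ↑(γ⁻¹))) := by
  ext1 z
  simp_rw [SL_slash_apply, _root_.zpow_neg,
    mul_inv_eq_iff_eq_mul₀ (zpow_ne_zero _ <| denom_ne_zero _ z),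
    wEis, eisSummand_SL2_apply, ← tsum_mul_right]
  refine Eq.trans ?_ ((vecMulEquiv γ).tsum_eq _)
  refine tsum_congr fun v => ?_
  have : (vecMulEquiv γ v) ᵥ* ↑(γ⁻¹) = v :=
    (vecMulEquiv γ).left_inv v
  rw [this]
  simp only [vecMulEquiv, Equiv.coe_fn_mk]
  ring

theorem wEis_tendstoLocallyUniformly {k : ℤ} (hk : 3 ≤ k) {w : (Fin 2 → ℤ) → ℂ}
    (hw : ∀ v, ‖w v‖ ≤ 1) :
    TendstoLocallyUniformly (fun (s : Finset (Fin 2 → ℤ)) ↦ (∑ x ∈ s, w x * eisSummand k x ·))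
      (wEis k w ·) Filter.atTop := by
  have hk' : (2 : ℝ) < k := by norm_cast
  have p_sum : Summable fun x : Fin 2 → ℤ ↦ ‖x‖ ^ (-k) :=
    mod_cast (summable_one_div_norm_rpow hk')
  simp only [tendstoLocallyUniformly_iff_forall_isCompact, wEis]
  intro K hK
  obtain ⟨A, B, hB, HABK⟩ := subset_verticalStrip_of_isCompact hK
  refine (tendstoUniformlyOn_tsum (hu := p_sum.mul_left <| r ⟨⟨A, B⟩, hB⟩ ^ (-k : ℝ))
    (fun p z hz ↦ ?_)).mono HABK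
  refine (norm_wEis_summand_le hw k p z).trans ?_
  simpa only [eisSummand, one_div, ← _root_.zpow_neg, norm_zpow, ← Real.rpow_intCast,
    Int.cast_neg] using summand_bound_of_mem_verticalStrip (by positivity) p hB hz

theorem wEis_tendstoLocallyUniformlyOn {k : ℤ} (hk : 3 ≤ k) {w : (Fin 2 → ℤ) → ℂ}
    (hw : ∀ v, ‖w v‖ ≤ 1) :
    TendstoLocallyUniformlyOn (fun (s : Finset (Fin 2 → ℤ)) ↦
      ↑ₕ(fun (z : ℍ) ↦ ∑ x ∈ s, w x * eisSummand k x z)) (↑ₕ(wEis k w))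
          Filter.atTop {z : ℂ | 0 < z.im} := by
  rw [← upperHalfPlaneSet, ← range_coe, ← Set.image_univ]
  apply TendstoLocallyUniformlyOn.comp (s := ⊤) _ _ _ (OpenPartialHomeomorph.continuousOn_symm _)
  · simp only [Set.top_eq_univ, tendstoLocallyUniformlyOn_univ]
    apply wEis_tendstoLocallyUniformly hk hw
  · simp only [IsOpenEmbedding.toOpenPartialHomeomorph_target, Set.top_eq_univ,
      Set.mapsTo_range_iff, Set.mem_univ, forall_const]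

theorem mdiff_wEis {k : ℤ} (hk : 3 ≤ k) {w : (Fin 2 → ℤ) → ℂ} (hw : ∀ v, ‖w v‖ ≤ 1) :
    MDiff (wEis k w) := by
  rw [UpperHalfPlane.mdifferentiable_iff]
  refine (wEis_tendstoLocallyUniformlyOn hk hw).differentiableOn
    (Eventually.of_forall fun s ↦ ?_) isOpen_upperHalfPlaneSet
  have : (↑ₕ(fun (z : ℍ) ↦ ∑ x ∈ s, w x * eisSummand k x z)) =
      fun z : ℂ => ∑ x ∈ s, w x * (↑ₕ(eisSummand k x)) z := by
    ext z
    simp [Function.comp]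
  rw [this]
  exact DifferentiableOn.fun_sum fun x _ ↦
    (eisSummand_extension_differentiableOn k x).const_mul (w x)

/-- the majorant series is invariant under translations -/
theorem tsum_norm_eisSummand_T_zpow (k : ℤ) (n : ℤ) (z : ℍ) :
    ∑' v : Fin 2 → ℤ, ‖eisSummand k v (ModularGroup.T ^ n • z)‖ =
      ∑' v : Fin 2 → ℤ, ‖eisSummand k v z‖ := by
  have hd : denom (ModularGroup.T ^ n : SL(2, ℤ)) z = 1 := by
    rw [ModularGroup.denom_apply, ModularGroup.coe_T_zpow]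
    simp
  simp_rw [eisSummand_SL2_apply, hd, _root_.one_zpow, one_mul]
  exact (vecMulEquiv (ModularGroup.T ^ n)).tsum_eq (fun v => ‖eisSummand k v z‖)

theorem norm_wEis_le {k : ℤ} (hk : 3 ≤ k) {w : (Fin 2 → ℤ) → ℂ} (hw : ∀ v, ‖w v‖ ≤ 1) (z : ℍ) :
    ‖wEis k w z‖ ≤ ∑' v : Fin 2 → ℤ, ‖eisSummand k v z‖ := by
  refine (norm_tsum_le_tsum_norm ((summable_norm_eisSummand hk z).of_nonneg_of_le
    (fun _ => norm_nonneg _) (fun v => norm_wEis_summand_le hw k v z))).trans ?_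
  exact Summable.tsum_le_tsum (fun v => norm_wEis_summand_le hw k v z)
    ((summable_norm_eisSummand hk z).of_nonneg_of_le
    (fun _ => norm_nonneg _) (fun v => norm_wEis_summand_le hw k v z))
    (summable_norm_eisSummand hk z)

theorem isBoundedAtImInfty_wEis {k : ℤ} (hk : 3 ≤ k) {w : (Fin 2 → ℤ) → ℂ}
    (hw : ∀ v, ‖w v‖ ≤ 1) : IsBoundedAtImInfty (wEis k w) := by
  rw [UpperHalfPlane.isBoundedAtImInfty_iff]
  refine ⟨∑' (x : Fin 2 → ℤ), r ⟨⟨(1 : ℕ), 2⟩, Nat.ofNat_pos⟩ ^ (-k) * ‖x‖ ^ (-k), 2, ?_⟩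
  intro z hz
  obtain ⟨n, hn⟩ := (ModularGroup_T_zpow_mem_verticalStrip z (Nat.one_pos))
  refine (norm_wEis_le hk hw z).trans ?_
  rw [← tsum_norm_eisSummand_T_zpow k ((1 : ℕ) * n) z]
  have hk' : (2 : ℝ) < k := by norm_cast
  apply (summable_norm_eisSummand hk _).tsum_le_tsum _
  · exact_mod_cast (summable_one_div_norm_rpow hk').mul_left <|
      r ⟨⟨(1 : ℕ), 2⟩, Nat.ofNat_pos⟩ ^ (-k)
  · intro x
    simp_rw [eisSummand, norm_zpow]
    exact_mod_cast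
      summand_bound_of_mem_verticalStrip (lt_trans two_pos hk').le x two_pos
      (verticalStrip_anti_right (1 : ℕ) hz hn)

theorem isBoundedAtImInfty_wEis_slash {k : ℤ} (hk : 3 ≤ k) {w : (Fin 2 → ℤ) → ℂ}
    (hw : ∀ v, ‖w v‖ ≤ 1) (A : SL(2, ℤ)) : IsBoundedAtImInfty (wEis k w ∣[k] A) := by
  rw [wEis_slash]
  exact isBoundedAtImInfty_wEis hk (fun v => hw _)

theorem wEis_T_zpow_smul (k : ℤ) {w : (Fin 2 → ℤ) → ℂ}
    (hT : ∀ (n : ℤ) (v : Fin 2 → ℤ), w (v ᵥ* ↑(ModularGroup.T ^ n)) = w v) (n : ℤ) (z : ℍ) :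
    wEis k w (ModularGroup.T ^ n • z) = wEis k w z := by
  have hd : denom (ModularGroup.T ^ n : SL(2, ℤ)) z = 1 := by
    rw [ModularGroup.denom_apply, ModularGroup.coe_T_zpow]
    simp
  have h := congrFun (wEis_slash k w (ModularGroup.T ^ n)) z
  rw [SL_slash_apply, hd, _root_.one_zpow, mul_one] at h
  rw [h]
  congr 1
  ext v
  rw [← _root_.zpow_neg]
  exact hT _ v

theorem tendsto_eisSummand_atImInfty {k : ℤ} (hk : 1 ≤ k) (v : Fin 2 → ℤ) :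
    Tendsto (fun z : ℍ => eisSummand k v z) atImInfty
      (𝓝 (if v 0 = 0 then ((v 1 : ℤ) : ℂ) ^ (-k) else 0)) := by
  split_ifs with h0
  · simp only [eisSummand, h0, Int.cast_zero, zero_mul, zero_add]
    exact tendsto_const_nhds
  · rw [tendsto_zero_iff_norm_tendsto_zero]
    have h1 : Tendsto (fun z : ℍ => ‖((v 0 : ℤ) : ℂ) * (z : ℂ) + ((v 1 : ℤ) : ℂ)‖) atImInfty atTop := by
      refine tendsto_atTop_mono (fun z => ?_) (tendsto_comap (f := UpperHalfPlane.im) (x := atTop))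
      have h2 : |(((v 0 : ℤ) : ℂ) * (z : ℂ) + ((v 1 : ℤ) : ℂ)).im| ≤ _ := Complex.abs_im_le_norm _
      refine le_trans ?_ h2
      have h3 : (((v 0 : ℤ) : ℂ) * (z : ℂ) + ((v 1 : ℤ) : ℂ)).im = (v 0 : ℝ) * z.im := by
        simp
      rw [h3, abs_mul, abs_of_pos z.im_pos]
      have h4 : (1 : ℝ) ≤ |((v 0 : ℤ) : ℝ)| := by
        exact_mod_cast Int.one_le_abs h0
      nlinarith [z.im_pos]
    have h5 := (tendsto_zpow_atTop_zero (𝕜 := ℝ) (n := -k) (by omega)).comp h1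
    simpa only [eisSummand, norm_zpow, Function.comp_def] using h5

theorem tendsto_wEis {k : ℤ} (hk : 3 ≤ k) {w : (Fin 2 → ℤ) → ℂ} (hw : ∀ v, ‖w v‖ ≤ 1)
    (hT : ∀ (n : ℤ) (v : Fin 2 → ℤ), w (v ᵥ* ↑(ModularGroup.T ^ n)) = w v) :
    Tendsto (wEis k w) atImInfty
      (𝓝 (∑' v : Fin 2 → ℤ, w v * (if v 0 = 0 then ((v 1 : ℤ) : ℂ) ^ (-k) else 0))) := by
  have hk' : (2 : ℝ) < k := by norm_cast
  -- the limit inside the strip
  have hstrip : Tendsto (wEis k w) (atImInfty ⊓ 𝓟 {z : ℍ | |z.re| ≤ (1 : ℕ)})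
      (𝓝 (∑' v : Fin 2 → ℤ, w v * (if v 0 = 0 then ((v 1 : ℤ) : ℂ) ^ (-k) else 0))) := by
    refine tendsto_tsum_of_dominated_convergence
      (bound := fun x : Fin 2 → ℤ => r ⟨⟨(1 : ℕ), 2⟩, Nat.ofNat_pos⟩ ^ (-k) * ‖x‖ ^ (-k)) ?_ ?_ ?_
    · exact_mod_cast (summable_one_div_norm_rpow hk').mul_left <|
        r ⟨⟨(1 : ℕ), 2⟩, Nat.ofNat_pos⟩ ^ (-k)
    · intro v
      exact ((tendsto_eisSummand_atImInfty (by omega) v).const_mul (w v)).mono_left inf_le_left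
    · rw [eventually_inf_principal]
      have : ∀ᶠ z : ℍ in atImInfty, 2 ≤ z.im :=
        (atImInfty_mem _).mpr ⟨2, fun z hz => hz⟩
      filter_upwards [this] with z hz hre v
      refine (norm_wEis_summand_le hw k v z).trans ?_
      simp_rw [eisSummand, norm_zpow]
      exact_mod_cast
        summand_bound_of_mem_verticalStrip (lt_trans two_pos hk').le v two_pos
        (⟨hre, hz⟩ : z ∈ verticalStrip (1 : ℕ) 2)
  intro U hU
  have h1 := hstrip hU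
  rw [mem_map, mem_inf_principal, atImInfty_mem] at h1
  obtain ⟨A, hA⟩ := h1
  rw [mem_map, atImInfty_mem]
  refine ⟨A, fun z hz => ?_⟩
  obtain ⟨n, hn⟩ := (ModularGroup_T_zpow_mem_verticalStrip z (Nat.one_pos))
  have h2 := hA (ModularGroup.T ^ ((1 : ℕ) * n) • z) (by
    rw [ModularGroup.im_T_zpow_smul]; exact hz) hn.1
  simp only [Set.mem_preimage] at h2 ⊢
  rwa [wEis_T_zpow_smul k hT] at h2

/-! ### The weight function of a character -/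

/-- bottom row of a matrix of `SL(2, ℤ)` -/
def botRow (γ : SL(2, ℤ)) : Fin 2 → ℤ := fun j => γ 1 j

theorem botRow_mul (δ γ : SL(2, ℤ)) : botRow (δ * γ) = botRow δ ᵥ* γ := by
  ext j
  simp only [botRow, Matrix.SpecialLinearGroup.coe_mul, Matrix.mul_apply, vecMul, dotProduct]

theorem botRow_one : botRow 1 = ![0, 1] := by
  ext j
  fin_cases j <;> simp [botRow]

variable {N : ℕ}

open Classical in
/-- the weight function attached to a character of `Γ₀(N)` -/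
noncomputable def chiW (χ : ↥(Gamma0 N) →* ℂˣ) (v : Fin 2 → ℤ) : ℂ :=
  if h : ∃ δ : ↥(Gamma0 N), botRow (δ : SL(2, ℤ)) = v then ((χ h.choose : ℂˣ) : ℂ)⁻¹ else 0

theorem chi_eq_of_botRow_eq {χ : ↥(Gamma0 N) →* ℂˣ}
    (hT : ∀ γ : ↥(Gamma0 N), (γ : SL(2, ℤ)) 1 0 = 0 → χ γ = 1) {δ δ' : ↥(Gamma0 N)}
    (h : botRow (δ : SL(2, ℤ)) = botRow (δ' : SL(2, ℤ))) : χ δ = χ δ' := by
  have h1 : botRow ((δ * δ'⁻¹ : ↥(Gamma0 N)) : SL(2, ℤ)) = ![0, 1] := by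
    rw [Subgroup.coe_mul, botRow_mul, h, ← botRow_mul, Subgroup.coe_inv, mul_inv_cancel, botRow_one]
  have h2 : χ (δ * δ'⁻¹) = 1 := hT _ (by simpa [botRow] using congrFun h1 0)
  rw [map_mul, map_inv, mul_inv_eq_one] at h2
  exact h2

theorem chiW_botRow {χ : ↥(Gamma0 N) →* ℂˣ}
    (hT : ∀ γ : ↥(Gamma0 N), (γ : SL(2, ℤ)) 1 0 = 0 → χ γ = 1) (δ : ↥(Gamma0 N)) :
    chiW χ (botRow (δ : SL(2, ℤ))) = ((χ δ : ℂˣ) : ℂ)⁻¹ := by
  have h : ∃ δ' : ↥(Gamma0 N), botRow (δ' : SL(2, ℤ)) = botRow (δ : SL(2, ℤ)) := ⟨δ, rfl⟩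
  rw [chiW, dif_pos h, chi_eq_of_botRow_eq hT h.choose_spec]

theorem chiW_of_not {χ : ↥(Gamma0 N) →* ℂˣ} {v : Fin 2 → ℤ}
    (h : ¬ ∃ δ : ↥(Gamma0 N), botRow (δ : SL(2, ℤ)) = v) : chiW χ v = 0 := by
  rw [chiW, dif_neg h]

theorem norm_chiW_le {χ : ↥(Gamma0 N) →* ℂˣ} (hn : ∀ γ, ‖((χ γ : ℂˣ) : ℂ)‖ = 1)
    (v : Fin 2 → ℤ) : ‖chiW χ v‖ ≤ 1 := by
  unfold chiW
  split_ifs with h
  · rw [norm_inv, hn, inv_one]
  · simp

theorem chiW_vecMul_inv {χ : ↥(Gamma0 N) →* ℂˣ}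
    (hT : ∀ γ : ↥(Gamma0 N), (γ : SL(2, ℤ)) 1 0 = 0 → χ γ = 1) (γ : ↥(Gamma0 N))
    (v : Fin 2 → ℤ) :
    chiW χ (v ᵥ* ↑((γ : SL(2, ℤ))⁻¹)) = ((χ γ : ℂˣ) : ℂ) * chiW χ v := by
  by_cases h : ∃ δ : ↥(Gamma0 N), botRow (δ : SL(2, ℤ)) = v
  · obtain ⟨δ, rfl⟩ := h
    rw [← botRow_mul, ← Subgroup.coe_inv, ← Subgroup.coe_mul, chiW_botRow hT, chiW_botRow hT,
      map_mul, map_inv]
    simp
  · rw [chiW_of_not h, mul_zero]
    refine chiW_of_not ?_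
    rintro ⟨δ, hδ⟩
    refine h ⟨δ * γ, ?_⟩
    rw [Subgroup.coe_mul, botRow_mul, hδ]
    exact (vecMulEquiv (γ : SL(2, ℤ))).right_inv v

/-- the Eisenstein series of weight `k` with character `χ` -/
noncomputable def eisChar (k : ℤ) (χ : ↥(Gamma0 N) →* ℂˣ) : ℍ → ℂ := wEis k (chiW χ)

theorem mdiff_eisChar {k : ℤ} (hk : 3 ≤ k) {χ : ↥(Gamma0 N) →* ℂˣ}
    (hn : ∀ γ, ‖((χ γ : ℂˣ) : ℂ)‖ = 1) : MDiff (eisChar k χ) :=
  mdiff_wEis hk (norm_chiW_le hn)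

theorem eisChar_slash (k : ℤ) {χ : ↥(Gamma0 N) →* ℂˣ}
    (hT : ∀ γ : ↥(Gamma0 N), (γ : SL(2, ℤ)) 1 0 = 0 → χ γ = 1) (γ : ↥(Gamma0 N)) :
    eisChar k χ ∣[k] (γ : SL(2, ℤ)) = ((χ γ : ℂˣ) : ℂ) • eisChar k χ := by
  rw [eisChar, wEis_slash]
  ext z
  simp only [wEis, chiW_vecMul_inv hT, Pi.smul_apply, smul_eq_mul, mul_assoc, tsum_mul_left]

theorem isBoundedAtImInfty_eisChar_slash {k : ℤ} (hk : 3 ≤ k) {χ : ↥(Gamma0 N) →* ℂˣ}
    (hn : ∀ γ, ‖((χ γ : ℂˣ) : ℂ)‖ = 1) (A : SL(2, ℤ)) :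
    IsBoundedAtImInfty (eisChar k χ ∣[k] A) :=
  isBoundedAtImInfty_wEis_slash hk (norm_chiW_le hn) A

theorem T_zpow_mem_Gamma0 (N : ℕ) (n : ℤ) : ModularGroup.T ^ n ∈ Gamma0 N := by
  rw [Gamma0_mem, ModularGroup.coe_T_zpow]
  simp

theorem neg_one_mem_Gamma0 (N : ℕ) : (-1 : SL(2, ℤ)) ∈ Gamma0 N := by
  rw [Gamma0_mem]
  simp

theorem chiW_vecMul_T_zpow {χ : ↥(Gamma0 N) →* ℂˣ}
    (hT : ∀ γ : ↥(Gamma0 N), (γ : SL(2, ℤ)) 1 0 = 0 → χ γ = 1) (n : ℤ) (v : Fin 2 → ℤ) :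
    chiW χ (v ᵥ* ↑(ModularGroup.T ^ n)) = chiW χ v := by
  have h := chiW_vecMul_inv hT ⟨ModularGroup.T ^ (-n), T_zpow_mem_Gamma0 N (-n)⟩ v
  have h1 : χ ⟨ModularGroup.T ^ (-n), T_zpow_mem_Gamma0 N (-n)⟩ = 1 := hT _ (by
    show (ModularGroup.T ^ (-n) : SL(2, ℤ)) 1 0 = 0
    rw [ModularGroup.coe_T_zpow]
    simp)
  rw [h1] at h
  simpa using h

theorem tsum_chiW {k : ℤ} (hk : Even k) {χ : ↥(Gamma0 N) →* ℂˣ}
    (hT : ∀ γ : ↥(Gamma0 N), (γ : SL(2, ℤ)) 1 0 = 0 → χ γ = 1) :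
    ∑' v : Fin 2 → ℤ, chiW χ v * (if v 0 = 0 then ((v 1 : ℤ) : ℂ) ^ (-k) else 0) = 2 := by
  have h01 : (![0, 1] : Fin 2 → ℤ) ≠ ![0, -1] := by
    intro h
    have := congrFun h 1
    simp at this
  rw [tsum_eq_sum (s := {![0, 1], ![0, -1]})]
  · rw [Finset.sum_pair h01]
    have e1 : chiW χ ![0, 1] = 1 := by
      have := chiW_botRow hT (1 : ↥(Gamma0 N))
      rw [Subgroup.coe_one, botRow_one] at this
      simpa using this
    have e2 : chiW χ ![0, -1] = 1 := by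
      have := chiW_botRow hT ⟨-1, neg_one_mem_Gamma0 N⟩
      have hb : botRow (-1 : SL(2, ℤ)) = ![0, -1] := by
        ext j
        fin_cases j <;> simp [botRow]
      rw [hb, hT _ (by simp)] at this
      simpa using this
    rw [e1, e2]
    have e3 : ((-1 : ℂ)) ^ (-k) = 1 := (Even.neg hk).neg_one_zpow
    simp [e3]
    norm_num
  · intro v hv
    by_cases h0 : v 0 = 0
    · by_cases h : ∃ δ : ↥(Gamma0 N), botRow (δ : SL(2, ℤ)) = v
      · exfalso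
        obtain ⟨δ, rfl⟩ := h
        have hdet := Matrix.SpecialLinearGroup.det_coe (δ : SL(2, ℤ))
        rw [Matrix.det_fin_two] at hdet
        have hc : (δ : SL(2, ℤ)) 1 0 = 0 := h0
        rw [hc, mul_zero, sub_zero] at hdet
        have hd : (δ : SL(2, ℤ)) 1 1 = 1 ∨ (δ : SL(2, ℤ)) 1 1 = -1 :=
          Int.isUnit_iff.mp (IsUnit.of_mul_eq_one _ (by rw [mul_comm]; exact hdet))
        apply hv
        simp only [Finset.mem_insert, Finset.mem_singleton]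
        rcases hd with hd | hd
        · left
          ext j
          fin_cases j
          · exact hc
          · exact hd
        · right
          ext j
          fin_cases j
          · exact hc
          · exact hd
      · rw [chiW_of_not h, zero_mul]
    · rw [if_neg h0, mul_zero]

theorem tendsto_eisChar {k : ℤ} (hk : 3 ≤ k) (hk2 : Even k) {χ : ↥(Gamma0 N) →* ℂˣ}
    (hn : ∀ γ, ‖((χ γ : ℂˣ) : ℂ)‖ = 1)
    (hT : ∀ γ : ↥(Gamma0 N), (γ : SL(2, ℤ)) 1 0 = 0 → χ γ = 1) :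
    Tendsto (eisChar k χ) atImInfty (𝓝 2) := by
  have := tendsto_wEis hk (norm_chiW_le hn) (chiW_vecMul_T_zpow hT)
  rwa [tsum_chiW hk2 hT] at this

theorem eisChar_ne_zero {k : ℤ} (hk : 3 ≤ k) (hk2 : Even k) {χ : ↥(Gamma0 N) →* ℂˣ}
    (hn : ∀ γ, ‖((χ γ : ℂˣ) : ℂ)‖ = 1)
    (hT : ∀ γ : ↥(Gamma0 N), (γ : SL(2, ℤ)) 1 0 = 0 → χ γ = 1) :
    eisChar k χ ≠ 0 := by
  intro h
  have h1 := tendsto_eisChar hk hk2 hn hT
  rw [h] at h1
  have h2 : Tendsto (0 : ℍ → ℂ) atImInfty (𝓝 0) := tendsto_const_nhds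
  exact two_ne_zero (tendsto_nhds_unique h1 h2)

end Fermat.Agent.ESlib
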