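import Fermat.Agent.ES.A.FunDefs
import Fermat.Agent.ES.E.HeckeSeries
import Fermat.Agent.ES.Dict.Invariant
import Fermat.Prelude.Sol.S_ModularForm_heckeT_slash_eq_self_of_mem_Gamma0

/-!
# ES library, Part A4 (function side of the Hecke operators): definitions

* `prodU p g τ = ∏_{j < p} g ((τ + j) / p)`, `prodT p g τ = g (p τ) * prodU p g τ` : the multiplicative
  Hecke operators on functions on `ℍ` (analytic avatars of `normU`, `heckeTS` of `ES/E/HeckeSeries`);
* `ModGrowth g` : `g = O(exp (A Im τ))` at `i∞`;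
* `IsTransfer α χ χ'` : `χ' γ = ∏_j χ (γ_j)` whenever `α_j γ = γ_j α_{π j}`.
-/

set_option autoImplicit false

open UpperHalfPlane ModularForm MatrixGroups Filter Topology CongruenceSubgroup ModularCurve
open Matrix.SpecialLinearGroup
open scoped Manifold
open Fermat.Agent.S24lib

namespace Fermat.Agent.ESlib

/-- the multiplicative `U_p` on functions -/
noncomputable def prodU (p : ℕ) (g : ℍ → ℂ) (τ : ℍ) : ℂ :=
  ∏ j ∈ Finset.range p, g (ModularForm.heckeMatrix p j • τ)

/-- the multiplicative `T_p` on functions -/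
noncomputable def prodT (p : ℕ) (g : ℍ → ℂ) (τ : ℍ) : ℂ :=
  g (ModularForm.heckeDiagMatrix p • τ) * prodU p g τ

/-- at most exponential growth at `i∞` -/
def ModGrowth (g : ℍ → ℂ) : Prop :=
  ∃ A : ℝ, g =O[atImInfty] fun τ : ℍ => Real.exp (A * τ.im)

/-- at most exponential growth at all cusps -/
def ModAll (g : ℍ → ℂ) : Prop := ∀ γ : SL(2, ℤ), ModGrowth (fun τ => g (γ • τ))

/-- `χ'` is the transfer of `χ` along the family of representatives `α` -/
def IsTransfer {N : ℕ} {J : Type*} [Fintype J] (α : J → GL (Fin 2) ℝ)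
    (χ χ' : ↥(Gamma0 N) →* ℂˣ) : Prop :=
  ∀ (γ : ↥(Gamma0 N)) (π : Equiv.Perm J) (γ' : J → ↥(Gamma0 N)),
    (∀ j, α j * mapGL ℝ (γ : SL(2, ℤ)) = mapGL ℝ (γ' j : SL(2, ℤ)) * α (π j)) →
      χ' γ = ∏ j, χ (γ' j)

end Fermat.Agent.ESlib
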