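import Fermat.Agent.ES.A.BettiLift
import Fermat.Agent.ES.A.BettiHecke
import Fermat.Agent.ES.A.HeckeFunDefs

/-!
# T-ES, Part A (AF7): `Λ / m Λ ≃ XGrp N m`

For `ψ` in the Betti lattice `Λ = betti N`, `expChar m ψ` is the character
`γ ↦ exp (2 π i ψ(γ) / m)` of `Γ₀(N)`.

* `expChar_mem_XGrp`, `expChar_add`, `expChar_eq_one_iff` (kernel `= m Λ`), `exists_expChar_eq`
  (surjectivity onto `XGrp N m`);
* `expChar_mul_pow` : `expChar (m * k) ψ ^ k = expChar m ψ`;
* `IsTransfer.expChar_T`, `IsTransfer.expChar_U` : the transfer of `expChar m ψ` is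
  `expChar m (T ψ)`;
* `bettiX N m : Multiplicative (Λ ⧸ m Λ) ≃* XGrp N m`.
-/

set_option autoImplicit false

open CongruenceSubgroup ModularCurve ModularCurve.Period Matrix.SpecialLinearGroup
open scoped MatrixGroups Real
open P2MW.S_ModularForm_heckeT_slash_eq_self_of_mem_Gamma0.ModularForm.HeckeSlashInvariance

namespace Fermat.Agent.ESlib

noncomputable section

/-- `exp (2 π i / m)` as a unit of `ℂ` -/
def rootU (m : ℕ) : ℂˣ :=
  Units.mk0 (Complex.exp (2 * π * Complex.I / m)) (Complex.exp_ne_zero _)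

theorem coe_rootU (m : ℕ) : ((rootU m : ℂˣ) : ℂ) = Complex.exp (2 * π * Complex.I / m) := rfl

theorem isPrimitiveRoot_rootU (m : ℕ) [NeZero m] : IsPrimitiveRoot (rootU m) m := by
  rw [← IsPrimitiveRoot.coe_units_iff, coe_rootU]
  exact Complex.isPrimitiveRoot_exp m (NeZero.ne m)

theorem rootU_mul_pow (m k : ℕ) (hk : k ≠ 0) : rootU (m * k) ^ k = rootU m := by
  apply Units.ext
  rw [Units.val_pow_eq_pow_val, coe_rootU, coe_rootU, ← Complex.exp_nat_mul]
  congr 1
  have : (k : ℂ) ≠ 0 := by exact_mod_cast hk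
  rcases Nat.eq_zero_or_pos m with rfl | hm
  · simp
  · have : (m : ℂ) ≠ 0 := by exact_mod_cast hm.ne'
    push_cast
    field_simp

variable {N : ℕ}

/-- the submodule `m Λ` of the Betti lattice -/
abbrev mSub (N m : ℕ) : Submodule ℤ (betti N) :=
  LinearMap.range (LinearMap.lsmul ℤ (betti N) (m : ℤ))

/-- the character `γ ↦ exp (2 π i ψ(γ) / m)` -/
def expChar (m : ℕ) (ψ : betti N) : ↥(Gamma0 N) →* ℂˣ where
  toFun γ := rootU m ^ (betti.toInt ψ (Additive.ofMul γ))
  map_one' := by rw [ofMul_one, map_zero, zpow_zero]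
  map_mul' a b := by rw [ofMul_mul, map_add, zpow_add]

theorem expChar_apply (m : ℕ) (ψ : betti N) (γ : ↥(Gamma0 N)) :
    expChar m ψ γ = rootU m ^ (betti.toInt ψ (Additive.ofMul γ)) := rfl

theorem expChar_add (m : ℕ) (φ ψ : betti N) :
    expChar m (φ + ψ) = expChar m φ * expChar m ψ := by
  ext γ
  rw [MonoidHom.mul_apply, expChar_apply, expChar_apply, expChar_apply, map_add,
    AddMonoidHom.add_apply, zpow_add]

theorem expChar_zero (m : ℕ) : expChar m (0 : betti N) = 1 := by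
  ext γ
  rw [expChar_apply, map_zero, AddMonoidHom.zero_apply, zpow_zero, MonoidHom.one_apply]

theorem expChar_neg (m : ℕ) (ψ : betti N) : expChar m (-ψ) = (expChar m ψ)⁻¹ := by
  ext γ
  rw [MonoidHom.inv_apply, expChar_apply, expChar_apply, map_neg, AddMonoidHom.neg_apply, zpow_neg]

theorem expChar_mul_pow (m k : ℕ) (hk : k ≠ 0) (ψ : betti N) :
    expChar (m * k) ψ ^ k = expChar m ψ := by
  ext γ
  rw [MonoidHom.pow_apply, expChar_apply, expChar_apply, ← zpow_natCast, ← zpow_mul, zpow_mul',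
    zpow_natCast, rootU_mul_pow m k hk]

theorem expChar_mem_XGrp (m : ℕ) [NeZero m] (ψ : betti N) : expChar m ψ ∈ XGrp N m := by
  rw [mem_XGrp]
  refine ⟨fun γ => ?_, fun γ hγ => ?_⟩
  · rw [expChar_apply, ← zpow_natCast, ← zpow_mul, zpow_mul', zpow_natCast,
      (isPrimitiveRoot_rootU m).pow_eq_one, one_zpow]
  · rw [expChar_apply, betti.toInt_eq_zero_of_trace ψ γ hγ, zpow_zero]

/-- the kernel of `expChar m` is `m Λ` -/
theorem expChar_eq_one_iff (m : ℕ) [NeZero m] (ψ : betti N) :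
    expChar m ψ = 1 ↔ ψ ∈ mSub N m := by
  rw [betti.mem_range_lsmul_iff (m : ℤ) (by exact_mod_cast NeZero.ne m)]
  constructor
  · intro h γ
    have := DFunLike.congr_fun h (Additive.toMul γ)
    rw [expChar_apply, MonoidHom.one_apply, (isPrimitiveRoot_rootU m).zpow_eq_one_iff_dvd] at this
    exact this
  · intro h
    ext γ
    rw [expChar_apply, MonoidHom.one_apply,
      ((isPrimitiveRoot_rootU m).zpow_eq_one_iff_dvd _).2 (h _)]

theorem expChar_eq_iff (m : ℕ) [NeZero m] (φ ψ : betti N) :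
    expChar m φ = expChar m ψ ↔ φ - ψ ∈ mSub N m := by
  rw [← expChar_eq_one_iff]
  have key : expChar m (φ - ψ) * expChar m ψ = expChar m φ := by
    rw [← expChar_add, sub_add_cancel]
  constructor
  · intro h
    ext γ
    have := DFunLike.congr_fun key γ
    rw [h, MonoidHom.mul_apply, mul_eq_right] at this
    rw [this, MonoidHom.one_apply]
  · intro h
    ext γ
    rw [← key, h, MonoidHom.mul_apply, MonoidHom.one_apply, one_mul]

/-- **surjectivity** of `expChar m` onto `XGrp N m` -/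
theorem exists_expChar_eq [NeZero N] (m : ℕ) [NeZero m] {χ : ↥(Gamma0 N) →* ℂˣ}
    (hχ : χ ∈ XGrp N m) : ∃ ψ : betti N, expChar m ψ = χ := by
  have hprim := isPrimitiveRoot_rootU m
  rw [mem_XGrp] at hχ
  have hmem : ∀ γ, χ γ ∈ Subgroup.zpowers (rootU m) := by
    intro γ
    rw [hprim.zpowers_eq, mem_rootsOfUnity]
    exact hχ.1 γ
  let χ' : ↥(Gamma0 N) →* Subgroup.zpowers (rootU m) := χ.codRestrict _ hmem
  let φ : Additive ↥(Gamma0 N) →+ ZMod m :=
    (hprim.zmodEquivZPowers.symm : Additive (Subgroup.zpowers (rootU m)) →+ ZMod m).comp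
      (MonoidHom.toAdditive χ')
  have hφ : ∀ γ : ↥(Gamma0 N), hprim.zmodEquivZPowers (φ (Additive.ofMul γ))
      = Additive.ofMul (χ' γ) := by
    intro γ
    exact hprim.zmodEquivZPowers.apply_symm_apply _
  obtain ⟨ψ, hψ⟩ := betti.exists_lift m φ (by
    intro γ hγ
    apply hprim.zmodEquivZPowers.injective
    rw [hφ, map_zero]
    have : χ' γ = 1 := Subtype.ext (hχ.2 γ hγ)
    rw [this, ofMul_one])
  refine ⟨ψ, ?_⟩
  ext γ
  have h1 := hφ γ
  rw [← hψ, hprim.zmodEquivZPowers_apply_coe_int] at h1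
  have h2 := congrArg (fun x : Additive (Subgroup.zpowers (rootU m)) =>
    ((Additive.toMul x : Subgroup.zpowers (rootU m)) : ℂˣ)) h1
  rw [expChar_apply]
  exact congrArg Units.val h2

section Transfer

theorem prod_zpow_eq_zpow_sum' {G J : Type*} [CommGroup G] (a : G) (s : Finset J) (f : J → ℤ) :
    ∏ j ∈ s, a ^ f j = a ^ ∑ j ∈ s, f j := by
  classical
  induction s using Finset.induction_on with
  | empty => simp
  | insert j s hj ih => rw [Finset.prod_insert hj, Finset.sum_insert hj, zpow_add, ih]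

variable [NeZero N]

/-- the transfer of `expChar m ψ` along the representatives of `T_ℓ` is `expChar m (T_ℓ ψ)` -/
theorem IsTransfer.expChar_T {m ℓ : ℕ} [Fact ℓ.Prime] (hℓ : ℓ.Prime) (hℓN : ¬ ℓ ∣ N) {ψ : betti N}
    {χ' : ↥(Gamma0 N) →* ℂˣ} (h : IsTransfer (heckeRep ℓ) (expChar m ψ) χ') :
    χ' = expChar m (bettiHecke N (CuspForm.heckeAlgebra.T hℓ hℓN (Set.notMem_empty ℓ)) ψ) := by
  ext γ
  obtain ⟨σ, γ', hsys⟩ := exists_system_T hℓN γ
  rw [h γ σ γ' hsys, expChar_apply, bettiHecke_T_apply hℓ hℓN ψ γ σ γ' hsys]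
  simp only [expChar_apply]
  rw [prod_zpow_eq_zpow_sum']

/-- the transfer of `expChar m ψ` along the representatives of `U_q` is `expChar m (U_q ψ)` -/
theorem IsTransfer.expChar_U {m q : ℕ} [NeZero q] (hq : q.Prime) (hqN : q ∣ N) {ψ : betti N}
    {χ' : ↥(Gamma0 N) →* ℂˣ}
    (h : IsTransfer (fun x : ZMod q => ModularForm.heckeMatrix q x.val) (expChar m ψ) χ') :
    χ' = expChar m (bettiHecke N (CuspForm.heckeAlgebra.U hq hqN (Set.notMem_empty q)) ψ) := by
  ext γ
  obtain ⟨σ, γ', hsys⟩ := exists_system_U hqN γ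
  rw [h γ σ γ' hsys, expChar_apply, bettiHecke_U_apply hq hqN ψ γ σ γ' hsys]
  simp only [expChar_apply]
  rw [prod_zpow_eq_zpow_sum']

end Transfer

section Equiv

variable (N) (m : ℕ) [NeZero m]

/-- `expChar m` as a `ℤ`-linear map `Λ → Additive (XGrp N m)` -/
def expCharLin : betti N →ₗ[ℤ] Additive (XGrp N m) :=
  AddMonoidHom.toIntLinearMap
    { toFun := fun ψ => Additive.ofMul ⟨expChar m ψ, expChar_mem_XGrp m ψ⟩
      map_zero' := by
        rw [← ofMul_one]
        exact congrArg Additive.ofMul (Subtype.ext (expChar_zero m))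
      map_add' := fun φ ψ => by
        rw [← ofMul_mul]
        exact congrArg Additive.ofMul (Subtype.ext (expChar_add m φ ψ)) }

variable {N}

theorem expCharLin_apply (ψ : betti N) :
    expCharLin N m ψ = Additive.ofMul ⟨expChar m ψ, expChar_mem_XGrp m ψ⟩ := rfl

theorem ker_expCharLin : LinearMap.ker (expCharLin N m) = mSub N m := by
  ext ψ
  rw [LinearMap.mem_ker, ← expChar_eq_one_iff, expCharLin_apply, ← ofMul_one]
  constructor
  · intro h
    exact congrArg Subtype.val (Additive.ofMul.injective h)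
  · intro h
    exact congrArg Additive.ofMul (Subtype.ext h)

theorem expCharLin_surjective [NeZero N] : Function.Surjective (expCharLin N m) := by
  intro χ
  obtain ⟨ψ, hψ⟩ := exists_expChar_eq m (Additive.toMul χ).2
  exact ⟨ψ, congrArg Additive.ofMul (Subtype.ext hψ)⟩

variable (N)

/-- **(AF7)** `Λ / m Λ ≃ XGrp N m` -/
def bettiX [NeZero N] : Multiplicative (betti N ⧸ mSub N m) ≃* XGrp N m :=
  AddEquiv.toMultiplicativeLeft
    (((Submodule.quotEquivOfEq _ _ (ker_expCharLin m).symm).trans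
      ((expCharLin N m).quotKerEquivOfSurjective (expCharLin_surjective m))).toAddEquiv)

variable {N}

theorem bettiX_mk [NeZero N] (ψ : betti N) :
    ((bettiX N m (Multiplicative.ofAdd (Submodule.Quotient.mk ψ)) : XGrp N m) :
      ↥(Gamma0 N) →* ℂˣ) = expChar m ψ := rfl

end Equiv

end

end Fermat.Agent.ESlib
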