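import Fermat.Agent.ES.A.FunEis

/-!
# ES library, Part A (function side): the element-level bijection `W_m(ℂ) ↔ XGrp N m`
-/

set_option autoImplicit false

open UpperHalfPlane ModularForm MatrixGroups Filter Topology CongruenceSubgroup ModularCurve
open scoped Manifold
open Fermat.Agent.S24lib

namespace Fermat.Agent.ESlib

variable {N : ℕ} [NeZero N] {m : ℕ}

namespace FunLocal

theorem dvd_meromorphicOrderAt {R : MvPolynomial (Dv N) ℂ} (hR : MDiv ℂ m (evF ℂ N R)) (τ : ℍ) :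
    (m : ℤ) ∣ (meromorphicOrderAt (evH ℂ N R ∘ ofComplex) (τ : ℂ)).untop₀ := by
  obtain ⟨v, e, he, -, hv⟩ := exists_place_cInt (K := ℂ) N 1 τ (jfun τ) rfl
  obtain ⟨k, u, hu, hue, hk⟩ := exists_of_place (isChart_cInt N 1 τ) v e hv hR
  set φ : ℂ → ℂ := fun t => evH ℂ N R (cInt 1 τ t) with hφ
  have hmer : MeromorphicAt φ 0 := (isChart_cInt N 1 τ).mer_evHK R
  have hl : laurent φ = chartEmb ℂ (isChart_cInt N 1 τ) (evF ℂ N R) := (chartEmb_evF _ R).symm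
  have h0 : laurent φ ≠ 0 := by rw [hl]; exact chartEmb_ne_zero _ hR.1
  have h1 := order_laurent hmer h0
  have h2 : φ = (evH ℂ N R ∘ ofComplex) ∘ (· + (τ : ℂ)) := by
    ext t
    simp only [hφ, cInt, one_smul, Function.comp_apply, add_comm]
  rw [h2, meromorphicOrderAt_comp_add_const_eq_meromorphicOrderAt, zero_add, ← h2, hl, hk] at h1
  rw [← h1]
  exact ⟨e * k, by ring⟩

theorem ne_zero_of_pow_eq {a ψ : ℍ → ℂ} (hm : m ≠ 0) (hψ : ψ ≠ 0) (h : ∀ τ, a τ ^ m = ψ τ) :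
    a ≠ 0 := by
  rintro rfl
  apply hψ
  ext τ
  rw [← h]
  simp [hm]

end FunLocal

open FunLocal

/-- (AF1) an `m`-divisible function has a character, which lies in `XGrp N m` -/
theorem exists_isRootChar (hm : m ≠ 0) {f : FK ℂ N} (hf : MDiv ℂ m f) :
    ∃ χ ∈ XGrp N m, IsRootChar N m f χ := by
  obtain ⟨P, Q, hQ, hfPQ⟩ := exists_frac (K := ℂ) N f
  set R := P * Q ^ (m - 1) with hRdef
  have hRf : evF ℂ N R = f * evF ℂ N Q ^ m := by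
    obtain ⟨m', rfl⟩ := Nat.exists_eq_succ_of_ne_zero hm
    rw [hRdef, map_mul, map_pow, hfPQ, Nat.succ_sub_one, pow_succ]
    field_simp
  have hR : MDiv ℂ m (evF ℂ N R) := hf.sameClass ⟨evF ℂ N Q, hQ, hRf⟩
  have hψ0 : evH ℂ N R ≠ 0 := fun h => hR.1 ((evF_eq_zero_iff N R).2 h)
  obtain ⟨a, ha, hpow⟩ := exists_mroot_mdiff (mdiff_evH N R) hψ0 hm (dvd_meromorphicOrderAt hR)
  have ha0 : a ≠ 0 := ne_zero_of_pow_eq hm hψ0 hpow
  obtain ⟨χ, hχm, hχ⟩ := exists_character_of_mroot (Γ := Gamma0 N) ha ha0 hm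
    (fun γ hγ τ => by rw [hpow, hpow, evH_Gamma0 N R γ hγ])
  refine ⟨χ, ⟨hχm, fun γ hγ => ?_⟩, P, Q, a, hQ, ?_, ha, ?_, hχ⟩
  · apply Units.ext
    rcases lt_or_eq_of_le hγ with h | h
    · obtain ⟨τ₁, hfix⟩ := FunGroup.exists_fixed_of_trace_sq_lt h
      exact chi_eq_one_of_fixed hm hR ha hpow γ.2 (hχ γ) hfix
    · exact chi_eq_one_of_parabolic hm hR ha hpow γ.2 (hχ γ)
        (by have h9 := congrArg Units.val (hχm γ); simpa using h9) h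
  · rw [hfPQ, div_mul_cancel₀ _ hQ]
  · intro τ
    rw [hpow, hRdef, map_mul, map_pow]
    rfl

/-- (AF2) the character is unique -/
theorem IsRootChar.unique (hm : m ≠ 0) {f : FK ℂ N} (hf : f ≠ 0) {χ χ' : ↥(Gamma0 N) →* ℂˣ}
    (h : IsRootChar N m f χ) (h' : IsRootChar N m f χ') : χ = χ' := by
  obtain ⟨P, Q, a, hQ, hfQ, ha, hpow, hχ⟩ := h
  obtain ⟨P', Q', a', hQ', hfQ', ha', hpow', hχ'⟩ := h'
  obtain ⟨m', rfl⟩ := Nat.exists_eq_succ_of_ne_zero hm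
  simp only [Nat.succ_sub_one] at hpow hpow'
  have hHQ : evH ℂ N Q ≠ 0 := fun h0 => hQ ((evF_eq_zero_iff N Q).2 h0)
  have hHQ' : evH ℂ N Q' ≠ 0 := fun h0 => hQ' ((evF_eq_zero_iff N Q').2 h0)
  have hP : evF ℂ N P ≠ 0 := by rw [← hfQ]; exact mul_ne_zero hf hQ
  have hHP : evH ℂ N P ≠ 0 := fun h0 => hP ((evF_eq_zero_iff N P).2 h0)
  -- cross relation
  have hcross : ∀ τ, evH ℂ N P τ * evH ℂ N Q' τ = evH ℂ N P' τ * evH ℂ N Q τ := by
    have h1 : evF ℂ N (P * Q' - P' * Q) = 0 := by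
      rw [map_sub, map_mul, map_mul, ← hfQ, ← hfQ']
      ring
    have h2 := (evF_eq_zero_iff N _).1 h1
    intro τ
    have h3 := congrFun h2 τ
    rw [map_sub, map_mul, map_mul] at h3
    exact sub_eq_zero.1 h3
  have hpw : ∀ τ, (a τ * evH ℂ N Q' τ) ^ (m' + 1) = (a' τ * evH ℂ N Q τ) ^ (m' + 1) := by
    intro τ
    rw [mul_pow, mul_pow, hpow, hpow', pow_succ (evH ℂ N Q' τ), pow_succ (evH ℂ N Q τ)]
    linear_combination (evH ℂ N Q τ ^ m' * evH ℂ N Q' τ ^ m') * hcross τ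
  obtain ⟨ζ, -, hζ⟩ := mroot_mdiff_unique (a := fun τ => a τ * evH ℂ N Q' τ)
    (b := fun τ => a' τ * evH ℂ N Q τ) (ha.mul (mdiff_evH N Q')) (ha'.mul (mdiff_evH N Q)) hm hpw
  have ha0 : a ≠ 0 := by
    rintro rfl
    rcases mdiff_mul_eq_zero (mdiff_evH N P) ((mdiff_evH N Q).pow m') (fun τ => by
      have := hpow τ
      rw [Pi.zero_apply, zero_pow hm] at this
      rw [Pi.pow_apply]
      exact this.symm) with h0 | h0
    · exact hHP h0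
    · apply hHQ
      ext τ
      have := congrFun h0 τ
      rw [Pi.pow_apply] at this
      exact eq_zero_of_pow_eq_zero this
  have hne : (fun τ => a τ * evH ℂ N Q' τ) ≠ 0 := by
    intro h0
    rcases mdiff_mul_eq_zero ha (mdiff_evH N Q') (fun τ => congrFun h0 τ) with h1 | h1
    · exact ha0 h1
    · exact hHQ' h1
  obtain ⟨τ₀, hτ₀⟩ : ∃ τ₀, a τ₀ * evH ℂ N Q' τ₀ ≠ 0 := by
    by_contra hcon
    push Not at hcon
    exact hne (funext hcon)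
  ext γ
  have h1 := hζ ((γ : SL(2, ℤ)) • τ₀)
  rw [hχ, hχ', evH_Gamma0 N Q' _ γ.2, evH_Gamma0 N Q _ γ.2] at h1
  have h2 := hζ τ₀
  have h3 : ((χ γ : ℂˣ) : ℂ) * (a τ₀ * evH ℂ N Q' τ₀) = ((χ' γ : ℂˣ) : ℂ) * (a τ₀ * evH ℂ N Q' τ₀) := by
    linear_combination h1 - ((χ' γ : ℂˣ) : ℂ) * h2
  exact mul_right_cancel₀ hτ₀ h3

/-- (AF3) multiplicativity -/
theorem IsRootChar.mul (_hm : m ≠ 0) {f g : FK ℂ N} {χ ψ : ↥(Gamma0 N) →* ℂˣ}
    (h : IsRootChar N m f χ) (h' : IsRootChar N m g ψ) : IsRootChar N m (f * g) (χ * ψ) := by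
  obtain ⟨P, Q, a, hQ, hfQ, ha, hpow, hχ⟩ := h
  obtain ⟨P', Q', a', hQ', hfQ', ha', hpow', hχ'⟩ := h'
  refine ⟨P * P', Q * Q', fun τ => a τ * a' τ, ?_, ?_, ha.mul ha', fun τ => ?_, fun γ τ => ?_⟩
  · rw [map_mul]; exact mul_ne_zero hQ hQ'
  · rw [map_mul, map_mul, ← hfQ, ← hfQ']; ring
  · rw [mul_pow, hpow, hpow', map_mul, map_mul, Pi.mul_apply, Pi.mul_apply, mul_pow]
    ring
  · simp only
    rw [hχ, hχ', MonoidHom.mul_apply, Units.val_mul]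
    ring

/-- (T0) flexible constructor -/
theorem isRootChar_of_pow (hm : m ≠ 0) {f : FK ℂ N} {χ : ↥(Gamma0 N) →* ℂˣ}
    {R S : MvPolynomial (Dv N) ℂ} {a : ℍ → ℂ} (hS : evF ℂ N S ≠ 0)
    (h : f * evF ℂ N S ^ m = evF ℂ N R) (ha : MDiff a) (hpow : ∀ τ, a τ ^ m = evH ℂ N R τ)
    (hχ : ∀ (γ : ↥(Gamma0 N)) (τ : ℍ), a ((γ : SL(2, ℤ)) • τ) = ((χ γ : ℂˣ) : ℂ) * a τ) :
    IsRootChar N m f χ := by
  obtain ⟨m', rfl⟩ := Nat.exists_eq_succ_of_ne_zero hm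
  refine ⟨R, S ^ (m' + 1), fun τ => a τ * evH ℂ N S τ ^ m', ?_, ?_,
    ha.mul ((mdiff_evH N S).pow m'), fun τ => ?_, fun γ τ => ?_⟩
  · rw [map_pow]; exact pow_ne_zero _ hS
  · rw [map_pow]; exact h
  · rw [mul_pow, hpow, map_pow, Pi.pow_apply, Nat.succ_sub_one, Nat.succ_eq_add_one]
    ring
  · simp only
    rw [hχ, evH_Gamma0 N S _ γ.2]
    ring

/-- (AF4) the kernel: trivial character iff `m`-th power -/
theorem isRootChar_one_iff (hm : m ≠ 0) {f : FK ℂ N} (hf : f ≠ 0) :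
    IsRootChar N m f 1 ↔ ∃ g : FK ℂ N, f = g ^ m := by
  constructor
  · rintro ⟨P, Q, a, hQ, hfQ, ha, hpow, hχ⟩
    have hinv : ∀ δ ∈ Gamma0 N, ∀ τ, a (δ • τ) = a τ := by
      intro δ hδ τ
      have := hχ ⟨δ, hδ⟩ τ
      simpa using this
    have hpowR : ∀ τ, a τ ^ m = evH ℂ N (P * Q ^ (m - 1)) τ := by
      intro τ
      rw [hpow, map_mul, map_pow]
      rfl
    have hmer : ∀ δ : SL(2, ℤ), MeromorphicAt (fun q => a (cCusp N δ q)) 0 := fun δ =>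
      meromorphicAt_root_cusp hm ha hpowR δ (fun τ => by
        have h2 : δ • ModularGroup.T ^ (N : ℤ) • τ =
            (δ * ModularGroup.T ^ (N : ℤ) * δ⁻¹) • (δ • τ) := by
          simp only [mul_smul, inv_smul_smul]
        rw [h2, hinv _ (conj_T_N_mem N δ)])
    obtain ⟨P₁, Q₁, hQ₁, h1⟩ := exists_evH_of_invariant (K := ℂ) N a ha hinv hmer
      (fun γ => mem_KRat_complex _)
    have hQ₁' : evF ℂ N Q₁ ≠ 0 := fun h => hQ₁ ((evF_eq_zero_iff N Q₁).1 h)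
    refine ⟨evF ℂ N P₁ / (evF ℂ N Q₁ * evF ℂ N Q), ?_⟩
    obtain ⟨m', rfl⟩ := Nat.exists_eq_succ_of_ne_zero hm
    simp only [Nat.succ_sub_one] at hpow
    have h2 : evF ℂ N (P * Q₁ ^ (m' + 1) * Q ^ m' - P₁ ^ (m' + 1)) = 0 := by
      rw [evF_eq_zero_iff]
      ext τ
      rw [map_sub, map_mul, map_mul, map_pow, map_pow, map_pow]
      show evH ℂ N P τ * evH ℂ N Q₁ τ ^ (m' + 1) * evH ℂ N Q τ ^ m' - evH ℂ N P₁ τ ^ (m' + 1) = 0
      rw [← h1, mul_pow, hpow]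
      ring
    rw [map_sub, map_mul, map_mul, map_pow, map_pow, map_pow, sub_eq_zero, ← hfQ] at h2
    rw [div_pow, eq_div_iff (pow_ne_zero _ (mul_ne_zero hQ₁' hQ)), ← h2, Nat.succ_eq_add_one]
    ring
  · rintro ⟨g, rfl⟩
    obtain ⟨P, Q, hQ, hg⟩ := exists_frac (K := ℂ) N g
    refine isRootChar_of_pow hm (R := P ^ m) (S := Q) (a := evH ℂ N P) hQ ?_ (mdiff_evH N P)
      (fun τ => by rw [map_pow]; rfl) (fun γ τ => ?_)
    · rw [hg, map_pow, div_pow, div_mul_cancel₀ _ (pow_ne_zero _ hQ)]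
    · rw [evH_Gamma0 N P _ γ.2]
      simp

/-- (T2) a function whose root has a character in `XGrp N m` is `m`-divisible -/
theorem IsRootChar.mDiv (hm : m ≠ 0) {f : FK ℂ N} (hf : f ≠ 0) {χ : ↥(Gamma0 N) →* ℂˣ}
    (hχ : χ ∈ XGrp N m) (h : IsRootChar N m f χ) : MDiv ℂ m f := by
  obtain ⟨P, Q, a, hQ, hfQ, ha, hpow, hχa⟩ := h
  have hRf : evF ℂ N (P * Q ^ (m - 1)) = f * evF ℂ N Q ^ m := by
    obtain ⟨m', rfl⟩ := Nat.exists_eq_succ_of_ne_zero hm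
    rw [map_mul, map_pow, ← hfQ, Nat.succ_sub_one, pow_succ]
    ring
  have hR : MDiv ℂ m (evF ℂ N (P * Q ^ (m - 1))) :=
    mDiv_of_root hm (by rw [hRf]; exact mul_ne_zero hf (pow_ne_zero _ hQ)) ha
      (fun τ => by rw [hpow, map_mul, map_pow]; rfl) hχ hχa
  exact hR.sameClass (SameClass.symm ⟨evF ℂ N Q, hQ, hRf⟩)

/-- (AF5) surjectivity -/
theorem exists_mDiv_isRootChar (hm : m ≠ 0) {χ : ↥(Gamma0 N) →* ℂˣ} (hχ : χ ∈ XGrp N m) :
    ∃ f : FK ℂ N, MDiv ℂ m f ∧ IsRootChar N m f χ := by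
  set a := eisFun χ with hadef
  have ha : MDiff a := mdiff_eisFun hm hχ
  have ha0 : a ≠ 0 := eisFun_ne_zero hm hχ
  have hχa := eisFun_Gamma0 hχ
  set H : ℍ → ℂ := fun τ => a τ ^ m with hHdef
  have hH : MDiff H := ha.pow m
  have hinv : ∀ δ ∈ Gamma0 N, ∀ τ, H (δ • τ) = H τ := by
    intro δ hδ τ
    show a (δ • τ) ^ m = a τ ^ m
    have h1 : ((χ ⟨δ, hδ⟩ : ℂˣ) : ℂ) ^ m = 1 := by
      have h9 := congrArg Units.val (hχ.1 ⟨δ, hδ⟩)
      simpa using h9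
    rw [hadef, hχa ⟨δ, hδ⟩ τ, mul_pow, h1, one_mul]
  have hmer : ∀ γ : SL(2, ℤ), MeromorphicAt (fun q => H (cCusp N γ q)) 0 :=
    fun γ => (meromorphicAt_eisFun hm hχ γ).pow m
  obtain ⟨P, Q, hQ, h1⟩ := exists_evH_of_invariant (K := ℂ) N H hH hinv hmer
    (fun γ => mem_KRat_complex _)
  have hQ' : evF ℂ N Q ≠ 0 := fun h => hQ ((evF_eq_zero_iff N Q).1 h)
  have hroot : IsRootChar N m (evF ℂ N P / evF ℂ N Q) χ := by
    refine ⟨P, Q, fun τ => a τ * evH ℂ N Q τ, hQ', div_mul_cancel₀ _ hQ', ha.mul (mdiff_evH N Q),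
      fun τ => ?_, fun γ τ => ?_⟩
    · obtain ⟨m', rfl⟩ := Nat.exists_eq_succ_of_ne_zero hm
      rw [← h1, Nat.succ_sub_one, mul_pow, Nat.succ_eq_add_one, pow_succ (evH ℂ N Q τ)]
      show _ = a τ ^ (m' + 1) * _ * _
      ring
    · simp only
      rw [hadef, hχa, evH_Gamma0 N Q _ γ.2]
      ring
  have hP : evF ℂ N P ≠ 0 := by
    intro h
    have h2 := (evF_eq_zero_iff N P).1 h
    rcases mdiff_mul_eq_zero hH (mdiff_evH N Q) (fun τ => by rw [h1, h2]; rfl) with h3 | h3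
    · apply ha0
      ext τ
      exact eq_zero_of_pow_eq_zero (congrFun h3 τ)
    · exact hQ h3
  exact ⟨_, hroot.mDiv hm (div_ne_zero hP hQ') hχ, hroot⟩

end Fermat.Agent.ESlib
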