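import Fermat.Agent.ES.A.FunTriv
import Fermat.Agent.ES.Dict.Invariant

/-!
# ES library, Part A (function side): roots with a character in `XGrp N m` are meromorphic at the
cusps, and their `m`-th powers are `m`-divisible
-/

set_option autoImplicit false

open UpperHalfPlane ModularForm MatrixGroups Filter Topology CongruenceSubgroup ModularCurve
open AlgebraicCurve
open scoped Manifold
open Fermat.Agent.S24lib

namespace Fermat.Agent.ESlib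

namespace FunLocal

theorem trace_conj (δ u : SL(2, ℤ)) :
    ((δ * u * δ⁻¹ : SL(2, ℤ)) : Matrix (Fin 2) (Fin 2) ℤ).trace =
      (u : Matrix (Fin 2) (Fin 2) ℤ).trace := by
  rw [Matrix.SpecialLinearGroup.coe_mul, Matrix.SpecialLinearGroup.coe_mul,
    Matrix.trace_mul_cycle, ← Matrix.SpecialLinearGroup.coe_mul, inv_mul_cancel,
    Matrix.SpecialLinearGroup.coe_one, one_mul]

theorem trace_conj_T_zpow (δ : SL(2, ℤ)) (n : ℤ) :
    ((δ * ModularGroup.T ^ n * δ⁻¹ : SL(2, ℤ)) : Matrix (Fin 2) (Fin 2) ℤ).trace = 2 := by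
  rw [trace_conj, ModularGroup.coe_T_zpow, Matrix.trace_fin_two]
  simp

variable {N : ℕ} [NeZero N] {m : ℕ}

/-- a character in `XGrp` is trivial on the conjugates of `T ^ n` -/
theorem chi_conj_T_zpow {χ : ↥(Gamma0 N) →* ℂˣ} (hχ : χ ∈ XGrp N m) (δ : SL(2, ℤ)) (n : ℤ)
    (h : δ * ModularGroup.T ^ n * δ⁻¹ ∈ Gamma0 N) : χ ⟨_, h⟩ = 1 := by
  apply hχ.2
  show ((δ * ModularGroup.T ^ n * δ⁻¹ : SL(2, ℤ)) : Matrix (Fin 2) (Fin 2) ℤ).trace ^ 2 ≤ 4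
  rw [trace_conj_T_zpow]
  norm_num

/-- periodicity along a cusp -/
theorem comp_periodic {χ : ↥(Gamma0 N) →* ℂˣ} (hχ : χ ∈ XGrp N m) {a : ℍ → ℂ}
    (hχa : ∀ (γ : ↥(Gamma0 N)) (τ : ℍ), a ((γ : SL(2, ℤ)) • τ) = ((χ γ : ℂˣ) : ℂ) * a τ)
    (δ : SL(2, ℤ)) (n : ℤ) (h : δ * ModularGroup.T ^ n * δ⁻¹ ∈ Gamma0 N) (τ : ℍ) :
    a (δ • ModularGroup.T ^ n • τ) = a (δ • τ) := by
  have h2 : δ • ModularGroup.T ^ n • τ = (δ * ModularGroup.T ^ n * δ⁻¹) • (δ • τ) := by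
    simp only [mul_smul, inv_smul_smul]
  have h3 := hχa ⟨_, h⟩ (δ • τ)
  rw [chi_conj_T_zpow hχ δ n h, Units.val_one, one_mul] at h3
  rw [h2]
  exact h3

theorem conj_T_N_mem (N : ℕ) (δ : SL(2, ℤ)) :
    δ * ModularGroup.T ^ (N : ℤ) * δ⁻¹ ∈ Gamma0 N := by
  have h1 := conj_T_zpow_mul_mem_Gamma0 N δ 1
  rwa [one_mul] at h1

/-- an `m`-th root of a polynomial in the `j(dτ)`, periodic along the cusp, is meromorphic there -/
theorem meromorphicAt_root_cusp (hm : m ≠ 0) {R : MvPolynomial (Dv N) ℂ} {a : ℍ → ℂ}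
    (ha : MDiff a) (hpow : ∀ τ, a τ ^ m = evH ℂ N R τ) (δ : SL(2, ℤ))
    (hper : ∀ τ : ℍ, a (δ • ModularGroup.T ^ (N : ℤ) • τ) = a (δ • τ)) :
    MeromorphicAt (fun q => a (cCusp N δ q)) 0 := by
  obtain ⟨c, hc, hO⟩ := isBigO_of_meromorphicAt N (b := fun τ => evH ℂ N R (δ • τ))
    (fun τ => evH_comp_periodic R δ τ) ((isChart_cCusp N δ).mer_evHK R)
  exact meromorphicAt_cusp N (b := fun τ => a (δ • τ)) (mdiff_comp_smul ha δ) hper
    (isBigO_of_pow hm (fun τ => hpow _) hc hO)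

end FunLocal

end Fermat.Agent.ESlib
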