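import Fermat.Agent.ES.A.MRoot

/-!
# ES library, part A1 (continued): holomorphic `m`-th roots on `ℍ` and their characters
-/

set_option autoImplicit false

open Filter Topology Set Metric Complex UpperHalfPlane MatrixGroups
open scoped Manifold

namespace Fermat.Agent.ESlib

theorem isPreconnected_uhpSet : IsPreconnected {z : ℂ | 0 < z.im} :=
  (convex_halfSpace_im_gt 0).isPreconnected

theorem analyticOnNhd_of_mdiff {ψ : ℍ → ℂ} (hψ : MDiff ψ) :
    AnalyticOnNhd ℂ (ψ ∘ ofComplex) {z : ℂ | 0 < z.im} :=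
  (UpperHalfPlane.mdifferentiable_iff.mp hψ).analyticOnNhd isOpen_upperHalfPlaneSet

/-- a nonzero holomorphic function on `ℍ` has finite order everywhere -/
theorem meromorphicOrderAt_ne_top_of_mdiff {ψ : ℍ → ℂ} (hψ : MDiff ψ) (hne : ψ ≠ 0)
    {z : ℂ} (hz : 0 < z.im) : meromorphicOrderAt (ψ ∘ ofComplex) z ≠ ⊤ := by
  intro htop
  apply hne
  have han := analyticOnNhd_of_mdiff hψ
  rw [meromorphicOrderAt_eq_top_iff] at htop
  have := han.eqOn_zero_of_preconnected_of_frequently_eq_zero isPreconnected_uhpSet hz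
    htop.frequently
  funext τ
  have h1 := this τ.im_pos
  simpa using h1

/-- **holomorphic `m`-th roots on `ℍ`** -/
theorem exists_mroot_mdiff {ψ : ℍ → ℂ} (hψ : MDiff ψ) (hne : ψ ≠ 0) {m : ℕ} (hm : m ≠ 0)
    (hdiv : ∀ τ : ℍ, (m : ℤ) ∣ (meromorphicOrderAt (ψ ∘ ofComplex) (τ : ℂ)).untop₀) :
    ∃ a : ℍ → ℂ, MDiff a ∧ ∀ τ, a τ ^ m = ψ τ := by
  have han := analyticOnNhd_of_mdiff hψ
  obtain ⟨h, hNF, hpow⟩ := exists_mroot_upperHalfPlane (φ := ψ ∘ ofComplex) hm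
    (fun z hz => (han z hz).meromorphicAt)
    (fun z hz => meromorphicOrderAt_ne_top_of_mdiff hψ hne hz)
    (fun z hz => hdiv ⟨z, hz⟩)
  have hanh : ∀ z : ℂ, 0 < z.im → AnalyticAt ℂ h z := by
    intro z hz
    rw [← (hNF hz).meromorphicOrderAt_nonneg_iff_analyticAt]
    have h1 := meromorphicOrderAt_mroot ((hNF hz).meromorphicAt) (hpow z hz)
    have h2 : 0 ≤ meromorphicOrderAt (ψ ∘ ofComplex) z := (han z hz).meromorphicOrderAt_nonneg
    have h3 := meromorphicOrderAt_ne_top_of_mdiff hψ hne hz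
    rw [h1] at h2 h3
    by_contra hneg
    push Not at hneg
    lift meromorphicOrderAt h z to ℤ using hneg.ne_top with k hk
    have hk' : k < 0 := by exact_mod_cast hneg
    have : (0 : WithTop ℤ) ≤ ((m * k : ℤ) : WithTop ℤ) := by
      push_cast
      exact h2
    have h4 : 0 ≤ (m : ℤ) * k := by exact_mod_cast this
    have hm' : (0 : ℤ) < m := by exact_mod_cast Nat.pos_of_ne_zero hm
    nlinarith
  refine ⟨fun τ => h τ, ?_, fun τ => ?_⟩
  · rw [UpperHalfPlane.mdifferentiable_iff]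
    intro z hz
    have h1 : DifferentiableWithinAt ℂ h {z : ℂ | 0 < z.im} z :=
      (hanh z hz).differentiableAt.differentiableWithinAt
    apply h1.congr
    · intro w hw
      simp [ofComplex_apply_of_im_pos hw]
    · simp [ofComplex_apply_of_im_pos hz]
  · have h1 : AnalyticAt ℂ (fun w => h w ^ m) (τ : ℂ) := (hanh τ τ.im_pos).pow m
    have h2 := (h1.meromorphicNFAt.eventuallyEq_nhdsNE_iff_eventuallyEq_nhds
      (han τ τ.im_pos).meromorphicNFAt).mp (hpow τ τ.im_pos)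
    simpa using h2.eq_of_nhds

/-- two holomorphic functions on `ℍ` with the same `m`-th power differ by a root of unity -/
theorem mroot_mdiff_unique {a b : ℍ → ℂ} (ha : MDiff a) (hb : MDiff b) {m : ℕ} (hm : m ≠ 0)
    (h : ∀ τ, a τ ^ m = b τ ^ m) : ∃ ζ : ℂ, ζ ^ m = 1 ∧ ∀ τ, a τ = ζ * b τ := by
  by_cases hb0 : b = 0
  · refine ⟨1, one_pow _, fun τ => ?_⟩
    have := h τ
    rw [hb0] at this ⊢
    simp only [Pi.zero_apply, zero_pow hm] at this
    simpa using pow_eq_zero_iff hm |>.mp this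
  · have hI : (0 : ℝ) < (Complex.I).im := by simp
    have hana := analyticOnNhd_of_mdiff ha
    have hanb := analyticOnNhd_of_mdiff hb
    have hbne : ∀ᶠ w in 𝓝[≠] Complex.I, (b ∘ ofComplex) w ≠ 0 :=
      (meromorphicOrderAt_ne_top_iff_eventually_ne_zero (hanb _ hI).meromorphicAt).mp
        (meromorphicOrderAt_ne_top_of_mdiff hb hb0 hI)
    obtain ⟨ζ, hζ, hζ'⟩ := mroot_unique (h₁ := a ∘ ofComplex) (h₂ := b ∘ ofComplex)
      (φ := fun w => (b ∘ ofComplex) w ^ m) hm isPreconnected_uhpSet hana.meromorphicNFOn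
      hanb.meromorphicNFOn (z₀ := Complex.I) hI (hbne.mono fun w hw => pow_ne_zero m hw)
      (Eventually.of_forall fun w => h (ofComplex w)) (EventuallyEq.refl _ _)
    refine ⟨ζ, hζ, fun τ => ?_⟩
    simpa using hζ' τ τ.im_pos

theorem mdiff_comp_SL_smul {h : ℍ → ℂ} (hh : MDiff h) (γ : SL(2, ℤ)) :
    MDiff (fun τ : ℍ => h (γ • τ)) := by
  have hg : 0 < (Matrix.SpecialLinearGroup.mapGL ℝ γ : GL (Fin 2) ℝ).det.val := by
    simp
  exact hh.comp (UpperHalfPlane.mdifferentiable_smul hg)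

/-- the character attached to a holomorphic function whose `m`-th power is `Γ`-invariant -/
theorem exists_character_of_mroot {Γ : Subgroup SL(2, ℤ)} {a : ℍ → ℂ} (ha : MDiff a) (hne : a ≠ 0)
    {m : ℕ} (hm : m ≠ 0) (hinv : ∀ γ ∈ Γ, ∀ τ : ℍ, a (γ • τ) ^ m = a τ ^ m) :
    ∃ χ : Γ →* ℂˣ, (∀ γ, χ γ ^ m = 1) ∧
      ∀ (γ : Γ) (τ : ℍ), a ((γ : SL(2, ℤ)) • τ) = (χ γ : ℂ) * a τ := by
  have hex : ∀ γ : Γ, ∃ ζ : ℂ, ζ ^ m = 1 ∧ ∀ τ : ℍ, a ((γ : SL(2, ℤ)) • τ) = ζ * a τ := fun γ =>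
    mroot_mdiff_unique (mdiff_comp_SL_smul ha γ) ha hm (hinv γ γ.2)
  choose ζ hζ hζ' using hex
  obtain ⟨τ₀, hτ₀⟩ : ∃ τ₀, a τ₀ ≠ 0 := by
    by_contra hcon
    push Not at hcon
    exact hne (funext hcon)
  have hζ0 : ∀ γ, ζ γ ≠ 0 := by
    intro γ h0
    have := hζ γ
    rw [h0, zero_pow hm] at this
    exact zero_ne_one this
  have hmul : ∀ γ γ' : Γ, ζ (γ * γ') = ζ γ * ζ γ' := by
    intro γ γ'
    have h1 := hζ' (γ * γ') τ₀
    rw [Subgroup.coe_mul, mul_smul, hζ' γ, hζ' γ', ← mul_assoc] at h1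
    exact (mul_right_cancel₀ hτ₀ h1).symm
  refine ⟨MonoidHom.mk' (fun γ => Units.mk0 (ζ γ) (hζ0 γ)) (fun γ γ' => ?_), fun γ => ?_,
    fun γ τ => ?_⟩
  · ext
    simp [hmul]
  · ext
    simp [hζ]
  · exact hζ' γ τ

end Fermat.Agent.ESlib
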