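import Fermat.Agent.ES.Dict.Places
import Fermat.Agent.ES.B.Defs
import Fermat.Agent.ES.A.MRootH
import Fermat.Agent.ES.A.EisChar

/-!
# ES library, Part A (function side): definitions

* `XGrp N m` : the characters `Γ₀(N) → ℂˣ` of exponent `m` which are trivial on `±1`, on the
  parabolic and on the elliptic elements (i.e. on all `γ` with `(tr γ)² ≤ 4`);
* `IsRootChar N m f χ` : `χ` is the character by which `Γ₀(N)` acts on "the" `m`-th root of the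
  analytic avatar of `f ∈ FK ℂ N`.  To stay inside holomorphic functions we write `f = P / Q` and
  take a holomorphic `m`-th root `a` of `P Q^(m-1)`, so that `a / Q` is an `m`-th root of `f`.
-/

set_option autoImplicit false

open UpperHalfPlane ModularForm MatrixGroups Filter Topology CongruenceSubgroup ModularCurve
open scoped Manifold
open Fermat.Agent.S24lib

namespace Fermat.Agent.ESlib

/-- characters of `Γ₀(N)` of exponent `m`, trivial on `±1`, parabolic and elliptic elements -/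
def XGrp (N m : ℕ) : Subgroup (↥(Gamma0 N) →* ℂˣ) where
  carrier := {χ | (∀ γ, χ γ ^ m = 1) ∧ ∀ γ : ↥(Gamma0 N),
    ((γ : SL(2, ℤ)) : Matrix (Fin 2) (Fin 2) ℤ).trace ^ 2 ≤ 4 → χ γ = 1}
  one_mem' := ⟨fun _ => by simp, fun _ _ => rfl⟩
  mul_mem' := by
    rintro χ ψ ⟨h1, h2⟩ ⟨h3, h4⟩
    refine ⟨fun γ => ?_, fun γ hγ => ?_⟩
    · rw [MonoidHom.mul_apply, mul_pow, h1, h3, one_mul]
    · rw [MonoidHom.mul_apply, h2 γ hγ, h4 γ hγ, one_mul]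
  inv_mem' := by
    rintro χ ⟨h1, h2⟩
    refine ⟨fun γ => ?_, fun γ hγ => ?_⟩
    · rw [MonoidHom.inv_apply, inv_pow, h1, inv_one]
    · rw [MonoidHom.inv_apply, h2 γ hγ, inv_one]

theorem mem_XGrp {N m : ℕ} {χ : ↥(Gamma0 N) →* ℂˣ} :
    χ ∈ XGrp N m ↔ (∀ γ, χ γ ^ m = 1) ∧ ∀ γ : ↥(Gamma0 N),
      ((γ : SL(2, ℤ)) : Matrix (Fin 2) (Fin 2) ℤ).trace ^ 2 ≤ 4 → χ γ = 1 := Iff.rfl

/-- `χ` is the character of the `m`-th root of `f` -/
def IsRootChar (N : ℕ) [NeZero N] (m : ℕ) (f : FK ℂ N) (χ : ↥(Gamma0 N) →* ℂˣ) : Prop :=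
  ∃ (P Q : MvPolynomial (Dv N) ℂ) (a : ℍ → ℂ), evF ℂ N Q ≠ 0 ∧ f * evF ℂ N Q = evF ℂ N P ∧
    MDiff a ∧ (∀ τ, a τ ^ m = evH ℂ N P τ * evH ℂ N Q τ ^ (m - 1)) ∧
    ∀ (γ : ↥(Gamma0 N)) (τ : ℍ), a ((γ : SL(2, ℤ)) • τ) = ((χ γ : ℂˣ) : ℂ) * a τ

end Fermat.Agent.ESlib
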