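import Fermat.Agent.ES.A.FunCusp

/-!
# ES library, Part A (function side): the `m`-th power of a function with a character in `XGrp N m`
is `m`-divisible
-/

set_option autoImplicit false
set_option linter.unusedSectionVars false

open UpperHalfPlane hiding I
open ModularForm MatrixGroups Filter Topology ModularCurve Complex IntermediateField AlgebraicCurve
open CongruenceSubgroup
open scoped Manifold Real
open Fermat.Agent.S24lib

namespace Fermat.Agent.ESlib

namespace FunLocal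

/-- a point above `a` on the `j`-line, with a generator of its stabiliser -/
theorem exists_stab_data (a : ℂ) : ∃ (τ₀ : ℍ) (g : SL(2, ℤ)) (r : ℕ), jfun τ₀ = a ∧ g • τ₀ = τ₀ ∧
    (taylor (jgerm τ₀) - PowerSeries.C (jfun τ₀)).order = r ∧
    IsPrimitiveRoot ((denom g τ₀) ^ (-2 : ℤ)) r := by
  by_cases h0 : a = 0
  · subst h0
    have hr : (taylor (jgerm rho) - PowerSeries.C (jfun rho)).order = ((3 : ℕ) : ℕ∞) := by
      rw [jfun_rho, map_zero, sub_zero, order_jgerm_rho]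
      rfl
    have hρ := rho_sq_add
    have hprim : IsPrimitiveRoot
        ((denom (ModularGroup.S * ModularGroup.T : SL(2, ℤ)) rho) ^ (-2 : ℤ)) 3 := by
      have h1 : denom (ModularGroup.S * ModularGroup.T : SL(2, ℤ)) rho = (rho : ℂ) + 1 := by
        rw [ModularGroup.denom_apply, Matrix.SpecialLinearGroup.coe_mul]
        simp [ModularGroup.S, ModularGroup.T, Matrix.mul_apply, Fin.sum_univ_two]
      rw [h1]
      have hρ0 : (rho : ℂ) ≠ 0 := by
        intro h
        rw [h] at hρ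
        norm_num at hρ
      have h2 : ((rho : ℂ) + 1) ^ (-2 : ℤ) = (rho : ℂ) ^ 2 := by
        have h3 : ((rho : ℂ) + 1) ^ 2 = rho := by linear_combination hρ
        have h4 : (rho : ℂ) ^ 3 = 1 := by linear_combination ((rho : ℂ) - 1) * hρ
        rw [zpow_neg, show (2 : ℤ) = ((2 : ℕ) : ℤ) by rfl, zpow_natCast, h3]
        field_simp
        linear_combination -h4
      rw [h2]
      have h4 : (rho : ℂ) ^ 3 = 1 := by linear_combination ((rho : ℂ) - 1) * hρ
      refine IsPrimitiveRoot.mk_of_lt _ (by norm_num)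
        (by rw [← pow_mul]; linear_combination ((rho : ℂ) ^ 3 + 1) * h4) ?_
      intro l hl0 hl3
      have hne1 : (rho : ℂ) ≠ 1 := by
        intro h
        rw [h] at hρ
        norm_num at hρ
      interval_cases l
      · intro h
        rw [pow_one] at h
        apply hne1
        have : (rho : ℂ) = (rho : ℂ) ^ 3 * ((rho : ℂ) ^ 2) ^ 2 / (rho : ℂ) ^ 6 := by
          field_simp
        have h6 : (rho : ℂ) ^ 6 = 1 := by linear_combination ((rho : ℂ) ^ 3 + 1) * h4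
        rw [this, h, h4, h6]
        norm_num
      · intro h
        apply hne1
        have : (rho : ℂ) = ((rho : ℂ) ^ 2) ^ 2 / (rho : ℂ) ^ 3 := by
          field_simp
        rw [this, h, h4]
        norm_num
    exact ⟨rho, ModularGroup.S * ModularGroup.T, 3, jfun_rho, ST_smul_rho, hr, hprim⟩
  by_cases h1 : a = 1728
  · subst h1
    have hr : (taylor (jgerm UpperHalfPlane.I) - PowerSeries.C (jfun UpperHalfPlane.I)).order =
        ((2 : ℕ) : ℕ∞) := by
      rw [jfun_I, order_jgerm_I]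
      rfl
    have hprim : IsPrimitiveRoot ((denom (ModularGroup.S : SL(2, ℤ)) UpperHalfPlane.I) ^ (-2 : ℤ))
        2 := by
      have h1 : denom (ModularGroup.S : SL(2, ℤ)) UpperHalfPlane.I = Complex.I := by
        rw [ModularGroup.denom_S, UpperHalfPlane.coe_I]
      rw [h1]
      have h2 : (Complex.I : ℂ) ^ (-2 : ℤ) = -1 := by
        rw [zpow_neg, show (2 : ℤ) = ((2 : ℕ) : ℤ) by rfl, zpow_natCast, Complex.I_sq]
        norm_num
      rw [h2]
      exact IsPrimitiveRoot.neg_one 0 (by norm_num)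
    exact ⟨UpperHalfPlane.I, ModularGroup.S, 2, jfun_I, S_smul_I, hr, hprim⟩
  · obtain ⟨τ₀, hτ⟩ := JSurj.surjective_E4_cube_div_disc a
    have ha : jfun τ₀ = a := hτ
    have hr : (taylor (jgerm τ₀) - PowerSeries.C (jfun τ₀)).order = ((1 : ℕ) : ℕ∞) := by
      rw [taylor_sub_const (analyticAt_jgerm τ₀), Nat.cast_one]
      apply order_taylor_eq_one
      · simp [jgerm]
      · have : deriv (fun t => jgerm τ₀ t - jfun τ₀) 0 = deriv (jgerm τ₀) 0 :=
          deriv_sub_const _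
        rw [this]
        exact deriv_jgerm_ne_zero τ₀ (ha ▸ h0) (ha ▸ h1)
    exact ⟨τ₀, 1, 1, ha, one_smul _ _, hr, by simp⟩

variable {N : ℕ} [NeZero N] {m : ℕ}

/-- divisibility at the interior places -/
theorem dvd_ord_interior (hm : m ≠ 0) {R : MvPolynomial (Dv N) ℂ} (hR : evF ℂ N R ≠ 0)
    {a : ℍ → ℂ} (ha : MDiff a) (hpow : ∀ τ, a τ ^ m = evH ℂ N R τ) {χ : ↥(Gamma0 N) →* ℂˣ}
    (hχ : χ ∈ XGrp N m)
    (hχa : ∀ (γ : ↥(Gamma0 N)) (τ : ℍ), a ((γ : SL(2, ℤ)) • τ) = ((χ γ : ℂˣ) : ℂ) * a τ)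
    (v : Place ℂ (FK ℂ N)) (c : ℂ) (hv : 0 < v.ord (J1 ℂ N - algebraMap ℂ (FK ℂ N) c)) :
    (m : ℤ) ∣ v.ord (evF ℂ N R) := by
  have h0 : a ≠ 0 := by
    rintro rfl
    apply hR
    rw [evF_eq_zero_iff]
    ext τ
    rw [← hpow]
    simp [hm]
  obtain ⟨τ₀, g, r, hj, hg, hr, hprim⟩ := exists_stab_data c
  obtain ⟨x, e, he, hx⟩ := exists_cInt_of_place N v c hv τ₀ hj
  have hep := mul_minimalPeriod_eq N τ₀ c hj g hg r hr hprim x v e he hx
  set p := Function.minimalPeriod (g • ·) x with hp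
  have hgp : g ^ p • x = x := by
    have h1 : Function.IsPeriodicPt (g • ·) p x := Function.isPeriodicPt_minimalPeriod _ _
    rw [Function.IsPeriodicPt, Function.IsFixedPt, smul_iterate] at h1
    exact h1
  have hfix' : ∀ k : ℕ, (g ^ k) • τ₀ = τ₀ := by
    intro k
    induction k with
    | zero => simp
    | succ k ih => rw [pow_succ, mul_smul, hg, ih]
  have hfix : (g ^ p) • τ₀ = τ₀ := hfix' p
  set β : SL(2, ℤ) := (x.out)⁻¹ with hβ
  have hδ : β * g ^ p * β⁻¹ ∈ Gamma0 N := by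
    rw [hβ, inv_inv, mul_assoc, ← QuotientGroup.eq]
    have h1 : ((g ^ p * x.out : SL(2, ℤ)) : SL(2, ℤ) ⧸ Gamma0 N) =
        g ^ p • ((x.out : SL(2, ℤ)) : SL(2, ℤ) ⧸ Gamma0 N) := rfl
    rw [h1, QuotientGroup.out_eq' x, hgp]
  have hχ1 : χ ⟨_, hδ⟩ = 1 := by
    apply hχ.2
    apply FunGroup.trace_sq_le_of_fixed (τ := β • τ₀)
    show (β * g ^ p * β⁻¹) • β • τ₀ = β • τ₀
    rw [mul_smul, inv_smul_smul, mul_smul, hfix]
  have h1 := chi_eq_zpow_of_fixed ha h0 β (g ^ p) (β * g ^ p * β⁻¹) τ₀ hfix (by group) (c := 1)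
    (fun τ => by
      have := hχa ⟨_, hδ⟩ τ
      rw [hχ1] at this
      exact this)
  set A : ℂ → ℂ := fun t => a (cInt β τ₀ t) with hA
  have hAm : (laurent A) ^ m = embInt ℂ N τ₀ x (evF ℂ N R) := by
    show _ = chartEmb ℂ (isChart_cInt N β τ₀) (evF ℂ N R)
    rw [chartEmb_evF, ← laurent_pow (analyticAt_comp_cInt ha β τ₀).meromorphicAt]
    congr 1
    ext t
    exact hpow _
  have h2 : (m : ℤ) * (laurent A).order = e * v.ord (evF ℂ N R) := by
    rw [← hx _ hR, ← hAm, HahnSeries.order_pow, nsmul_eq_mul]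
  rw [denom_pow_of_fixed hg, ← zpow_natCast, ← zpow_mul, ← zpow_mul,
    show (p : ℤ) * (-2 * (laurent A).order) = -2 * (p * (laurent A).order) by ring, zpow_mul] at h1
  have h3 : (r : ℤ) ∣ p * (laurent A).order := (hprim.zpow_eq_one_iff_dvd _).1 h1.symm
  have hp0 : (p : ℤ) ≠ 0 := by
    intro hp0
    have hp0' : p = 0 := by exact_mod_cast hp0
    rw [hp0', mul_zero] at hep
    obtain ⟨r', hr0, hr'⟩ := exists_order_jgerm (K := ℂ) τ₀ c hj
    rw [hr, ← hep] at hr'
    have : (0 : ℕ) = r' := by exact_mod_cast hr'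
    omega
  have h4 : (e : ℤ) ∣ (laurent A).order := by
    rw [← hep] at h3
    push_cast at h3
    rw [mul_comm (e : ℤ)] at h3
    exact (mul_dvd_mul_iff_left hp0).1 h3
  obtain ⟨k, hk⟩ := h4
  refine ⟨k, ?_⟩
  have he' : (e : ℤ) ≠ 0 := by exact_mod_cast he.ne'
  apply mul_left_cancel₀ he'
  rw [← h2, hk]
  ring

/-- a function with a smaller period is invariant under the corresponding rotation of `q` -/
theorem comp_rot_eq {b : ℍ → ℂ} {p e : ℕ} (hep : e * p = N)
    (hper : ∀ τ : ℍ, b (ModularGroup.T ^ (p : ℤ) • τ) = b τ) :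
    ∀ᶠ q in 𝓝[≠] (0 : ℂ), b (ofComplex (Function.Periodic.invQParam N (rot N p q))) =
      b (ofComplex (Function.Periodic.invQParam N q)) := by
  have hN : (0 : ℝ) < N := by exact_mod_cast Nat.pos_of_ne_zero (NeZero.ne N)
  have h0 : ∀ᶠ q in 𝓝[≠] (0 : ℂ), 0 < (Function.Periodic.invQParam N q).im := by
    have := Function.Periodic.invQParam_tendsto hN
    exact this.eventually (Filter.preimage_mem_comap (Filter.Ioi_mem_atTop 0))
  filter_upwards [h0, self_mem_nhdsWithin] with q hq hq0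
  have hq0 : q ≠ 0 := hq0
  set z : ℂ := Function.Periodic.invQParam N q with hz
  obtain ⟨j, hj⟩ := Function.Periodic.qParam_left_inv_mod_period hN.ne' (z + ((p : ℤ) : ℂ))
  have h1 : Function.Periodic.qParam N (z + ((p : ℤ) : ℂ)) = rot N p q := by
    have := Function.Periodic.qParam_right_inv hN.ne' hq0
    rw [← hz] at this
    rw [rot]
    conv_rhs => rw [← this]
    simp only [Function.Periodic.qParam, ← Complex.exp_add]
    congr 1
    push_cast
    ring
  rw [h1] at hj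
  have h2 : z + ((p : ℤ) : ℂ) + j * ((N : ℝ) : ℂ) = z + ((((1 + j * e) * p : ℤ) : ℝ) : ℂ) := by
    rw [← hep]
    push_cast
    ring
  rw [hj, h2, ofComplex_add_intCast _ hq, periodic_zpow p hper]

/-- divisibility at the cusps -/
theorem dvd_ord_cusp (hm : m ≠ 0) {R : MvPolynomial (Dv N) ℂ} (hR : evF ℂ N R ≠ 0)
    {a : ℍ → ℂ} (ha : MDiff a) (hpow : ∀ τ, a τ ^ m = evH ℂ N R τ) {χ : ↥(Gamma0 N) →* ℂˣ}
    (hχ : χ ∈ XGrp N m)
    (hχa : ∀ (γ : ↥(Gamma0 N)) (τ : ℍ), a ((γ : SL(2, ℤ)) • τ) = ((χ γ : ℂˣ) : ℂ) * a τ)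
    (v : Place ℂ (FK ℂ N)) (hv : v.ord (J1 ℂ N) < 0) :
    (m : ℤ) ∣ v.ord (evF ℂ N R) := by
  obtain ⟨x, e, he, hx⟩ := exists_cCusp_of_place N v hv
  have hep := mul_minimalPeriod_cusp_eq N x v e he hx
  set p := Function.minimalPeriod (ModularGroup.T • ·) x with hp
  have hgp : ModularGroup.T ^ p • x = x := by
    have h1 : Function.IsPeriodicPt (ModularGroup.T • ·) p x :=
      Function.isPeriodicPt_minimalPeriod _ _
    rw [Function.IsPeriodicPt, Function.IsFixedPt, smul_iterate] at h1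
    exact h1
  set β : SL(2, ℤ) := (x.out)⁻¹ with hβ
  have hδ : β * ModularGroup.T ^ (p : ℤ) * β⁻¹ ∈ Gamma0 N := by
    rw [hβ, inv_inv, mul_assoc, ← QuotientGroup.eq, zpow_natCast]
    have h1 : ((ModularGroup.T ^ p * x.out : SL(2, ℤ)) : SL(2, ℤ) ⧸ Gamma0 N) =
        ModularGroup.T ^ p • ((x.out : SL(2, ℤ)) : SL(2, ℤ) ⧸ Gamma0 N) := rfl
    rw [h1, QuotientGroup.out_eq' x, hgp]
  set A : ℂ → ℂ := fun q => a (cCusp N β q) with hA
  have hAmer : MeromorphicAt A 0 := meromorphicAt_root_cusp hm ha hpow β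
    (comp_periodic hχ hχa β N (conj_T_N_mem N β))
  have hAm : (laurent A) ^ m = embCusp ℂ N x (evF ℂ N R) := by
    show _ = chartEmb ℂ (isChart_cCusp N β) (evF ℂ N R)
    rw [chartEmb_evF, ← laurent_pow hAmer]
    congr 1
    ext t
    exact hpow _
  have hA0 : laurent A ≠ 0 := by
    intro h
    rw [h, zero_pow hm] at hAm
    exact chartEmb_ne_zero (isChart_cCusp N β) hR hAm.symm
  have h1 := eq_deriv_zpow_of_comp hAmer hA0 (analyticAt_rot N p) (rot_zero N p)
    (deriv_rot_ne_zero N p) (c := 1) (by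
      filter_upwards [comp_rot_eq (b := fun τ => a (β • τ)) hep
        (comp_periodic hχ hχa β p hδ)] with q hq
      rw [one_mul]
      exact hq)
  have h2 : (m : ℤ) * (laurent A).order = e * v.ord (evF ℂ N R) := by
    rw [← hx _ hR, ← hAm, HahnSeries.order_pow, nsmul_eq_mul]
  rw [deriv_rot, ← zpow_mul] at h1
  have h3 : (N : ℤ) ∣ p * (laurent A).order :=
    ((Complex.isPrimitiveRoot_exp N (NeZero.ne N)).zpow_eq_one_iff_dvd _).1 h1.symm
  have hp0 : (p : ℤ) ≠ 0 := by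
    intro hp0
    have hp0' : p = 0 := by exact_mod_cast hp0
    rw [hp0', mul_zero] at hep
    exact NeZero.ne N hep.symm
  have h4 : (e : ℤ) ∣ (laurent A).order := by
    rw [← hep] at h3
    push_cast at h3
    rw [mul_comm (e : ℤ)] at h3
    exact (mul_dvd_mul_iff_left hp0).1 h3
  obtain ⟨k, hk⟩ := h4
  refine ⟨k, ?_⟩
  have he' : (e : ℤ) ≠ 0 := by exact_mod_cast he.ne'
  apply mul_left_cancel₀ he'
  rw [← h2, hk]
  ring

/-- **(T2, core)** -/
theorem mDiv_of_root (hm : m ≠ 0) {R : MvPolynomial (Dv N) ℂ} (hR : evF ℂ N R ≠ 0)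
    {a : ℍ → ℂ} (ha : MDiff a) (hpow : ∀ τ, a τ ^ m = evH ℂ N R τ) {χ : ↥(Gamma0 N) →* ℂˣ}
    (hχ : χ ∈ XGrp N m)
    (hχa : ∀ (γ : ↥(Gamma0 N)) (τ : ℍ), a ((γ : SL(2, ℤ)) • τ) = ((χ γ : ℂˣ) : ℂ) * a τ) :
    MDiv ℂ m (evF ℂ N R) := by
  refine ⟨hR, fun v => ?_⟩
  rcases Fermat.Agent.S24RH.pole_or_fibre (isFF_FK N) v (transcendental_J1 (K := ℂ) N) with
    h | ⟨c, hc⟩
  · exact dvd_ord_cusp hm hR ha hpow hχ hχa v h
  · exact dvd_ord_interior hm hR ha hpow hχ hχa v c hc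

end FunLocal

end Fermat.Agent.ESlib
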