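import Fermat.Agent.ES.A.FunDiv

/-!
# ES library, Part A (function side): a holomorphic function on `ℍ` with a given character
-/

set_option autoImplicit false
set_option linter.unusedSectionVars false

open UpperHalfPlane ModularForm MatrixGroups Filter Topology CongruenceSubgroup ModularCurve
open scoped Manifold
open Fermat.Agent.S24lib

namespace Fermat.Agent.ESlib

namespace FunLocal

local notation "Δ" => ModularForm.discriminant

variable {N : ℕ} [NeZero N] {m : ℕ}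

/-- the weight zero function `E_{12,χ} / Δ` -/
noncomputable def eisFun (χ : ↥(Gamma0 N) →* ℂˣ) (τ : ℍ) : ℂ := eisChar 12 χ τ * (Δ τ)⁻¹

theorem eisFun_smul (χ : ↥(Gamma0 N) →* ℂˣ) (g : SL(2, ℤ)) (τ : ℍ) :
    eisFun χ (g • τ) = (eisChar 12 χ ∣[(12 : ℤ)] g) τ * (Δ τ)⁻¹ := by
  have h12 := congrFun (S20lib.isR_disc.inv g) τ
  rw [ModularForm.SL_slash_apply] at h12
  have hd : denom g τ ≠ 0 := denom_ne_zero g τ
  have e12 : Δ (g • τ) = Δ τ * denom g τ ^ (12 : ℤ) := by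
    rw [← h12, mul_assoc, ← zpow_add₀ hd]; simp
  rw [eisFun, ModularForm.SL_slash_apply, e12, mul_inv, zpow_neg]
  ring

theorem norm_eq_one_of_mem {χ : ↥(Gamma0 N) →* ℂˣ} (hm : m ≠ 0) (hχ : χ ∈ XGrp N m)
    (γ : ↥(Gamma0 N)) : ‖((χ γ : ℂˣ) : ℂ)‖ = 1 := by
  have h1 : ((χ γ : ℂˣ) : ℂ) ^ m = 1 := by
    have h9 := congrArg Units.val (hχ.1 γ)
    simpa using h9
  exact Complex.norm_eq_one_of_pow_eq_one h1 hm

theorem eq_one_of_mem_of_upper {χ : ↥(Gamma0 N) →* ℂˣ} (hχ : χ ∈ XGrp N m)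
    (γ : ↥(Gamma0 N)) (h : (γ : SL(2, ℤ)) 1 0 = 0) : χ γ = 1 := by
  apply hχ.2
  have h1 := FunGroup.det_eq (γ : SL(2, ℤ))
  rw [h, mul_zero, sub_zero] at h1
  rw [Matrix.trace_fin_two]
  rcases Int.mul_eq_one_iff_eq_one_or_neg_one.1 h1 with ⟨h2, h3⟩ | ⟨h2, h3⟩ <;> rw [h2, h3] <;>
    norm_num

theorem mdiff_eisFun {χ : ↥(Gamma0 N) →* ℂˣ} (hm : m ≠ 0) (hχ : χ ∈ XGrp N m) :
    MDiff (eisFun χ) :=
  (mdiff_eisChar (by norm_num) (norm_eq_one_of_mem hm hχ)).mul mdiff_disc_inv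

theorem eisFun_ne_zero {χ : ↥(Gamma0 N) →* ℂˣ} (hm : m ≠ 0) (hχ : χ ∈ XGrp N m) :
    eisFun χ ≠ 0 := by
  intro h
  apply eisChar_ne_zero (k := 12) (by norm_num) (by decide) (norm_eq_one_of_mem hm hχ)
    (eq_one_of_mem_of_upper hχ)
  ext τ
  have h1 := congrFun h τ
  rw [eisFun, Pi.zero_apply, mul_eq_zero] at h1
  rcases h1 with h1 | h1
  · exact h1
  · exact absurd (inv_eq_zero.1 h1) (discriminant_ne_zero τ)

theorem eisFun_Gamma0 {χ : ↥(Gamma0 N) →* ℂˣ} (hχ : χ ∈ XGrp N m) (γ : ↥(Gamma0 N)) (τ : ℍ) :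
    eisFun χ ((γ : SL(2, ℤ)) • τ) = ((χ γ : ℂˣ) : ℂ) * eisFun χ τ := by
  rw [eisFun_smul, eisChar_slash 12 (eq_one_of_mem_of_upper hχ), eisFun, Pi.smul_apply, smul_eq_mul,
    mul_assoc]

theorem meromorphicAt_eisFun {χ : ↥(Gamma0 N) →* ℂˣ} (hm : m ≠ 0) (hχ : χ ∈ XGrp N m)
    (δ : SL(2, ℤ)) : MeromorphicAt (fun q => eisFun χ (cCusp N δ q)) 0 := by
  have hg : S28lib.Good (fun τ => eisFun χ (δ • τ)) := by
    have h1 := (S28lib.good_of_isBounded (f := eisChar 12 χ ∣[(12 : ℤ)] δ) ?_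
      (isBoundedAtImInfty_eisChar_slash (by norm_num) (norm_eq_one_of_mem hm hχ) δ)).mul
      S28lib.good_disc_inv
    · exact (funext fun τ => eisFun_smul χ δ τ) ▸ h1
    · rw [eisChar, wEis_slash]
      exact mdiff_wEis (by norm_num) (fun v => norm_chiW_le (norm_eq_one_of_mem hm hχ) _)
  obtain ⟨c, hc⟩ := hg.mod
  exact meromorphicAt_cusp N (b := fun τ => eisFun χ (δ • τ)) hg.holo
    (comp_periodic hχ (eisFun_Gamma0 hχ) δ N (conj_T_N_mem N δ)) hc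

end FunLocal

end Fermat.Agent.ESlib
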