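import Mathlib

/-!
# ES library, Part A (function side): elementary facts on `SL(2, ℤ)` acting on `ℍ`
-/

set_option autoImplicit false

open UpperHalfPlane MatrixGroups

namespace Fermat.Agent.ESlib

namespace FunGroup

theorem smul_eq_iff (γ : SL(2, ℤ)) (τ : ℍ) :
    γ • τ = τ ↔ ((γ 0 0 : ℤ) : ℂ) * τ + ((γ 0 1 : ℤ) : ℂ) =
      τ * (((γ 1 0 : ℤ) : ℂ) * τ + ((γ 1 1 : ℤ) : ℂ)) := by
  have hd : ((γ 1 0 : ℤ) : ℂ) * τ + ((γ 1 1 : ℤ) : ℂ) ≠ 0 := by
    have := denom_ne_zero γ τ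
    rwa [ModularGroup.denom_apply] at this
  rw [UpperHalfPlane.ext_iff, coe_specialLinearGroup_apply]
  simp only [algebraMap_int_eq, Int.coe_castRingHom, Complex.ofReal_intCast]
  rw [div_eq_iff hd]

theorem det_eq (γ : SL(2, ℤ)) : γ 0 0 * γ 1 1 - γ 0 1 * γ 1 0 = 1 := by
  have := γ.det_coe
  rwa [Matrix.det_fin_two] at this

/-- an element with a fixed point in `ℍ` has `(tr γ)² ≤ 4` -/
theorem trace_sq_le_of_fixed {γ : SL(2, ℤ)} {τ : ℍ} (h : γ • τ = τ) :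
    ((γ : Matrix (Fin 2) (Fin 2) ℤ)).trace ^ 2 ≤ 4 := by
  rw [smul_eq_iff] at h
  rw [Matrix.trace_fin_two]
  have hdet : ((γ 0 0 : ℤ) : ℝ) * (γ 1 1 : ℤ) - (γ 0 1 : ℤ) * (γ 1 0 : ℤ) = 1 := by
    exact_mod_cast det_eq γ
  have hre := congrArg Complex.re h
  have him := congrArg Complex.im h
  simp only [Complex.add_re, Complex.mul_re, Complex.intCast_re, Complex.intCast_im, zero_mul,
    sub_zero, Complex.add_im, Complex.mul_im, add_zero, UpperHalfPlane.coe_re,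
    UpperHalfPlane.coe_im] at hre him
  have hy := τ.im_pos
  set a : ℝ := ((γ 0 0 : ℤ) : ℝ)
  set b : ℝ := ((γ 0 1 : ℤ) : ℝ)
  set c : ℝ := ((γ 1 0 : ℤ) : ℝ)
  set d : ℝ := ((γ 1 1 : ℤ) : ℝ)
  set x := τ.re
  set y := τ.im
  have h1 : a - d = 2 * c * x := by
    have : y * (a - d - 2 * c * x) = 0 := by linear_combination him
    rcases mul_eq_zero.1 this with h0 | h0
    · exact absurd h0 hy.ne'
    · linarith
  have h2 : b = -c * (x ^ 2 + y ^ 2) := by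
    linear_combination hre - x * h1
  have h3 : (a + d) ^ 2 = 4 - 4 * c ^ 2 * y ^ 2 := by
    have : (a + d) ^ 2 = (a - d) ^ 2 + 4 * (a * d) := by ring
    rw [this, h1]
    have h4 : a * d = 1 + b * c := by linarith
    rw [h4, h2]
    ring
  have h5 : (a + d) ^ 2 ≤ 4 := by
    rw [h3]
    nlinarith [sq_nonneg (c * y)]
  have h6 : (((γ 0 0 + γ 1 1 : ℤ) : ℝ)) ^ 2 ≤ 4 := by
    push_cast
    exact h5
  exact_mod_cast h6

/-- an element with `(tr γ)² < 4` has a fixed point in `ℍ` -/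
theorem exists_fixed_of_trace_sq_lt {γ : SL(2, ℤ)}
    (h : ((γ : Matrix (Fin 2) (Fin 2) ℤ)).trace ^ 2 < 4) : ∃ τ : ℍ, γ • τ = τ := by
  rw [Matrix.trace_fin_two] at h
  have hdet : ((γ 0 0 : ℤ) : ℝ) * (γ 1 1 : ℤ) - (γ 0 1 : ℤ) * (γ 1 0 : ℤ) = 1 := by
    exact_mod_cast det_eq γ
  have hc : γ 1 0 ≠ 0 := by
    intro hc
    have h1 := det_eq γ
    rw [hc, mul_zero, sub_zero] at h1
    have h2 : γ 0 0 = 1 ∧ γ 1 1 = 1 ∨ γ 0 0 = -1 ∧ γ 1 1 = -1 := Int.mul_eq_one_iff_eq_one_or_neg_one.1 h1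
    rcases h2 with ⟨h2, h3⟩ | ⟨h2, h3⟩ <;> rw [h2, h3] at h <;> norm_num at h
  have htr : (((γ 0 0 : ℤ) : ℝ) + (γ 1 1 : ℤ)) ^ 2 < 4 := by exact_mod_cast h
  set a : ℝ := ((γ 0 0 : ℤ) : ℝ) with ha
  set b : ℝ := ((γ 0 1 : ℤ) : ℝ) with hb
  set c : ℝ := ((γ 1 0 : ℤ) : ℝ) with hcdef
  set d : ℝ := ((γ 1 1 : ℤ) : ℝ) with hd
  have hc' : c ≠ 0 := by rw [hcdef]; exact_mod_cast hc
  set D : ℝ := 4 - (a + d) ^ 2 with hD
  have hDpos : 0 < D := by rw [hD]; linarith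
  set y : ℝ := Real.sqrt D / (2 * |c|) with hy
  have hypos : 0 < y := div_pos (Real.sqrt_pos.2 hDpos) (by positivity)
  have hy2 : y ^ 2 = D / (4 * c ^ 2) := by
    rw [hy, div_pow, Real.sq_sqrt hDpos.le, mul_pow, sq_abs]
    norm_num
  set x : ℝ := (a - d) / (2 * c) with hx
  have hx1 : 2 * c * x = a - d := by rw [hx]; field_simp
  have hy3 : 4 * c ^ 2 * y ^ 2 = D := by rw [hy2]; field_simp
  clear_value x y
  refine ⟨⟨⟨x, y⟩, hypos⟩, ?_⟩
  rw [smul_eq_iff]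
  have hb1 : c * b = -(c ^ 2 * (x ^ 2 + y ^ 2)) := by
    have h1 : 4 * c ^ 2 * x ^ 2 = (a - d) ^ 2 := by rw [← hx1]; ring
    have : 4 * (c * b) = -(4 * c ^ 2 * x ^ 2 + 4 * c ^ 2 * y ^ 2) := by
      rw [h1, hy3, hD]
      linear_combination (-4) * hdet
    linarith
  have hb2 : b = -(c * (x ^ 2 + y ^ 2)) := by
    apply mul_left_cancel₀ hc'
    rw [hb1]; ring
  apply Complex.ext
  · simp only [Complex.add_re, Complex.mul_re, Complex.intCast_re, Complex.intCast_im, zero_mul,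
      sub_zero, Complex.add_im, Complex.mul_im, add_zero]
    show a * x + b = x * (c * x + d) - y * (c * y)
    rw [hb2]
    linear_combination (-x) * hx1
  · simp only [Complex.add_re, Complex.mul_re, Complex.intCast_re, Complex.intCast_im, zero_mul,
      sub_zero, Complex.add_im, Complex.mul_im, add_zero]
    show a * y = x * (c * y) + y * (c * x + d)
    linear_combination (-y) * hx1

/-- an upper triangular element is `± T ^ n` -/
theorem eq_T_zpow_or_neg {u : SL(2, ℤ)} (hu : u 1 0 = 0) :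
    ∃ n : ℤ, u = ModularGroup.T ^ n ∨ u = -ModularGroup.T ^ n := by
  have h1 := det_eq u
  rw [hu, mul_zero, sub_zero] at h1
  rcases Int.mul_eq_one_iff_eq_one_or_neg_one.1 h1 with ⟨h2, h3⟩ | ⟨h2, h3⟩
  · refine ⟨u 0 1, Or.inl ?_⟩
    ext i j
    rw [ModularGroup.coe_T_zpow]
    fin_cases i <;> fin_cases j <;> simp [h2, h3, hu]
  · refine ⟨-u 0 1, Or.inr ?_⟩
    ext i j
    rw [Matrix.SpecialLinearGroup.coe_neg, ModularGroup.coe_T_zpow]
    fin_cases i <;> fin_cases j <;> simp [h2, h3, hu]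

end FunGroup

end Fermat.Agent.ESlib
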