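import Fermat.Agent.ES.A.FunDefs
import Fermat.Agent.S28.AnFamily

/-!
# ES library, Part A (function side): local analytic lemmas
-/

set_option autoImplicit false

open UpperHalfPlane ModularForm MatrixGroups Filter Topology CongruenceSubgroup ModularCurve
open scoped Manifold
open Fermat.Agent.S24lib

namespace Fermat.Agent.ESlib

namespace FunLocal

/-- **(LC)** if a nonzero meromorphic germ `A` satisfies `A ∘ σ = c A` for a local biholomorphism
`σ` fixing `0`, then `c = σ'(0) ^ ord A`. -/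
theorem eq_deriv_zpow_of_comp {A σ : ℂ → ℂ} (hA : MeromorphicAt A 0) (h0 : laurent A ≠ 0)
    (hσ : AnalyticAt ℂ σ 0) (hσ0 : σ 0 = 0) (hσ' : deriv σ 0 ≠ 0) {c : ℂ}
    (h : ∀ᶠ t in 𝓝[≠] (0 : ℂ), A (σ t) = c * A t) : c = deriv σ 0 ^ (laurent A).order := by
  obtain ⟨-, h1, -, h3⟩ := laurent_comp hA hσ hσ0 hσ' h0
  have h4 : laurent (A ∘ σ) = HahnSeries.C c * laurent A := by
    rw [← laurent_const, ← laurent_mul (MeromorphicAt.const c 0) hA]
    exact laurent_congr h
  rw [h4] at h3 h1
  have hc : c ≠ 0 := by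
    rintro rfl
    simp at h1
  have h5 : (HahnSeries.C c * laurent A).leadingCoeff = c * (laurent A).leadingCoeff := by
    rw [HahnSeries.leadingCoeff_mul, HahnSeries.C_apply, HahnSeries.leadingCoeff_of_single]
  rw [h5] at h3
  exact mul_right_cancel₀ (HahnSeries.leadingCoeff_ne_zero.2 h0) h3

/-- **(PC)** a function whose `m`-th power is close to a nonzero constant on a horizontal line
cannot be multiplied by a nontrivial `m`-th root of unity under a horizontal translation. -/
theorem eq_one_of_near {U : ℂ → ℂ} {C : ℝ} (hC : 0 < C)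
    (hU : ContinuousOn U {z : ℂ | 0 < z.im}) {m : ℕ} (hm : m ≠ 0) {L : ℂ} (hL : L ≠ 0)
    (hnear : ∀ z : ℂ, C ≤ z.im → ‖U z ^ m / L - 1‖ < 1) (x : ℝ) {c : ℂ}
    (hc : ∀ z : ℂ, 0 < z.im → U (z + x) = c * U z) (hcm : c ^ m = 1) : c = 1 := by
  set z₀ : ℂ := C * Complex.I with hz₀
  have him : ∀ s : ℝ, (z₀ + s).im = C := by
    intro s
    simp [hz₀]
  set w : ℝ → ℂ := fun s => U (z₀ + s) ^ m / L with hw
  have hUc : Continuous fun s : ℝ => U (z₀ + s) := by
    refine hU.comp_continuous (by fun_prop) (fun s => ?_)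
    show 0 < (z₀ + s).im
    rw [him]; exact hC
  have hwc : Continuous w := (hUc.pow m).div_const L
  have hws : ∀ s, w s ∈ Complex.slitPlane := by
    intro s
    have h1 := hnear (z₀ + s) (by rw [him])
    left
    have h2 : |(w s - 1).re| < 1 := lt_of_le_of_lt (Complex.abs_re_le_norm _) h1
    rw [Complex.sub_re, Complex.one_re, abs_lt] at h2
    linarith [h2.1]
  have hw0 : ∀ s, w s ≠ 0 := fun s => Complex.slitPlane_ne_zero (hws s)
  set r : ℝ → ℂ := fun s => w s ^ ((m : ℂ)⁻¹) with hr
  have hrc : Continuous r := hwc.cpow continuous_const hws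
  have hrm : ∀ s, r s ^ m = w s := fun s => Complex.cpow_nat_inv_pow _ hm
  have hr0 : ∀ s, r s ≠ 0 := by
    intro s h
    apply hw0 s
    rw [← hrm, h, zero_pow hm]
  set φ : ℝ → ℂ := fun s => U (z₀ + s) / r s with hφ
  have hφc : Continuous φ := hUc.div hrc hr0
  have hφm : ∀ s, φ s ^ m = L := by
    intro s
    simp only [hφ]
    rw [div_pow, hrm]
    simp only [hw]
    have : U (z₀ + s) ^ m ≠ 0 := by
      intro h
      apply hw0 s
      simp only [hw, h, zero_div]
    field_simp
  set T : Set ℂ := {z : ℂ | z ^ m = L} with hT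
  have hTfin : T.Finite := by
    have : T ⊆ ((Polynomial.nthRoots m L).toFinset : Set ℂ) := by
      intro z hz
      simp only [Finset.mem_coe, Multiset.mem_toFinset]
      exact (Polynomial.mem_nthRoots (Nat.pos_of_ne_zero hm)).2 hz
    exact (Finset.finite_toSet _).subset this
  have hconst : φ x = φ 0 :=
    isPreconnected_univ.constant_of_mapsTo (T := T) hTfin.isDiscrete hφc.continuousOn
      (fun s _ => hφm s)
      (Set.mem_univ _) (Set.mem_univ _)
  have h1 : U (z₀ + x) = c * U z₀ := hc z₀ (by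
    have := him 0
    simp only [Complex.ofReal_zero, add_zero] at this
    rw [this]; exact hC)
  have hwx : w x = w 0 := by
    simp only [hw]
    rw [h1, mul_pow, hcm, one_mul]
    simp
  have hrx : r x = r 0 := by simp only [hr, hwx]
  simp only [hφ] at hconst
  rw [hrx, h1] at hconst
  have h2 : c * U z₀ = U z₀ := by
    have := (div_left_inj' (hr0 0)).1 hconst
    simpa using this
  have hU0 : U z₀ ≠ 0 := by
    intro h
    apply hw0 0
    simp [hw, h, zero_pow hm]
  exact mul_right_cancel₀ hU0 (by rw [h2, one_mul])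

theorem ofComplex_add_natCast (N : ℕ) {z : ℂ} (hz : 0 < z.im) :
    ofComplex (z + (N : ℝ)) = ModularGroup.T ^ (N : ℤ) • ofComplex z := by
  apply UpperHalfPlane.ext
  rw [ModularGroup.coe_T_zpow_smul_eq, ofComplex_apply_of_im_pos hz,
    ofComplex_apply_of_im_pos (by simpa using hz)]
  simp

theorem qParam_add_period (N : ℕ) [NeZero N] (z : ℂ) :
    Function.Periodic.qParam N (z + (N : ℝ)) = Function.Periodic.qParam N z := by
  have hN : ((N : ℝ) : ℂ) ≠ 0 := by exact_mod_cast NeZero.ne N
  simp only [Function.Periodic.qParam]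
  have : 2 * (Real.pi : ℂ) * Complex.I * (z + (N : ℝ)) / (N : ℝ) =
      2 * (Real.pi : ℂ) * Complex.I * z / (N : ℝ) + 2 * Real.pi * Complex.I := by
    field_simp
  rw [this, Complex.exp_add, Complex.exp_two_pi_mul_I, mul_one]

/-- **(MC)** a holomorphic `N`-periodic function of moderate growth is meromorphic at the cusp -/
theorem meromorphicAt_cusp (N : ℕ) [NeZero N] {b : ℍ → ℂ} (hb : MDiff b)
    (hper : ∀ τ : ℍ, b (ModularGroup.T ^ (N : ℤ) • τ) = b τ) {c : ℝ}
    (hgrow : b =O[atImInfty] fun τ : ℍ => Real.exp (c * τ.im)) :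
    MeromorphicAt (fun q => b (ofComplex (Function.Periodic.invQParam N q))) 0 := by
  have hN : (0 : ℝ) < N := by exact_mod_cast Nat.pos_of_ne_zero (NeZero.ne N)
  obtain ⟨M, hM⟩ := exists_nat_ge (c * N / (2 * Real.pi))
  have hpi : 0 < 2 * Real.pi := by positivity
  have hM' : c ≤ 2 * Real.pi * M / N := by
    rw [div_le_iff₀ hpi] at hM
    rw [le_div_iff₀ hN]
    linarith
  set F : ℂ → ℂ := fun z => b (ofComplex z) * (Function.Periodic.qParam N z) ^ M with hF
  have hFper : Function.Periodic F (N : ℝ) := by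
    intro z
    simp only [hF]
    rw [qParam_add_period]
    congr 1
    by_cases hz : 0 < z.im
    · rw [ofComplex_add_natCast N hz, hper]
    · rw [ofComplex_apply_eq_of_im_nonpos (w := z + (N : ℝ)) (w' := z) (by simpa using hz)
        (by simpa using hz)]
  have hpos : ∀ᶠ z : ℂ in comap Complex.im atTop, 0 < z.im :=
    tendsto_comap.eventually (eventually_gt_atTop 0)
  have hFhol : ∀ᶠ z : ℂ in comap Complex.im atTop, DifferentiableAt ℂ F z := by
    filter_upwards [hpos] with z hz
    have h1 : DifferentiableAt ℂ (b ∘ ofComplex) z :=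
      ((UpperHalfPlane.mdifferentiable_iff.mp hb) z hz).differentiableAt
        (isOpen_upperHalfPlaneSet.mem_nhds hz)
    exact h1.mul ((Function.Periodic.differentiable_qParam z).pow M)
  have hFbd : BoundedAtFilter (comap Complex.im atTop) F := by
    obtain ⟨K, hK⟩ := hgrow.bound
    rw [Filter.Eventually, atImInfty_mem] at hK
    obtain ⟨A, hA⟩ := hK
    refine Asymptotics.IsBigO.of_bound K ?_
    filter_upwards [hpos, tendsto_comap.eventually (eventually_ge_atTop A)] with z hz hzA
    have h1 := hA (ofComplex z) (by rw [ofComplex_apply_of_im_pos hz]; exact hzA)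
    simp only [Set.mem_ofPred_eq] at h1
    have h2 : (ofComplex z).im = z.im := by rw [ofComplex_apply_of_im_pos hz]; rfl
    rw [h2, Real.norm_of_nonneg (Real.exp_pos _).le] at h1
    have hK0 : 0 ≤ K := by
      by_contra hneg
      have : ‖b (ofComplex z)‖ < 0 := lt_of_le_of_lt h1
        (mul_neg_of_neg_of_pos (not_le.mp hneg) (Real.exp_pos _))
      exact absurd (norm_nonneg _) (not_le.mpr this)
    simp only [hF, Pi.one_apply, norm_one, mul_one, norm_mul, norm_pow,
      Function.Periodic.norm_qParam]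
    rw [← Real.exp_nat_mul]
    calc ‖b (ofComplex z)‖ * Real.exp (M * (-2 * Real.pi * z.im / N))
        ≤ K * Real.exp (c * z.im) * Real.exp (M * (-2 * Real.pi * z.im / N)) :=
          mul_le_mul_of_nonneg_right h1 (Real.exp_pos _).le
      _ = K * Real.exp ((c - 2 * Real.pi * M / N) * z.im) := by
          rw [mul_assoc, ← Real.exp_add]
          congr 2
          ring
      _ ≤ K * 1 := by
          refine mul_le_mul_of_nonneg_left ?_ hK0
          rw [Real.exp_le_one_iff]
          exact mul_nonpos_of_nonpos_of_nonneg (by linarith) hz.le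
      _ = K := mul_one K
  set Φ := Function.Periodic.cuspFunction N F with hΦ
  have hΦan : AnalyticAt ℂ Φ 0 := by
    rw [Complex.analyticAt_iff_eventually_differentiableAt]
    have h1 := Function.Periodic.eventually_differentiableAt_cuspFunction_nhds_ne_zero hN hFper hFhol
    have h0 := Function.Periodic.differentiableAt_cuspFunction_zero hN hFper hFhol hFbd
    rw [eventually_nhdsWithin_iff] at h1
    filter_upwards [h1] with q hq
    by_cases hq0 : q = 0
    · rw [hq0]; exact h0
    · exact hq hq0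
  have hev : (fun q => b (ofComplex (Function.Periodic.invQParam N q))) =ᶠ[𝓝[≠] 0]
      fun q => Φ q * (q ^ M)⁻¹ := by
    filter_upwards [self_mem_nhdsWithin] with q hq
    have hq : q ≠ 0 := hq
    rw [hΦ, Function.Periodic.cuspFunction_eq_of_nonzero _ _ hq]
    simp only [hF]
    rw [Function.Periodic.qParam_right_inv hN.ne' hq, mul_assoc,
      mul_inv_cancel₀ (pow_ne_zero _ hq), mul_one]
  exact (hΦan.meromorphicAt.mul ((MeromorphicAt.id 0).pow M).inv).congr hev.symm

theorem periodic_zpow (N : ℕ) {b : ℍ → ℂ}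
    (hper : ∀ τ : ℍ, b (ModularGroup.T ^ (N : ℤ) • τ) = b τ) (j : ℤ) (τ : ℍ) :
    b (ModularGroup.T ^ (j * N) • τ) = b τ := by
  induction j using Int.induction_on generalizing τ with
  | zero => simp
  | succ i ih =>
    rw [add_mul, one_mul, zpow_add, mul_smul, ih, hper]
  | pred i ih =>
    have h1 := hper (ModularGroup.T ^ ((-(i : ℤ) - 1) * N) • τ)
    rw [← mul_smul, ← zpow_add] at h1
    rw [← h1, show (N : ℤ) + (-(i : ℤ) - 1) * N = -(i : ℤ) * N by ring, ih]

theorem exists_invQParam_qParam (N : ℕ) [NeZero N] (τ : ℍ) :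
    ∃ j : ℤ, ofComplex (Function.Periodic.invQParam N (Function.Periodic.qParam N τ)) =
      ModularGroup.T ^ (j * N) • τ := by
  have hN : (N : ℝ) ≠ 0 := by exact_mod_cast NeZero.ne N
  obtain ⟨j, hj⟩ := Function.Periodic.qParam_left_inv_mod_period hN (τ : ℂ)
  refine ⟨j, ?_⟩
  rw [hj]
  apply UpperHalfPlane.ext
  rw [ModularGroup.coe_T_zpow_smul_eq, ofComplex_apply_of_im_pos (by simpa using τ.im_pos)]
  simp

theorem comp_invQParam_qParam (N : ℕ) [NeZero N] {b : ℍ → ℂ}
    (hper : ∀ τ : ℍ, b (ModularGroup.T ^ (N : ℤ) • τ) = b τ) (τ : ℍ) :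
    b (ofComplex (Function.Periodic.invQParam N (Function.Periodic.qParam N τ))) = b τ := by
  obtain ⟨j, hj⟩ := exists_invQParam_qParam N τ
  rw [hj, periodic_zpow N hper]

theorem tendsto_qParam_atImInfty (N : ℕ) [NeZero N] :
    Tendsto (fun τ : ℍ => Function.Periodic.qParam N (τ : ℂ)) atImInfty (𝓝[≠] 0) := by
  have hN : (0 : ℝ) < N := by exact_mod_cast Nat.pos_of_ne_zero (NeZero.ne N)
  exact (Function.Periodic.qParam_tendsto hN).comp tendsto_coe_atImInfty

/-- **(G1)** meromorphic at the cusp implies moderate growth -/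
theorem isBigO_of_meromorphicAt (N : ℕ) [NeZero N] {b : ℍ → ℂ}
    (hper : ∀ τ : ℍ, b (ModularGroup.T ^ (N : ℤ) • τ) = b τ)
    (hmer : MeromorphicAt (fun q => b (ofComplex (Function.Periodic.invQParam N q))) 0) :
    ∃ c : ℝ, 0 ≤ c ∧ b =O[atImInfty] fun τ : ℍ => Real.exp (c * τ.im) := by
  have hN : (0 : ℝ) < N := by exact_mod_cast Nat.pos_of_ne_zero (NeZero.ne N)
  obtain ⟨n, g, hg, hn⟩ := exists_rep hmer
  have hgO : g =O[𝓝[≠] (0 : ℂ)] (fun _ => (1 : ℂ)) :=
    (hg.continuousAt.tendsto.isBigO_one ℂ).mono nhdsWithin_le_nhds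
  have hφO : (fun q => b (ofComplex (Function.Periodic.invQParam N q))) =O[𝓝[≠] (0 : ℂ)]
      (fun z : ℂ => z ^ (-(n : ℤ)) * 1) :=
    ((Asymptotics.isBigO_refl (fun z : ℂ => z ^ (-(n : ℤ))) _).mul hgO).congr'
      (hn.mono fun z hz => hz.symm) EventuallyEq.rfl
  have h1 := hφO.comp_tendsto (tendsto_qParam_atImInfty N)
  refine ⟨2 * Real.pi * n / N, by positivity, ?_⟩
  refine (h1.congr_left fun τ => ?_).norm_right.congr_right fun τ => ?_
  · simp only [Function.comp_apply]
    exact comp_invQParam_qParam N hper τ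
  · simp only [Function.comp_apply, mul_one, norm_zpow, Function.Periodic.norm_qParam]
    rw [zpow_neg, zpow_natCast, ← Real.exp_nat_mul, ← Real.exp_neg]
    congr 1
    simp only [UpperHalfPlane.coe_im]
    ring

/-- growth of an `m`-th root -/
theorem isBigO_of_pow {b Ψ : ℍ → ℂ} {m : ℕ} (hm : m ≠ 0) (h : ∀ τ, b τ ^ m = Ψ τ) {c : ℝ}
    (hc : 0 ≤ c) (hΨ : Ψ =O[atImInfty] fun τ : ℍ => Real.exp (c * τ.im)) :
    b =O[atImInfty] fun τ : ℍ => Real.exp (c * τ.im) := by
  obtain ⟨K, hK⟩ := hΨ.bound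
  refine Asymptotics.IsBigO.of_bound (1 + |K|) ?_
  filter_upwards [hK] with τ hτ
  rw [Real.norm_of_nonneg (Real.exp_pos _).le] at hτ ⊢
  have he : 1 ≤ Real.exp (c * τ.im) := Real.one_le_exp (mul_nonneg hc τ.im_pos.le)
  have h1 : ‖b τ‖ ≤ 1 + ‖b τ‖ ^ m := by
    rcases le_total ‖b τ‖ 1 with h1 | h1
    · have := pow_nonneg (norm_nonneg (b τ)) m
      linarith
    · have := le_self_pow₀ h1 hm
      linarith
  rw [← norm_pow, h] at h1
  have h2 : K * Real.exp (c * τ.im) ≤ |K| * Real.exp (c * τ.im) :=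
    mul_le_mul_of_nonneg_right (le_abs_self K) (Real.exp_pos _).le
  nlinarith

end FunLocal

end Fermat.Agent.ESlib
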