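import Fermat.Agent.ES.A.FunLocal
import Fermat.Agent.ES.A.FunGroup
import Fermat.Agent.S21lib.Parabolic

/-!
# ES library, Part A (function side): the character of an `m`-th root of an `m`-divisible function
is trivial on elliptic and parabolic elements
-/

set_option autoImplicit false

open UpperHalfPlane ModularForm MatrixGroups Filter Topology CongruenceSubgroup ModularCurve
open AlgebraicCurve
open scoped Manifold
open Fermat.Agent.S24lib

namespace Fermat.Agent.ESlib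

namespace FunLocal

theorem laurent_pow {φ : ℂ → ℂ} (hφ : MeromorphicAt φ 0) (n : ℕ) :
    laurent (fun z => φ z ^ n) = laurent φ ^ n := by
  have h := map_pow laurentHom (⟨φ, hφ⟩ : Mer) n
  rw [laurentHom_apply, laurentHom_apply] at h
  exact h

theorem order_laurent {φ : ℂ → ℂ} (hφ : MeromorphicAt φ 0) (h0 : laurent φ ≠ 0) :
    (laurent φ).order = (meromorphicOrderAt φ 0).untop₀ := by
  have h1 : meromorphicOrderAt φ 0 ≠ ⊤ := by
    rw [Ne, meromorphicOrderAt_eq_top_iff, ← laurent_eq_zero_iff hφ]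
    exact h0
  obtain ⟨g, hg, hg0, hk⟩ := (meromorphicOrderAt_ne_top_iff hφ).1 h1
  have hk' : ∀ᶠ z in 𝓝[≠] (0 : ℂ), φ z = z ^ (meromorphicOrderAt φ 0).untop₀ * g z := by
    filter_upwards [hk] with z hz
    simpa using hz
  exact (order_laurent_eq hg hg0 hk').2.1

variable {N : ℕ} [NeZero N] {m : ℕ}

/-- consequences of `m`-divisibility along a chart with a centre -/
theorem exists_of_place {c : ℂ → ℍ} (hc : IsChart N c) (v : Place ℂ (FK ℂ N)) (e : ℕ)
    (hv : ∀ f : FK ℂ N, f ≠ 0 → (chartEmb ℂ hc f).order = e * v.ord f) {g : FK ℂ N}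
    (hg : MDiv ℂ m g) :
    ∃ (k : ℤ) (u : FK ℂ N), u ≠ 0 ∧ (chartEmb ℂ hc u).order = e ∧
      (chartEmb ℂ hc g).order = e * (m * k) := by
  obtain ⟨k, hk⟩ := hg.2 v
  obtain ⟨u, hu, hu1⟩ := Place.exists_ord_eq_one v
  exact ⟨k, u, hu, by rw [hv u hu, hu1, mul_one], by rw [hv g hg.1, hk]⟩

theorem analyticAt_comp_cInt {a : ℍ → ℂ} (ha : MDiff a) (γ : SL(2, ℤ)) (τ₀ : ℍ) :
    AnalyticAt ℂ (fun t => a (cInt γ τ₀ t)) 0 :=
  analyticAt_hgerm (mdiff_comp_smul ha γ) τ₀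

theorem laurent_comp_cInt_ne_zero {a : ℍ → ℂ} (ha : MDiff a) (h0 : a ≠ 0) (γ : SL(2, ℤ))
    (τ₀ : ℍ) : laurent (fun t => a (cInt γ τ₀ t)) ≠ 0 := by
  intro h
  rw [laurent_eq_zero_iff (analyticAt_comp_cInt ha γ τ₀).meromorphicAt] at h
  exact h0 (ident_cInt γ τ₀ a ha h)

/-- the multiplier of `a` under an element fixing the centre of an interior chart -/
theorem chi_eq_zpow_of_fixed {a : ℍ → ℂ} (ha : MDiff a) (h0 : a ≠ 0) (β ε δ : SL(2, ℤ)) (τ₁ : ℍ)
    (hfix : ε • τ₁ = τ₁) (hδ : δ * β = β * ε) {c : ℂ} (hc : ∀ τ, a (δ • τ) = c * a τ) :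
    c = (denom ε τ₁ ^ (-2 : ℤ)) ^ (laurent (fun t => a (cInt β τ₁ t))).order := by
  have h := eq_deriv_zpow_of_comp (A := fun t => a (cInt β τ₁ t)) (σ := mob ε τ₁) (c := c)
    (analyticAt_comp_cInt ha β τ₁).meromorphicAt (laurent_comp_cInt_ne_zero ha h0 β τ₁)
    (analyticAt_mob ε τ₁) (mob_zero hfix)
    (by rw [deriv_mob]; exact zpow_ne_zero _ (denom_ne_zero _ _))
    (Eventually.of_forall fun t => by
      show a (cInt β τ₁ (mob ε τ₁ t)) = c * a (cInt β τ₁ t)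
      rw [cInt, ofComplex_add_mob, ← mul_smul, ← hδ, mul_smul, hc]
      rfl)
  rwa [deriv_mob] at h

/-- **elliptic elements** (and `±1`): the character is trivial on elements with a fixed point -/
theorem chi_eq_one_of_fixed (hm : m ≠ 0) {R : MvPolynomial (Dv N) ℂ}
    (hR : MDiv ℂ m (evF ℂ N R)) {a : ℍ → ℂ} (ha : MDiff a)
    (hpow : ∀ τ, a τ ^ m = evH ℂ N R τ) {γ : SL(2, ℤ)} (hγ : γ ∈ Gamma0 N) {c : ℂ}
    (hc : ∀ τ, a (γ • τ) = c * a τ) {τ₁ : ℍ} (hfix : γ • τ₁ = τ₁) : c = 1 := by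
  have h0 : a ≠ 0 := by
    rintro rfl
    apply hR.1
    rw [evF_eq_zero_iff]
    ext τ
    rw [← hpow]
    simp [hm]
  obtain ⟨v, e, he, -, hv⟩ := exists_place_cInt (K := ℂ) N 1 τ₁ (jfun τ₁) rfl
  obtain ⟨k, u, hu, hue, hk⟩ := exists_of_place (isChart_cInt N 1 τ₁) v e hv hR
  have h1 := chi_eq_zpow_of_fixed ha h0 1 γ γ τ₁ hfix (by simp) hc
  set A : ℂ → ℂ := fun t => a (cInt 1 τ₁ t) with hA
  have hAm : (laurent A) ^ m = chartEmb ℂ (isChart_cInt N 1 τ₁) (evF ℂ N R) := by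
    rw [chartEmb_evF, ← laurent_pow (analyticAt_comp_cInt ha 1 τ₁).meromorphicAt]
    congr 1
    ext t
    exact hpow _
  have h2 : (m : ℤ) * (laurent A).order = e * (m * k) := by
    rw [← hk, ← hAm, HahnSeries.order_pow, nsmul_eq_mul]
  have h3 : (laurent A).order = e * k := by
    have hm' : (m : ℤ) ≠ 0 := by exact_mod_cast hm
    apply mul_left_cancel₀ hm'
    rw [h2]; ring
  have h4 := pow_order_eq_one_of_fixed (K := ℂ) N τ₁ 1 γ hfix (by simpa using hγ) u hu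
  rw [hue] at h4
  rw [h1, h3, zpow_mul, h4, one_zpow]

theorem ofComplex_add_intCast (n : ℤ) {z : ℂ} (hz : 0 < z.im) :
    ofComplex (z + ((n : ℝ) : ℂ)) = ModularGroup.T ^ n • ofComplex z := by
  apply UpperHalfPlane.ext
  rw [ModularGroup.coe_T_zpow_smul_eq, ofComplex_apply_of_im_pos hz,
    ofComplex_apply_of_im_pos (by simpa using hz)]
  simp

theorem qParam_add_intCast (N : ℕ) (n : ℤ) (z : ℂ) :
    Function.Periodic.qParam N (z + ((n : ℝ) : ℂ)) =
      Function.Periodic.qParam N z * Complex.exp (2 * Real.pi * Complex.I / N) ^ n := by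
  simp only [Function.Periodic.qParam]
  rw [← Complex.exp_int_mul, ← Complex.exp_add]
  congr 1
  push_cast
  ring

/-- periodicity of `Γ₀(N)`-invariant functions along any cusp -/
theorem evH_comp_periodic (R : MvPolynomial (Dv N) ℂ) (δ : SL(2, ℤ)) (τ : ℍ) :
    evH ℂ N R (δ • ModularGroup.T ^ (N : ℤ) • τ) = evH ℂ N R (δ • τ) := by
  have h1 := conj_T_zpow_mul_mem_Gamma0 N δ 1
  rw [one_mul] at h1
  have h2 : δ • ModularGroup.T ^ (N : ℤ) • τ = (δ * ModularGroup.T ^ (N : ℤ) * δ⁻¹) • (δ • τ) := by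
    simp only [mul_smul, inv_smul_smul]
  rw [h2, evH_Gamma0 N R _ h1]

/-- decomposition of an element of trace `±2` -/
theorem exists_conj_T_zpow {γ : SL(2, ℤ)} (hγ : γ ∈ Gamma0 N)
    (htr : ((γ : Matrix (Fin 2) (Fin 2) ℤ)).trace ^ 2 = 4) :
    ∃ (δ : SL(2, ℤ)) (n : ℤ), δ * ModularGroup.T ^ n * δ⁻¹ ∈ Gamma0 N ∧
      ∀ τ : ℍ, γ • δ • τ = δ • ModularGroup.T ^ n • τ := by
  obtain ⟨δ, u, hδu, hu⟩ := S21lib.exists_conj_upperTriangular γ htr
  obtain ⟨n, hn⟩ := FunGroup.eq_T_zpow_or_neg hu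
  refine ⟨δ, n, ?_, fun τ => ?_⟩
  · rcases hn with h | h
    · rw [← h, ← hδu, mul_inv_cancel_right]; exact hγ
    · have h' : ModularGroup.T ^ n = -u := by rw [h, neg_neg]
      have : δ * ModularGroup.T ^ n * δ⁻¹ = -γ := by
        rw [h', mul_neg, neg_mul, ← hδu, mul_inv_cancel_right]
      rw [this, Gamma0_mem]
      rw [Gamma0_mem] at hγ
      simpa using hγ
  · rw [← mul_smul, hδu, mul_smul]
    rcases hn with h | h
    · rw [h]
    · rw [h, ModularGroup.SL_neg_smul]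

/-- **parabolic elements**: the character is trivial on elements of trace `±2` -/
theorem chi_eq_one_of_parabolic (hm : m ≠ 0) {R : MvPolynomial (Dv N) ℂ}
    (hR : MDiv ℂ m (evF ℂ N R)) {a : ℍ → ℂ} (ha : MDiff a)
    (hpow : ∀ τ, a τ ^ m = evH ℂ N R τ) {γ : SL(2, ℤ)} (hγ : γ ∈ Gamma0 N) {c : ℂ}
    (hc : ∀ τ, a (γ • τ) = c * a τ) (hcm : c ^ m = 1)
    (htr : ((γ : Matrix (Fin 2) (Fin 2) ℤ)).trace ^ 2 = 4) : c = 1 := by
  obtain ⟨δ, n, hmem, hact⟩ := exists_conj_T_zpow hγ htr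
  set b : ℍ → ℂ := fun τ => a (δ • τ) with hbdef
  have hb : MDiff b := mdiff_comp_smul ha δ
  have hbT : ∀ τ, b (ModularGroup.T ^ n • τ) = c * b τ := by
    intro τ
    show a (δ • ModularGroup.T ^ n • τ) = c * a (δ • τ)
    rw [← hact, hc]
  obtain ⟨v, e, he, -, hv⟩ := exists_place_cCusp (K := ℂ) N δ
  obtain ⟨k, u₀, hu₀, hue, hk⟩ := exists_of_place (isChart_cCusp N δ) v e hv hR
  set G : ℂ → ℂ := fun q => evH ℂ N R (cCusp N δ q) with hGdef
  have hG : MeromorphicAt G 0 := (isChart_cCusp N δ).mer_evHK R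
  have hGl : laurent G = chartEmb ℂ (isChart_cCusp N δ) (evF ℂ N R) := (chartEmb_evF _ R).symm
  have hG0 : laurent G ≠ 0 := by rw [hGl]; exact chartEmb_ne_zero _ hR.1
  obtain ⟨g₀, hg₀, -, hg₀0, hrep⟩ := exists_eq_zpow_mul hG hG0
  rw [hGl, hk] at hrep
  set Ψ : ℍ → ℂ := fun τ => evH ℂ N R (δ • τ) with hΨdef
  have hGq : ∀ τ : ℍ, G (Function.Periodic.qParam N τ) = Ψ τ := fun τ =>
    comp_invQParam_qParam N (b := Ψ) (fun τ => evH_comp_periodic R δ τ) τ
  set E : ℂ → ℂ := fun z => Function.Periodic.qParam N z ^ ((e : ℤ) * k) with hEdef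
  have hE0 : ∀ z, E z ≠ 0 := fun z => zpow_ne_zero _ (Function.Periodic.qParam_ne_zero z)
  have hEc : Continuous E :=
    Function.Periodic.continuous_qParam.zpow₀ _ (fun z => Or.inl (Function.Periodic.qParam_ne_zero z))
  have hEm : ∀ z, E z ^ m = Function.Periodic.qParam N z ^ ((e : ℤ) * (m * k)) := by
    intro z
    simp only [hEdef]
    rw [← zpow_natCast, ← zpow_mul]
    congr 1
    ring
  have hEn : ∀ z, E (z + ((n : ℝ) : ℂ)) = E z := by
    intro z
    simp only [hEdef]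
    rw [qParam_add_intCast, mul_zpow, zpow_mul (Complex.exp _ ^ n)]
    have h1 := exp_pow_order_eq_one (K := ℂ) N δ n hmem u₀ hu₀
    rw [hue] at h1
    rw [h1, one_zpow, mul_one]
  set U : ℂ → ℂ := fun z => b (ofComplex z) / E z with hUdef
  have hUc : ContinuousOn U {z : ℂ | 0 < z.im} :=
    (UpperHalfPlane.mdifferentiable_iff.mp hb).continuousOn.div hEc.continuousOn (fun z _ => hE0 z)
  have hlim : Tendsto (fun τ : ℍ => ‖g₀ (Function.Periodic.qParam N τ) / g₀ 0 - 1‖) atImInfty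
      (𝓝 0) := by
    have h1 : Tendsto (fun τ : ℍ => g₀ (Function.Periodic.qParam N τ)) atImInfty (𝓝 (g₀ 0)) :=
      hg₀.continuousAt.tendsto.comp ((tendsto_qParam_atImInfty N).mono_right nhdsWithin_le_nhds)
    have h2 := ((h1.div_const (g₀ 0)).sub_const 1).norm
    rwa [div_self hg₀0, sub_self, norm_zero] at h2
  have hev : ∀ᶠ τ : ℍ in atImInfty, ‖U τ ^ m / g₀ 0 - 1‖ < 1 := by
    filter_upwards [hlim.eventually (gt_mem_nhds one_pos),
      (tendsto_qParam_atImInfty N).eventually hrep] with τ h1 h2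
    have h3 : U τ ^ m = g₀ (Function.Periodic.qParam N τ) := by
      simp only [hUdef]
      rw [div_pow, hEm, ofComplex_apply]
      have h4 : b τ ^ m = Ψ τ := hpow _
      rw [h4, ← hGq, h2, mul_div_assoc, mul_comm, div_mul_cancel₀]
      exact zpow_ne_zero _ (Function.Periodic.qParam_ne_zero _)
    rw [h3]
    exact h1
  rw [Filter.Eventually, atImInfty_mem] at hev
  obtain ⟨A, hA⟩ := hev
  refine eq_one_of_near (U := U) (C := max A 1) (by positivity) hUc hm hg₀0 ?_ (n : ℝ) ?_ hcm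
  · intro z hz
    have hz0 : 0 < z.im := lt_of_lt_of_le one_pos ((le_max_right A 1).trans hz)
    have := hA ⟨z, hz0⟩ ((le_max_left A 1).trans hz)
    exact this
  · intro z hz
    simp only [hUdef]
    rw [hEn, ofComplex_add_intCast n hz, hbT, mul_div_assoc]

end FunLocal

end Fermat.Agent.ESlib
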