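import Fermat.Agent.ES.A.HeckeFunDefs

/-!
# ES library, Part A4, rows AH1 / AH2 : holomorphy and equivariance of `prodU`, `prodT`
-/

set_option autoImplicit false

open UpperHalfPlane ModularForm MatrixGroups Filter Topology CongruenceSubgroup ModularCurve
open Matrix.SpecialLinearGroup
open scoped Manifold
open Fermat.Agent.S24lib
open P2MW.S_ModularForm_heckeT_slash_eq_self_of_mem_Gamma0.ModularForm.HeckeSlashInvariance

namespace Fermat.Agent.ESlib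

/-! ### AH1 -/

theorem mdiff_comp_GL {g : ℍ → ℂ} (hg : MDiff g) (α : GL (Fin 2) ℝ) (hα : 0 < α.det.val) :
    MDiff (fun τ => g (α • τ)) :=
  hg.comp (UpperHalfPlane.mdifferentiable_smul hα)

theorem mdiff_finset_prod {ι : Type*} (s : Finset ι) (f : ι → ℍ → ℂ) (hf : ∀ i ∈ s, MDiff (f i)) :
    MDiff (fun τ => ∏ i ∈ s, f i τ) := by
  classical
  induction s using Finset.induction_on with
  | empty =>
    simp only [Finset.prod_empty]
    exact mdifferentiable_const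
  | insert a s ha ih =>
    simp only [Finset.prod_insert ha]
    exact (hf a (Finset.mem_insert_self a s)).mul
      (ih fun i hi => hf i (Finset.mem_insert_of_mem hi))

theorem mdiff_prodU {g : ℍ → ℂ} (hg : MDiff g) (p : ℕ) : MDiff (prodU p g) :=
  mdiff_finset_prod _ _ fun j _ => mdiff_comp_GL hg _ (ModularForm.det_heckeMatrix_pos p j)

theorem mdiff_prodT {g : ℍ → ℂ} (hg : MDiff g) (p : ℕ) : MDiff (prodT p g) :=
  (mdiff_comp_GL hg _ (ModularForm.det_heckeDiagMatrix_pos p)).mul (mdiff_prodU hg p)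

theorem prodU_mul (p : ℕ) (f g : ℍ → ℂ) :
    prodU p (fun τ => f τ * g τ) = fun τ => prodU p f τ * prodU p g τ := by
  funext τ
  simp only [prodU, Finset.prod_mul_distrib]

theorem prodT_mul (p : ℕ) (f g : ℍ → ℂ) :
    prodT p (fun τ => f τ * g τ) = fun τ => prodT p f τ * prodT p g τ := by
  funext τ
  simp only [prodT, prodU_mul]
  ring

theorem prodU_pow (p : ℕ) (f : ℍ → ℂ) (m : ℕ) :
    prodU p (fun τ => f τ ^ m) = fun τ => prodU p f τ ^ m := by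
  funext τ
  simp only [prodU, Finset.prod_pow]

theorem prodT_pow (p : ℕ) (f : ℍ → ℂ) (m : ℕ) :
    prodT p (fun τ => f τ ^ m) = fun τ => prodT p f τ ^ m := by
  funext τ
  simp only [prodT, prodU_pow, mul_pow]

theorem comp_GL_ne_zero {g : ℍ → ℂ} (h0 : g ≠ 0) (α : GL (Fin 2) ℝ) :
    (fun τ => g (α • τ)) ≠ 0 := by
  intro h
  apply h0
  funext τ
  have := congrFun h (α⁻¹ • τ)
  simpa using this

/-- a product of nonzero holomorphic functions is nonzero -/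
theorem prodU_ne_zero {g : ℍ → ℂ} (hg : MDiff g) (h0 : g ≠ 0) (p : ℕ) : prodU p g ≠ 0 :=
  (mdiff_prod_ne_zero (Finset.range p) (fun j τ => g (ModularForm.heckeMatrix p j • τ))
    fun j _ => ⟨mdiff_comp_GL hg _ (ModularForm.det_heckeMatrix_pos p j), comp_GL_ne_zero h0 _⟩).2

theorem prodT_ne_zero {g : ℍ → ℂ} (hg : MDiff g) (h0 : g ≠ 0) (p : ℕ) : prodT p g ≠ 0 := by
  intro h
  rcases mdiff_mul_eq_zero (mdiff_comp_GL hg _ (ModularForm.det_heckeDiagMatrix_pos p))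
    (mdiff_prodU hg p) (fun τ => congrFun h τ) with h1 | h1
  · exact comp_GL_ne_zero h0 _ h1
  · exact prodU_ne_zero hg h0 p h1

/-! ### AH2 -/

theorem prod_range_eq_prod_zmod {p : ℕ} [NeZero p] {M : Type*} [CommMonoid M] (F : ℕ → M) :
    ∏ j ∈ Finset.range p, F j = ∏ x : ZMod p, F x.val := by
  refine Finset.prod_nbij' (fun j : ℕ ↦ (j : ZMod p)) (fun x : ZMod p ↦ x.val)
    (fun _ _ ↦ Finset.mem_univ _)
    (fun x _ ↦ Finset.mem_range.mpr x.val_lt) (fun j hj ↦ ?_) (fun x _ ↦ ?_) (fun j hj ↦ ?_)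
  · exact ZMod.val_cast_of_lt (Finset.mem_range.mp hj)
  · exact ZMod.natCast_zmod_val x
  · rw [ZMod.val_cast_of_lt (Finset.mem_range.mp hj)]

theorem prodU_eq_prod_zmod (p : ℕ) [NeZero p] (g : ℍ → ℂ) (τ : ℍ) :
    prodU p g τ = ∏ x : ZMod p, g (ModularForm.heckeMatrix p x.val • τ) :=
  prod_range_eq_prod_zmod _

theorem prodT_eq_prod_onePoint (p : ℕ) [NeZero p] (g : ℍ → ℂ) (τ : ℍ) :
    prodT p g τ = ∏ x : OnePoint (ZMod p), g (heckeRep p x • τ) := by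
  rw [prodT, prodU_eq_prod_zmod]
  exact (Fintype.prod_option (fun x : OnePoint (ZMod p) ↦ g (heckeRep p x • τ))).symm

variable {N : ℕ}

/-- abstract equivariance -/
theorem prod_family_smul {J : Type*} [Fintype J] (α : J → GL (Fin 2) ℝ) {a : ℍ → ℂ}
    {χ : ↥(Gamma0 N) →* ℂˣ}
    (ha : ∀ (γ : ↥(Gamma0 N)) (τ : ℍ), a ((γ : SL(2, ℤ)) • τ) = ((χ γ : ℂˣ) : ℂ) * a τ)
    (γ : ↥(Gamma0 N)) (π : Equiv.Perm J) (γ' : J → ↥(Gamma0 N))
    (hmul : ∀ j, α j * mapGL ℝ (γ : SL(2, ℤ)) = mapGL ℝ (γ' j : SL(2, ℤ)) * α (π j)) (τ : ℍ) :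
    ∏ j, a (α j • ((γ : SL(2, ℤ)) • τ)) = ((∏ j, χ (γ' j) : ℂˣ) : ℂ) * ∏ j, a (α j • τ) := by
  have h1 : ∀ j, a (α j • ((γ : SL(2, ℤ)) • τ)) = ((χ (γ' j) : ℂˣ) : ℂ) * a (α (π j) • τ) := by
    intro j
    have e : α j • ((γ : SL(2, ℤ)) • τ) = ((γ' j : SL(2, ℤ))) • (α (π j) • τ) := by
      show α j • (mapGL ℝ (γ : SL(2, ℤ)) • τ) = mapGL ℝ (γ' j : SL(2, ℤ)) • (α (π j) • τ)
      rw [← mul_smul, hmul, mul_smul]
    rw [e, ha]
  simp only [h1, Finset.prod_mul_distrib, Units.coe_prod]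
  congr 1
  exact Equiv.prod_comp π (fun j => a (α j • τ))

/-- existence of the permutation and of the `γ_j` for `T_p`, `p ∤ N` -/
theorem exists_heckeRep_mul {p : ℕ} (hp : p.Prime) (hpN : ¬ p ∣ N) (γ : ↥(Gamma0 N)) :
    ∃ (π : Equiv.Perm (OnePoint (ZMod p))) (γ' : OnePoint (ZMod p) → ↥(Gamma0 N)),
      ∀ x, heckeRep p x * mapGL ℝ (γ : SL(2, ℤ)) = mapGL ℝ (γ' x : SL(2, ℤ)) * heckeRep p (π x) := by
  have : Fact p.Prime := ⟨hp⟩
  have hcN : (N : ℤ) ∣ (γ : SL(2, ℤ)) 1 0 :=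
    (ZMod.intCast_zmod_eq_zero_iff_dvd _ _).mp (CongruenceSubgroup.Gamma0_mem.mp γ.2)
  choose g' hg' hmul using heckeRep_mul hpN (γ : SL(2, ℤ)) hcN
  exact ⟨MulAction.toPerm (redMatrix p (γ : SL(2, ℤ))),
    fun x => ⟨g' x, CongruenceSubgroup.Gamma0_mem.mpr
      ((ZMod.intCast_zmod_eq_zero_iff_dvd _ _).mpr (hg' x))⟩, fun x => hmul x⟩

/-- existence of the permutation and of the `γ_j` for `U_q`, `q ∣ N` -/
theorem exists_heckeMatrix_mul {q : ℕ} (hq : q.Prime) (hqN : q ∣ N) (γ : ↥(Gamma0 N)) :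
    ∃ (π : Equiv.Perm (ZMod q)) (γ' : ZMod q → ↥(Gamma0 N)),
      ∀ x, ModularForm.heckeMatrix q x.val * mapGL ℝ (γ : SL(2, ℤ)) =
        mapGL ℝ (γ' x : SL(2, ℤ)) * ModularForm.heckeMatrix q (π x).val := by
  have : NeZero q := ⟨hq.ne_zero⟩
  have hcN : (N : ℤ) ∣ (γ : SL(2, ℤ)) 1 0 :=
    (ZMod.intCast_zmod_eq_zero_iff_dvd _ _).mp (CongruenceSubgroup.Gamma0_mem.mp γ.2)
  have hc : (q : ℤ) ∣ (γ : SL(2, ℤ)) 1 0 := (Int.natCast_dvd_natCast.mpr hqN).trans hcN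
  choose g' hg' hmul using heckeMatrix_mul_of_dvd (γ : SL(2, ℤ)) hc
  refine ⟨affinePerm (γ : SL(2, ℤ)) ((ZMod.intCast_zmod_eq_zero_iff_dvd _ _).mpr hc),
    fun x => ⟨g' x, ?_⟩, fun x => hmul x⟩
  rw [CongruenceSubgroup.Gamma0_mem, hg' x]
  push_cast
  rw [CongruenceSubgroup.Gamma0_mem.mp γ.2, mul_zero]

/-- `prodT p` of a `Γ₀(N)`-invariant function is `Γ₀(N)`-invariant (`p ∤ N`) -/
theorem prodT_invariant {p : ℕ} (hp : p.Prime) (hpN : ¬ p ∣ N) {g : ℍ → ℂ}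
    (hg : ∀ δ ∈ Gamma0 N, ∀ τ, g (δ • τ) = g τ) :
    ∀ δ ∈ Gamma0 N, ∀ τ, prodT p g (δ • τ) = prodT p g τ := by
  intro δ hδ τ
  have : NeZero p := ⟨hp.ne_zero⟩
  obtain ⟨π, γ', hmul⟩ := exists_heckeRep_mul hp hpN ⟨δ, hδ⟩
  have := prod_family_smul (N := N) (heckeRep p) (a := g) (χ := 1)
    (fun γ τ => by simpa using hg γ γ.2 τ) ⟨δ, hδ⟩ π γ' hmul τ
  rw [prodT_eq_prod_onePoint, prodT_eq_prod_onePoint]
  simpa using this

/-- `prodU q` of a `Γ₀(N)`-invariant function is `Γ₀(N)`-invariant (`q ∣ N`) -/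
theorem prodU_invariant {q : ℕ} (hq : q.Prime) (hqN : q ∣ N) {g : ℍ → ℂ}
    (hg : ∀ δ ∈ Gamma0 N, ∀ τ, g (δ • τ) = g τ) :
    ∀ δ ∈ Gamma0 N, ∀ τ, prodU q g (δ • τ) = prodU q g τ := by
  intro δ hδ τ
  have : NeZero q := ⟨hq.ne_zero⟩
  obtain ⟨π, γ', hmul⟩ := exists_heckeMatrix_mul hq hqN ⟨δ, hδ⟩
  have := prod_family_smul (N := N) (fun x : ZMod q => ModularForm.heckeMatrix q x.val) (a := g)
    (χ := 1) (fun γ τ => by simpa using hg γ γ.2 τ) ⟨δ, hδ⟩ π γ' hmul τ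
  rw [prodU_eq_prod_zmod, prodU_eq_prod_zmod]
  simpa using this

end Fermat.Agent.ESlib
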