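import Fermat.Agent.ES.A.HeckeFunDefs

/-!
# ES library, Part A4, row AH6 : the transfer of a character of `XGrp N m` lies in `XGrp N m`
(cycle decomposition of the permutation `π`: the product of the `γ_j` over a cycle of length `r` is
conjugate in `GL₂(ℝ)` to `γ ^ r`, so it has the same trace, and `(tr γ)² ≤ 4 → (tr γ^r)² ≤ 4`)
-/

set_option autoImplicit false

open UpperHalfPlane ModularForm MatrixGroups Filter Topology CongruenceSubgroup ModularCurve
open Matrix.SpecialLinearGroup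

namespace Fermat.Agent.ESlib

/-- Cayley-Hamilton for `SL₂` -/
theorem sl2_mul_self (M : Matrix (Fin 2) (Fin 2) ℤ) (hM : M.det = 1) :
    M * M = M.trace • M - 1 := by
  rw [Matrix.det_fin_two] at hM
  ext i j
  fin_cases i <;> fin_cases j <;>
    simp only [Matrix.mul_apply, Fin.sum_univ_two, Matrix.trace_fin_two, Matrix.sub_apply,
      Matrix.smul_apply, smul_eq_mul, Matrix.one_apply, Fin.zero_eta, Fin.mk_one, Fin.isValue,
      if_true, one_ne_zero, zero_ne_one, if_false] <;>
    first | linear_combination hM | linear_combination -hM | ring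

theorem trace_pow_rec (M : Matrix (Fin 2) (Fin 2) ℤ) (hM : M.det = 1) (r : ℕ) :
    (M ^ (r + 2)).trace = M.trace * (M ^ (r + 1)).trace - (M ^ r).trace := by
  have h : M ^ (r + 2) = M.trace • M ^ (r + 1) - M ^ r := by
    rw [pow_add, pow_two, sl2_mul_self M hM, mul_sub, mul_one, mul_smul_comm, pow_succ]
  rw [h, Matrix.trace_sub, Matrix.trace_smul, smul_eq_mul]

theorem trace_rec_bound (t : ℤ) (ht : t ^ 2 ≤ 4) (u : ℕ → ℤ) (h0 : u 0 = 2) (h1 : u 1 = t)
    (hrec : ∀ r, u (r + 2) = t * u (r + 1) - u r) (r : ℕ) :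
    u r ^ 2 ≤ 4 ∧ u (r + 1) ^ 2 ≤ 4 ∧ u r ^ 2 - t * u r * u (r + 1) + u (r + 1) ^ 2 = 4 - t ^ 2 := by
  induction r with
  | zero => 
    rw [h0, h1]
    refine ⟨by norm_num, ht, by ring⟩
  | succ r ih =>
    obtain ⟨ha, hb, hq⟩ := ih
    rw [show r + 1 + 1 = r + 2 from rfl, hrec r]
    generalize u r = a at *
    generalize u (r + 1) = b at *
    have ht1 : -2 ≤ t ∧ t ≤ 2 := by constructor <;> nlinarith
    have ha1 : -2 ≤ a ∧ a ≤ 2 := by constructor <;> nlinarith
    have hb1 : -2 ≤ b ∧ b ≤ 2 := by constructor <;> nlinarith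
    obtain ⟨ht1, ht2⟩ := ht1
    obtain ⟨ha1, ha2⟩ := ha1
    obtain ⟨hb1, hb2⟩ := hb1
    refine ⟨hb, ?_, by linear_combination hq⟩
    interval_cases t <;> interval_cases a <;> interval_cases b <;> simp_all

/-- powers of an element with `(tr γ)² ≤ 4` -/
theorem trace_pow_sq_le (γ : SL(2, ℤ)) (h : (γ : Matrix (Fin 2) (Fin 2) ℤ).trace ^ 2 ≤ 4) (r : ℕ) :
    ((γ ^ r : SL(2, ℤ)) : Matrix (Fin 2) (Fin 2) ℤ).trace ^ 2 ≤ 4 := by
  rw [Matrix.SpecialLinearGroup.coe_pow]
  exact (trace_rec_bound _ h (fun r => ((γ : Matrix (Fin 2) (Fin 2) ℤ) ^ r).trace)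
    (by simp) (by simp)
    (fun r => trace_pow_rec _ γ.det_coe r) r).1

theorem perm_minimalPeriod_pos {J : Type*} [Finite J] (π : Equiv.Perm J) (j : J) :
    0 < Function.minimalPeriod π j := by
  apply Function.minimalPeriod_pos_of_mem_periodicPts
  refine ⟨orderOf π, orderOf_pos π, ?_⟩
  rw [Function.IsPeriodicPt, Function.IsFixedPt, Equiv.Perm.iterate_eq_pow, pow_orderOf_eq_one]
  rfl

theorem perm_pow_minimalPeriod {J : Type*} (π : Equiv.Perm J) (j : J) :
    (π ^ Function.minimalPeriod π j) j = j := by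
  rw [← Equiv.Perm.iterate_eq_pow]
  exact Function.iterate_minimalPeriod

/-- pure combinatorics: if the product of `c` over every cycle of `π` is `1` then `∏ c = 1` -/
theorem prod_eq_one_of_cycles {J A : Type*} [Fintype J] [CommGroup A] (π : Equiv.Perm J) (c : J → A)
    (h : ∀ j : J, ∏ i ∈ Finset.range (Function.minimalPeriod π j), c ((π ^ i) j) = 1) :
    ∏ j, c j = 1 := by
  classical
  have key : ∀ (n : ℕ) (s : Finset J), s.card = n → (∀ x ∈ s, π x ∈ s) → ∏ j ∈ s, c j = 1 := by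
    intro n
    induction n using Nat.strong_induction_on with
    | _ n ih =>
      intro s hs hst
      rcases s.eq_empty_or_nonempty with rfl | ⟨j, hj⟩
      · simp
      set r := Function.minimalPeriod π j with hr
      have hr0 : 0 < r := perm_minimalPeriod_pos π j
      have hrj : (π ^ r) j = j := perm_pow_minimalPeriod π j
      set O : Finset J := (Finset.range r).image (fun i => (π ^ i) j) with hO
      have hpow : ∀ i : ℕ, (π ^ i) j ∈ s := by
        intro i
        induction i with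
        | zero => simpa using hj
        | succ i ihi =>
          rw [pow_succ', Equiv.Perm.mul_apply]
          exact hst _ ihi
      have hOs : O ⊆ s := by
        intro x hx
        obtain ⟨i, -, rfl⟩ := Finset.mem_image.1 hx
        exact hpow i
      have hjO : j ∈ O := Finset.mem_image.2 ⟨0, Finset.mem_range.2 hr0, by simp⟩
      have hprodO : ∏ x ∈ O, c x = 1 := by
        rw [hO, Finset.prod_image]
        · exact h j
        · intro a ha b hb hab
          have := Function.iterate_injOn_Iio_minimalPeriod (f := π) (x := j)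
            (Set.mem_Iio.2 (Finset.mem_range.1 ha)) (Set.mem_Iio.2 (Finset.mem_range.1 hb))
          apply this
          simpa only [Equiv.Perm.iterate_eq_pow] using hab
      have hcompl : ∀ x ∈ s \ O, π x ∈ s \ O := by
        intro x hx
        obtain ⟨hxs, hxO⟩ := Finset.mem_sdiff.1 hx
        refine Finset.mem_sdiff.2 ⟨hst x hxs, fun hπ => hxO ?_⟩
        obtain ⟨i, hi, hix⟩ := Finset.mem_image.1 hπ
        rcases Nat.eq_zero_or_pos i with rfl | hi0
        · refine Finset.mem_image.2 ⟨r - 1, Finset.mem_range.2 (by omega), ?_⟩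
          apply π.injective
          rw [← Equiv.Perm.mul_apply, ← pow_succ', show r - 1 + 1 = r by omega, hrj, ← hix]
          simp
        · refine Finset.mem_image.2 ⟨i - 1, Finset.mem_range.2
            (by have := Finset.mem_range.1 hi; omega), ?_⟩
          apply π.injective
          rw [← Equiv.Perm.mul_apply, ← pow_succ', show i - 1 + 1 = i by omega, ← hix]
      have hcard : (s \ O).card < n := by
        rw [← hs]
        exact Finset.card_lt_card (Finset.sdiff_ssubset hOs ⟨j, hjO⟩)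
      rw [← Finset.prod_sdiff hOs, hprodO, mul_one]
      exact ih _ hcard _ rfl hcompl
  exact key _ Finset.univ rfl (fun x _ => Finset.mem_univ _)

variable {N m : ℕ}

/-- the ordered product of the `γ'` along the orbit of `j` -/
def cycleProd {J G : Type*} [Monoid G] (π : Equiv.Perm J) (γ' : J → G) (j : J) : ℕ → G
  | 0 => 1
  | r + 1 => cycleProd π γ' j r * γ' ((π ^ r) j)

theorem map_cycleProd {J G A : Type*} [Monoid G] [CommMonoid A] (χ : G →* A) (π : Equiv.Perm J)
    (γ' : J → G) (j : J) (r : ℕ) :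
    χ (cycleProd π γ' j r) = ∏ i ∈ Finset.range r, χ (γ' ((π ^ i) j)) := by
  induction r with
  | zero => simp [cycleProd]
  | succ r ih => rw [cycleProd, map_mul, ih, Finset.prod_range_succ]

theorem cycleProd_spec {J : Type*} {α : J → GL (Fin 2) ℝ} (γ : ↥(Gamma0 N)) (π : Equiv.Perm J)
    (γ' : J → ↥(Gamma0 N))
    (h : ∀ j, α j * mapGL ℝ (γ : SL(2, ℤ)) = mapGL ℝ (γ' j : SL(2, ℤ)) * α (π j)) (j : J) (r : ℕ) :
    α j * mapGL ℝ ((γ : SL(2, ℤ)) ^ r) =
      mapGL ℝ ((cycleProd π γ' j r : ↥(Gamma0 N)) : SL(2, ℤ)) * α ((π ^ r) j) := by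
  induction r with
  | zero => simp [cycleProd]
  | succ r ih =>
    rw [pow_succ, map_mul, ← mul_assoc, ih, mul_assoc, h, cycleProd, Subgroup.coe_mul, map_mul,
      mul_assoc, pow_succ', Equiv.Perm.mul_apply]

theorem trace_mapGL (δ : SL(2, ℤ)) :
    ((mapGL ℝ δ : GL (Fin 2) ℝ) : Matrix (Fin 2) (Fin 2) ℝ).trace =
      (((δ : Matrix (Fin 2) (Fin 2) ℤ).trace : ℤ) : ℝ) := by
  simp [Matrix.trace_fin_two]

theorem IsTransfer.mem_XGrp {J : Type*} [Fintype J] {α : J → GL (Fin 2) ℝ}
    {χ χ' : ↥(Gamma0 N) →* ℂˣ} (hχ : χ ∈ XGrp N m) (h : IsTransfer α χ χ')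
    (hex : ∀ γ : ↥(Gamma0 N), ∃ (π : Equiv.Perm J) (γ' : J → ↥(Gamma0 N)),
      ∀ j, α j * mapGL ℝ (γ : SL(2, ℤ)) = mapGL ℝ (γ' j : SL(2, ℤ)) * α (π j)) :
    χ' ∈ XGrp N m := by
  obtain ⟨hχ1, hχ2⟩ := Fermat.Agent.ESlib.mem_XGrp.1 hχ
  refine Fermat.Agent.ESlib.mem_XGrp.2 ⟨fun γ => ?_, fun γ hγ => ?_⟩
  · obtain ⟨π, γ', hs⟩ := hex γ
    rw [h γ π γ' hs, ← Finset.prod_pow]
    exact Finset.prod_eq_one fun j _ => hχ1 _
  · obtain ⟨π, γ', hs⟩ := hex γ
    rw [h γ π γ' hs]
    apply prod_eq_one_of_cycles π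
    intro j
    rw [← map_cycleProd χ π γ' j]
    apply hχ2
    have h1 := cycleProd_spec γ π γ' hs j (Function.minimalPeriod π j)
    rw [perm_pow_minimalPeriod] at h1
    set δ := cycleProd π γ' j (Function.minimalPeriod π j) with hδ
    have h2 : mapGL ℝ ((δ : ↥(Gamma0 N)) : SL(2, ℤ)) =
        α j * mapGL ℝ ((γ : SL(2, ℤ)) ^ Function.minimalPeriod π j) * (α j)⁻¹ := by
      rw [h1, mul_assoc, mul_inv_cancel, mul_one]
    have h3 : (((δ : SL(2, ℤ)) : Matrix (Fin 2) (Fin 2) ℤ).trace : ℝ) =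
        ((((γ : SL(2, ℤ)) ^ Function.minimalPeriod π j : SL(2, ℤ)) :
          Matrix (Fin 2) (Fin 2) ℤ).trace : ℝ) := by
      rw [← trace_mapGL, ← trace_mapGL, h2, Units.val_mul, Units.val_mul]
      exact Matrix.trace_units_conj _ _
    rw [Int.cast_injective h3]
    exact trace_pow_sq_le _ hγ _

end Fermat.Agent.ESlib
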