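import Fermat.Agent.ES.A.HeckeQExp
import Fermat.Agent.ES.A.HeckeTransfer
import Fermat.Agent.ES.A.FunChar

/-!
# ES library, Part A4, row AH5 : the formal Hecke operators preserve `FK ℂ N`, `MDiv`, and act on the
characters of the `m`-th roots by the transfer  (= (HT) of Part E)
-/

set_option autoImplicit false

open UpperHalfPlane hiding I
open ModularForm MatrixGroups Filter Topology CongruenceSubgroup ModularCurve Complex
open Matrix.SpecialLinearGroup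
open scoped Manifold Real
open Fermat.Agent.S24lib
open P2MW.S_ModularForm_heckeT_slash_eq_self_of_mem_Gamma0.ModularForm.HeckeSlashInvariance

namespace Fermat.Agent.ESlib

variable {N : ℕ} [NeZero N]

theorem coeffMap_algebraMap_self (x : LaurentSeries ℂ) : coeffMap (algebraMap ℂ ℂ) x = x := by
  ext k
  simp [coeffMap_coeff]

theorem laurent_evH_complex (P : MvPolynomial (Dv N) ℂ) :
    laurent (fun q => evH ℂ N P (cCusp N 1 q)) = qExpand ℂ N (evF ℂ N P : LaurentSeries ℂ) := by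
  rw [laurent_evH_cCusp_one, coeffMap_algebraMap_self]

theorem evH_T (P : MvPolynomial (Dv N) ℂ) (τ : ℍ) :
    evH ℂ N P (ModularGroup.T • τ) = evH ℂ N P τ :=
  evH_Gamma0 N P _ (by simpa using T_zpow_mem_Gamma0 N 1) τ

/-- abstract form: a holomorphic invariant function of moderate growth whose expansion at `∞` is
`qExpand N s` -/
theorem exists_evF_of_laurent {H : ℍ → ℂ} (hH : MDiff H)
    (hinv : ∀ δ ∈ Gamma0 N, ∀ τ, H (δ • τ) = H τ) (hgr : ModAll H) (s : LaurentSeries ℂ)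
    (hs : laurent (fun q => H (cCusp N 1 q)) = qExpand ℂ N s) :
    ∃ R S : MvPolynomial (Dv N) ℂ, evF ℂ N S ≠ 0 ∧
      (∀ τ, H τ * evH ℂ N S τ = evH ℂ N R τ) ∧
      s * (evF ℂ N S : LaurentSeries ℂ) = (evF ℂ N R : LaurentSeries ℂ) := by
  have hmer : ∀ γ : SL(2, ℤ), MeromorphicAt (fun q => H (cCusp N γ q)) 0 := fun γ =>
    meromorphicAt_of_modGrowth N γ hH
      (fun τ => hinv _ (by simpa using conj_T_zpow_mul_mem_Gamma0 N γ 1) τ) (hgr γ)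
  obtain ⟨R, S, hS, hRS⟩ := exists_evH_of_invariant (K := ℂ) N H hH hinv hmer
    (fun γ => mem_KRat_complex _)
  refine ⟨R, S, fun h => hS ((evF_eq_zero_iff N S).1 h), hRS, ?_⟩
  apply qExpand_injective (R := ℂ) N
  rw [map_mul, ← hs, ← laurent_evH_complex, ← laurent_evH_complex,
    ← laurent_mul (hmer 1) ((isChart_cCusp N 1).mer_evHK S)]
  congr 1
  funext q
  exact hRS _

/-- abstract package: a family of representatives `α` and the corresponding formal operator `Tf` -/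
structure OpPair (N : ℕ) [NeZero N] {J : Type} [Fintype J] (α : J → GL (Fin 2) ℝ)
    (Tf : LaurentSeries ℂ →*₀ LaurentSeries ℂ) : Prop where
  det_pos : ∀ j, 0 < (α j).det.val
  ex : ∀ γ : ↥(Gamma0 N), ∃ (σ : Equiv.Perm J) (γ' : J → ↥(Gamma0 N)),
    ∀ j, α j * mapGL ℝ (γ : SL(2, ℤ)) = mapGL ℝ (γ' j : SL(2, ℤ)) * α (σ j)
  ev : ∀ P : MvPolynomial (Dv N) ℂ, ∃ R S : MvPolynomial (Dv N) ℂ, evF ℂ N S ≠ 0 ∧
    (∀ τ, (∏ j, evH ℂ N P (α j • τ)) * evH ℂ N S τ = evH ℂ N R τ) ∧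
    Tf (evF ℂ N P : LaurentSeries ℂ) * (evF ℂ N S : LaurentSeries ℂ) =
      (evF ℂ N R : LaurentSeries ℂ)

namespace OpPair

variable {J : Type} [Fintype J] {α : J → GL (Fin 2) ℝ} {Tf : LaurentSeries ℂ →*₀ LaurentSeries ℂ}

theorem mem_evF (h : OpPair N α Tf) (P : MvPolynomial (Dv N) ℂ) :
    Tf (evF ℂ N P : LaurentSeries ℂ) ∈ laurentBaseChange ℂ (modularFunctionFieldFull N) := by
  obtain ⟨R, S, hS, -, hRS⟩ := h.ev P
  have hS' : (evF ℂ N S : LaurentSeries ℂ) ≠ 0 := fun h0 => hS (Subtype.ext h0)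
  rw [eq_div_of_mul_eq hS' hRS]
  exact div_mem (evF ℂ N R).2 (evF ℂ N S).2

theorem mem (h : OpPair N α Tf) (u : FK ℂ N) :
    Tf (u : LaurentSeries ℂ) ∈ laurentBaseChange ℂ (modularFunctionFieldFull N) := by
  obtain ⟨P, Q, -, rfl⟩ := exists_frac N u
  have : ((evF ℂ N P / evF ℂ N Q : FK ℂ N) : LaurentSeries ℂ) =
      (evF ℂ N P : LaurentSeries ℂ) / (evF ℂ N Q : LaurentSeries ℂ) := rfl
  rw [this, map_div₀]
  exact div_mem (h.mem_evF P) (h.mem_evF Q)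

variable {m : ℕ}

theorem isRootChar (h : OpPair N α Tf) (hm : m ≠ 0) {f : FK ℂ N} (hf : f ≠ 0)
    {χ : ↥(Gamma0 N) →* ℂˣ} (hr : IsRootChar N m f χ) :
    ∃ χ' : ↥(Gamma0 N) →* ℂˣ, IsTransfer α χ χ' ∧
      IsRootChar N m ⟨Tf (f : LaurentSeries ℂ), h.mem f⟩ χ' := by
  obtain ⟨P, Q, a, hQ, hfQ, ha, hpow, hχ⟩ := hr
  obtain ⟨k, rfl⟩ := Nat.exists_eq_succ_of_ne_zero hm
  rw [Nat.succ_eq_add_one] at *
  simp only [Nat.add_sub_cancel] at hpow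
  obtain ⟨R1, S1, hS1, han1, hfo1⟩ := h.ev P
  obtain ⟨R2, S2, hS2, han2, hfo2⟩ := h.ev Q
  have hP : evF ℂ N P ≠ 0 := by rw [← hfQ]; exact mul_ne_zero hf hQ
  have hcoe : ∀ {x : FK ℂ N}, x ≠ 0 → (x : LaurentSeries ℂ) ≠ 0 := fun hx h0 => hx (Subtype.ext h0)
  -- nonvanishing
  have hR2 : evF ℂ N R2 ≠ 0 := by
    intro h0
    have : (evF ℂ N R2 : LaurentSeries ℂ) = 0 := by rw [h0]; rfl
    rw [← hfo2] at this
    rcases mul_eq_zero.1 this with h1 | h1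
    · exact hcoe hQ ((map_eq_zero Tf).1 h1)
    · exact hcoe hS2 h1
  have hHP : evH ℂ N P ≠ 0 := fun h0 => hP ((evF_eq_zero_iff N P).2 h0)
  have hHQ : evH ℂ N Q ≠ 0 := fun h0 => hQ ((evF_eq_zero_iff N Q).2 h0)
  have hHS1 : evH ℂ N S1 ≠ 0 := fun h0 => hS1 ((evF_eq_zero_iff N S1).2 h0)
  have hHS2 : evH ℂ N S2 ≠ 0 := fun h0 => hS2 ((evF_eq_zero_iff N S2).2 h0)
  have ha0 : a ≠ 0 := by
    intro h0
    have h1 : ∀ τ, evH ℂ N P τ * (evH ℂ N Q ^ k) τ = 0 := by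
      intro τ
      rw [Pi.pow_apply, ← hpow, h0]
      simp
    rcases mdiff_mul_eq_zero (mdiff_evH N P) ((mdiff_evH N Q).pow k) h1 with h2 | h2
    · exact hHP h2
    · apply hHQ
      funext τ
      by_contra hne
      exact pow_ne_zero k hne (congrFun h2 τ)
  -- the new root
  set A : ℍ → ℂ := fun τ => ∏ j, a (α j • τ) with hA
  have hAne := mdiff_prod_ne_zero Finset.univ (fun j τ => a (α j • τ))
    fun j _ => ⟨mdiff_comp_GL ha _ (h.det_pos j), comp_GL_ne_zero ha0 _⟩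
  have hAd : MDiff A := hAne.1
  have hA0 : A ≠ 0 := hAne.2
  set a' : ℍ → ℂ := fun τ => A τ * (evH ℂ N S1 τ * evH ℂ N S2 τ) with ha'
  have ha'd : MDiff a' := hAd.mul ((mdiff_evH N S1).mul (mdiff_evH N S2))
  have ha'0 : a' ≠ 0 := by
    intro h0
    rcases mdiff_mul_eq_zero hAd ((mdiff_evH N S1).mul (mdiff_evH N S2))
      (fun τ => congrFun h0 τ) with h1 | h1
    · exact hA0 h1
    · rcases mdiff_mul_eq_zero (mdiff_evH N S1) (mdiff_evH N S2) (fun τ => congrFun h1 τ) with h2 | h2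
      · exact hHS1 h2
      · exact hHS2 h2
  let R : MvPolynomial (Dv N) ℂ := R1 * R2 ^ k * S1 ^ k * S2
  let S : MvPolynomial (Dv N) ℂ := R2 * S1
  have hpow' : ∀ τ, a' τ ^ (k + 1) = evH ℂ N R τ := by
    intro τ
    have h1 : A τ ^ (k + 1) = (∏ j, evH ℂ N P (α j • τ)) * (∏ j, evH ℂ N Q (α j • τ)) ^ k := by
      simp only [hA]
      rw [← Finset.prod_pow, ← Finset.prod_pow, ← Finset.prod_mul_distrib]
      exact Finset.prod_congr rfl fun j _ => hpow _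
    simp only [ha', R, map_mul, map_pow, Pi.mul_apply, Pi.pow_apply]
    rw [mul_pow, h1, ← han1, ← han2]
    ring
  have hinv : ∀ γ ∈ Gamma0 N, ∀ τ : ℍ, a' (γ • τ) ^ (k + 1) = a' τ ^ (k + 1) := by
    intro γ hγ τ
    rw [hpow', hpow', evH_Gamma0 N R γ hγ]
  obtain ⟨χ', -, hχ'⟩ := exists_character_of_mroot ha'd ha'0 hm hinv
  refine ⟨χ', ?_, isRootChar_of_pow hm (R := R) (S := S) (a := a') ?_ ?_ ha'd hpow' hχ'⟩
  · intro γ σ γ' hmul
    obtain ⟨τ₀, hτ₀⟩ : ∃ τ₀, a' τ₀ ≠ 0 := by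
      by_contra hcon
      push Not at hcon
      exact ha'0 (funext hcon)
    have h1 := prod_family_smul α hχ γ σ γ' hmul τ₀
    have h2 : a' ((γ : SL(2, ℤ)) • τ₀) = ((∏ j, χ (γ' j) : ℂˣ) : ℂ) * a' τ₀ := by
      simp only [ha', hA]
      rw [h1, evH_Gamma0 N S1 _ γ.2, evH_Gamma0 N S2 _ γ.2]
      ring
    rw [hχ'] at h2
    exact Units.ext (mul_right_cancel₀ hτ₀ h2)
  · simp only [S, map_mul]
    exact mul_ne_zero hR2 hS1
  · apply Subtype.ext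
    have e1 : (f : LaurentSeries ℂ) * (evF ℂ N Q : LaurentSeries ℂ) = (evF ℂ N P : LaurentSeries ℂ) :=
      congrArg Subtype.val hfQ
    have e2 : Tf (f : LaurentSeries ℂ) * Tf (evF ℂ N Q : LaurentSeries ℂ) =
        Tf (evF ℂ N P : LaurentSeries ℂ) := by rw [← map_mul, e1]
    simp only [S, R, map_mul, map_pow]
    show Tf (f : LaurentSeries ℂ) * ((evF ℂ N R2 : LaurentSeries ℂ) * (evF ℂ N S1 : LaurentSeries ℂ)) ^ (k + 1)
      = (evF ℂ N R1 : LaurentSeries ℂ) * (evF ℂ N R2 : LaurentSeries ℂ) ^ k *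
        (evF ℂ N S1 : LaurentSeries ℂ) ^ k * (evF ℂ N S2 : LaurentSeries ℂ)
    rw [← hfo1, ← e2, ← hfo2]
    ring

theorem mDiv (h : OpPair N α Tf) (hm : m ≠ 0) {f : FK ℂ N} (hf : MDiv ℂ m f) :
    MDiv ℂ m (⟨Tf (f : LaurentSeries ℂ), h.mem f⟩ : FK ℂ N) := by
  obtain ⟨χ, hχ, hr⟩ := exists_isRootChar hm hf
  obtain ⟨χ', ht, hr'⟩ := h.isRootChar hm hf.1 hr
  refine hr'.mDiv hm ?_ (ht.mem_XGrp hχ h.ex)
  intro h0
  have h1 : Tf (f : LaurentSeries ℂ) = 0 := congrArg Subtype.val h0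
  exact hf.1 (Subtype.ext ((map_eq_zero Tf).1 h1))

end OpPair

/-- `T_p` of a polynomial in the generators, analytically and formally -/
theorem exists_heckeTS_evF {p : ℕ} [NeZero p] (hp : p.Prime) (hpN : ¬ p ∣ N)
    (P : MvPolynomial (Dv N) ℂ) :
    ∃ R S : MvPolynomial (Dv N) ℂ, evF ℂ N S ≠ 0 ∧
      (∀ τ, prodT p (evH ℂ N P) τ * evH ℂ N S τ = evH ℂ N R τ) ∧
      heckeTS p (zetaC p) (evF ℂ N P : LaurentSeries ℂ) * (evF ℂ N S : LaurentSeries ℂ) =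
        (evF ℂ N R : LaurentSeries ℂ) :=
  exists_evF_of_laurent (mdiff_prodT (mdiff_evH N P) p)
    (prodT_invariant hp hpN (fun δ hδ τ => evH_Gamma0 N P δ hδ τ)) ((modAll_evH N P).prodT p) _
    (laurent_prodT N (mdiff_evH N P) (evH_T P) ((isChart_cCusp N 1).mer_evHK P) _
      (laurent_evH_complex P) p).2

/-- `U_q` of a polynomial in the generators, analytically and formally -/
theorem exists_normU_evF {q : ℕ} [NeZero q] (hq : q.Prime) (hqN : q ∣ N)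
    (P : MvPolynomial (Dv N) ℂ) :
    ∃ R S : MvPolynomial (Dv N) ℂ, evF ℂ N S ≠ 0 ∧
      (∀ τ, prodU q (evH ℂ N P) τ * evH ℂ N S τ = evH ℂ N R τ) ∧
      normU q (zetaC q) (evF ℂ N P : LaurentSeries ℂ) * (evF ℂ N S : LaurentSeries ℂ) =
        (evF ℂ N R : LaurentSeries ℂ) :=
  exists_evF_of_laurent (mdiff_prodU (mdiff_evH N P) q)
    (prodU_invariant hq hqN (fun δ hδ τ => evH_Gamma0 N P δ hδ τ)) ((modAll_evH N P).prodU q) _
    (laurent_prodU N (mdiff_evH N P) (evH_T P) ((isChart_cCusp N 1).mer_evHK P) _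
      (laurent_evH_complex P) q).2

theorem opPair_T {p : ℕ} [NeZero p] (hp : p.Prime) (hpN : ¬ p ∣ N) {ζ : ℂˣ}
    (hζ : IsPrimitiveRoot ζ p) : OpPair N (heckeRep p) (heckeTSHom hζ) where
  det_pos x := by
    induction x using OnePoint.rec with
    | infty => exact ModularForm.det_heckeDiagMatrix_pos p
    | coe j => exact ModularForm.det_heckeMatrix_pos p _
  ex := exists_heckeRep_mul hp hpN
  ev P := by
    obtain ⟨R, S, h1, h2, h3⟩ := exists_heckeTS_evF hp hpN P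
    refine ⟨R, S, h1, fun τ => ?_, ?_⟩
    · rw [← prodT_eq_prod_onePoint, h2]
    · rw [heckeTSHom_apply, heckeTS_eq_of_isPrimitiveRoot hζ (isPrimitiveRoot_zetaC p), h3]

theorem opPair_U {q : ℕ} [NeZero q] (hq : q.Prime) (hqN : q ∣ N) {ζ : ℂˣ}
    (hζ : IsPrimitiveRoot ζ q) :
    OpPair N (fun x : ZMod q => ModularForm.heckeMatrix q x.val) (normUHom hζ) where
  det_pos x := ModularForm.det_heckeMatrix_pos q _
  ex := exists_heckeMatrix_mul hq hqN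
  ev P := by
    obtain ⟨R, S, h1, h2, h3⟩ := exists_normU_evF hq hqN P
    refine ⟨R, S, h1, fun τ => ?_, ?_⟩
    · rw [← prodU_eq_prod_zmod, h2]
    · rw [normUHom_apply, normU_eq_of_isPrimitiveRoot hζ (isPrimitiveRoot_zetaC q), h3]

/-- **(HT1)** -/
theorem heckeTS_mem {p : ℕ} [NeZero p] (hp : p.Prime) (hpN : ¬ p ∣ N) {ζ : ℂˣ}
    (hζ : IsPrimitiveRoot ζ p) (u : FK ℂ N) :
    heckeTS p ζ (u : LaurentSeries ℂ) ∈ laurentBaseChange ℂ (modularFunctionFieldFull N) :=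
  (opPair_T hp hpN hζ).mem u

theorem normU_mem {q : ℕ} [NeZero q] (hq : q.Prime) (hqN : q ∣ N) {ζ : ℂˣ}
    (hζ : IsPrimitiveRoot ζ q) (u : FK ℂ N) :
    normU q ζ (u : LaurentSeries ℂ) ∈ laurentBaseChange ℂ (modularFunctionFieldFull N) :=
  (opPair_U hq hqN hζ).mem u

variable {m : ℕ}

/-- **(HT3)** for `T_p` -/
theorem isRootChar_heckeTS (hm : m ≠ 0) {p : ℕ} [NeZero p] (hp : p.Prime) (hpN : ¬ p ∣ N) {ζ : ℂˣ}
    (hζ : IsPrimitiveRoot ζ p) {f : FK ℂ N} (hf : f ≠ 0) {χ : ↥(Gamma0 N) →* ℂˣ}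
    (h : IsRootChar N m f χ) :
    ∃ χ' : ↥(Gamma0 N) →* ℂˣ, IsTransfer (heckeRep p) χ χ' ∧
      IsRootChar N m ⟨heckeTS p ζ (f : LaurentSeries ℂ), heckeTS_mem hp hpN hζ f⟩ χ' :=
  (opPair_T hp hpN hζ).isRootChar hm hf h

/-- **(HT3)** for `U_q` -/
theorem isRootChar_normU (hm : m ≠ 0) {q : ℕ} [NeZero q] (hq : q.Prime) (hqN : q ∣ N) {ζ : ℂˣ}
    (hζ : IsPrimitiveRoot ζ q) {f : FK ℂ N} (hf : f ≠ 0) {χ : ↥(Gamma0 N) →* ℂˣ}
    (h : IsRootChar N m f χ) :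
    ∃ χ' : ↥(Gamma0 N) →* ℂˣ,
      IsTransfer (fun x : ZMod q => ModularForm.heckeMatrix q x.val) χ χ' ∧
      IsRootChar N m ⟨normU q ζ (f : LaurentSeries ℂ), normU_mem hq hqN hζ f⟩ χ' :=
  (opPair_U hq hqN hζ).isRootChar hm hf h

/-- **(HT2)** for `T_p` -/
theorem mDiv_heckeTS (hm : m ≠ 0) {p : ℕ} [NeZero p] (hp : p.Prime) (hpN : ¬ p ∣ N) {ζ : ℂˣ}
    (hζ : IsPrimitiveRoot ζ p) {f : FK ℂ N} (hf : MDiv ℂ m f) :
    MDiv ℂ m (⟨heckeTS p ζ (f : LaurentSeries ℂ), heckeTS_mem hp hpN hζ f⟩ : FK ℂ N) :=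
  (opPair_T hp hpN hζ).mDiv hm hf

/-- **(HT2)** for `U_q` -/
theorem mDiv_normU (hm : m ≠ 0) {q : ℕ} [NeZero q] (hq : q.Prime) (hqN : q ∣ N) {ζ : ℂˣ}
    (hζ : IsPrimitiveRoot ζ q) {f : FK ℂ N} (hf : MDiv ℂ m f) :
    MDiv ℂ m (⟨normU q ζ (f : LaurentSeries ℂ), normU_mem hq hqN hζ f⟩ : FK ℂ N) :=
  (opPair_U hq hqN hζ).mDiv hm hf

end Fermat.Agent.ESlib
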