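import Fermat.Agent.ES.A.HeckeFunDefs

/-!
# ES library, Part A4, rows AH3a / AH3b: growth at the cusps versus meromorphy along the cusp charts
-/

set_option autoImplicit false

open UpperHalfPlane ModularForm MatrixGroups Filter Topology CongruenceSubgroup ModularCurve
open Matrix.SpecialLinearGroup
open scoped Manifold
open Fermat.Agent.S24lib

namespace Fermat.Agent.ESlib

/-! ### AH3a -/

theorem ModGrowth.mul {f g : ℍ → ℂ} (hf : ModGrowth f) (hg : ModGrowth g) :
    ModGrowth (fun τ => f τ * g τ) := by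
  obtain ⟨A, hA⟩ := hf
  obtain ⟨B, hB⟩ := hg
  refine ⟨A + B, (hA.mul hB).congr_right fun τ => ?_⟩
  rw [← Real.exp_add]
  ring_nf

theorem modGrowth_const (c : ℂ) : ModGrowth (fun _ => c) :=
  ⟨0, by simpa using Asymptotics.isBigO_const_const c (one_ne_zero (α := ℝ)) atImInfty⟩

theorem ModGrowth.prod {ι : Type*} (s : Finset ι) {f : ι → ℍ → ℂ} (hf : ∀ i ∈ s, ModGrowth (f i)) :
    ModGrowth (fun τ => ∏ i ∈ s, f i τ) := by
  classical
  induction s using Finset.induction_on with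
  | empty => simpa using modGrowth_const 1
  | insert a s ha ih =>
    simp only [Finset.prod_insert ha]
    exact (hf a (Finset.mem_insert_self a s)).mul
      (ih fun i hi => hf i (Finset.mem_insert_of_mem hi))

variable (N : ℕ) [NeZero N]

/-- invariance under a group element implies invariance under its integral powers -/
theorem invariant_zpow {H : ℍ → ℂ} {δ : SL(2, ℤ)} (h : ∀ τ : ℍ, H (δ • τ) = H τ) (m : ℤ) (τ : ℍ) :
    H (δ ^ m • τ) = H τ := by
  have hinv : ∀ τ : ℍ, H (δ⁻¹ • τ) = H τ := fun τ => by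
    rw [← h (δ⁻¹ • τ), smul_inv_smul]
  induction m using Int.induction_on generalizing τ with
  | zero => simp
  | succ k ih => rw [zpow_add_one, mul_smul, ih, h]
  | pred k ih => rw [zpow_sub_one, mul_smul, ih, hinv]

omit [NeZero N] in
theorem periodic_of_conj {γ : SL(2, ℤ)} {H : ℍ → ℂ}
    (hper : ∀ τ : ℍ, H ((γ * ModularGroup.T ^ (N : ℤ) * γ⁻¹) • τ) = H τ) (m : ℤ) (τ : ℍ) :
    H (γ • (ModularGroup.T ^ (m * N) • τ)) = H (γ • τ) := by
  have h1 := invariant_zpow hper m (γ • τ)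
  rw [conj_zpow, ← zpow_mul, mul_smul, mul_smul, inv_smul_smul, mul_comm] at h1
  exact h1

theorem cCusp_qParam (γ : SL(2, ℤ)) (τ : ℍ) :
    ∃ m : ℤ, cCusp N γ (Function.Periodic.qParam N τ) = γ • (ModularGroup.T ^ (m * N) • τ) := by
  obtain ⟨m, hm⟩ := Function.Periodic.qParam_left_inv_mod_period
    (by exact_mod_cast NeZero.ne N : ((N : ℕ) : ℝ) ≠ 0) (τ : ℂ)
  refine ⟨m, ?_⟩
  rw [cCusp, hm]
  have : (τ : ℂ) + m * ((N : ℕ) : ℝ) = ((ModularGroup.T ^ (m * N) • τ : ℍ) : ℂ) := by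
    rw [UpperHalfPlane.modular_T_zpow_smul, UpperHalfPlane.coe_vadd]
    push_cast
    ring
  rw [this, UpperHalfPlane.ofComplex_apply]

/-- (G1) meromorphic along the cusp chart (and periodic) implies moderate growth -/
theorem modGrowth_of_meromorphicAt (γ : SL(2, ℤ)) {H : ℍ → ℂ}
    (hper : ∀ τ : ℍ, H ((γ * ModularGroup.T ^ (N : ℤ) * γ⁻¹) • τ) = H τ)
    (hmer : MeromorphicAt (fun q => H (cCusp N γ q)) 0) :
    ModGrowth (fun τ => H (γ • τ)) := by
  obtain ⟨n, g, hg, hn⟩ := exists_rep hmer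
  have hgO : g =O[𝓝[≠] (0 : ℂ)] (fun _ => (1 : ℂ)) :=
    (hg.continuousAt.tendsto.isBigO_one ℂ).mono nhdsWithin_le_nhds
  have hφO : (fun q => H (cCusp N γ q)) =O[𝓝[≠] (0 : ℂ)] (fun z : ℂ => z ^ (-(n : ℤ)) * 1) :=
    ((Asymptotics.isBigO_refl (fun z : ℂ => z ^ (-(n : ℤ))) _).mul hgO).congr'
      (hn.mono fun z hz => hz.symm) EventuallyEq.rfl
  have ht : Tendsto (fun τ : ℍ => Function.Periodic.qParam N (τ : ℂ)) atImInfty (𝓝[≠] 0) :=
    (Function.Periodic.qParam_tendsto
      (by exact_mod_cast Nat.pos_of_ne_zero (NeZero.ne N) : (0 : ℝ) < ((N : ℕ) : ℝ))).comp tendsto_coe_atImInfty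
  have h1 := hφO.comp_tendsto ht
  refine ⟨2 * Real.pi * n / N, ?_⟩
  refine (h1.congr_left fun τ => ?_).norm_right.congr_right fun τ => ?_
  · obtain ⟨m, hm⟩ := cCusp_qParam N γ τ
    simp only [Function.comp_apply]
    rw [hm, periodic_of_conj N hper]
  · simp only [Function.comp_apply, mul_one, norm_zpow]
    rw [Function.Periodic.norm_qParam, zpow_neg, zpow_natCast, ← Real.exp_nat_mul, ← Real.exp_neg]
    congr 1
    simp only [UpperHalfPlane.coe_im]
    ring

/-- (G2) holomorphic, periodic, moderate growth implies meromorphic along the cusp chart -/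
theorem meromorphicAt_of_modGrowth (γ : SL(2, ℤ)) {H : ℍ → ℂ} (hH : MDiff H)
    (hper : ∀ τ : ℍ, H ((γ * ModularGroup.T ^ (N : ℤ) * γ⁻¹) • τ) = H τ)
    (hg : ModGrowth (fun τ => H (γ • τ))) :
    MeromorphicAt (fun q => H (cCusp N γ q)) 0 := by
  have hN : (0 : ℝ) < ((N : ℕ) : ℝ) := by exact_mod_cast Nat.pos_of_ne_zero (NeZero.ne N)
  obtain ⟨A, hA⟩ := hg
  obtain ⟨n, hn⟩ := exists_nat_ge (A * N / (2 * Real.pi))
  set f : ℂ → ℂ := fun z => H (γ • ofComplex z) with hf
  set f1 : ℂ → ℂ := fun z => f z * Function.Periodic.qParam N z ^ n with hf1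
  -- periodicity
  have hfper : Function.Periodic f ((N : ℝ) : ℂ) := by
    intro w
    by_cases! hw : 0 < w.im
    · have hw' : 0 < (w + (N : ℝ)).im := by simpa using hw
      simp only [hf]
      have h1 := periodic_of_conj N hper 1 (ofComplex w)
      rw [← h1]
      congr 2
      rw [ofComplex_apply_of_im_pos hw', ofComplex_apply_of_im_pos hw,
        UpperHalfPlane.modular_T_zpow_smul]
      ext
      rw [UpperHalfPlane.coe_vadd]
      simp [add_comm]
    · have hw' : (w + (N : ℝ)).im ≤ 0 := by simpa using hw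
      simp only [hf]
      rw [ofComplex_apply_of_im_nonpos hw', ofComplex_apply_of_im_nonpos hw]
  have hqper : Function.Periodic (Function.Periodic.qParam N) ((N : ℝ) : ℂ) := by
    intro w
    simp only [Function.Periodic.qParam]
    have hNC : ((N : ℝ) : ℂ) ≠ 0 := by exact_mod_cast hN.ne'
    rw [mul_add, add_div, mul_div_assoc _ ((N : ℝ) : ℂ), div_self hNC, mul_one, Complex.exp_add,
      Complex.exp_two_pi_mul_I, mul_one]
  have hf1per : Function.Periodic f1 ((N : ℝ) : ℂ) := fun w => by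
    simp only [hf1]
    rw [hfper w, hqper w]
  -- holomorphy
  have hfdiff : ∀ z : ℂ, 0 < z.im → DifferentiableAt ℂ f z := by
    intro z hz
    have := UpperHalfPlane.mdifferentiableAt_iff.mp (mdiff_comp_smul hH γ ⟨z, hz⟩)
    exact this
  have hhol : ∀ᶠ z in comap Complex.im atTop, DifferentiableAt ℂ f1 z := by
    filter_upwards [preimage_mem_comap (Ioi_mem_atTop (0 : ℝ))] with z hz
    exact (hfdiff z hz).mul (Function.Periodic.differentiable_qParam.differentiableAt.pow n)
  -- boundedness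
  have hbd : BoundedAtFilter (comap Complex.im atTop) f1 := by
    have h1 := hA.comp_tendsto tendsto_comap_im_ofComplex
    have h2 : (fun z : ℂ => Function.Periodic.qParam N z ^ n) =O[comap Complex.im atTop]
        fun z : ℂ => Real.exp (-2 * Real.pi * z.im / N) ^ n := by
      refine Asymptotics.IsBigO.of_bound 1 (Eventually.of_forall fun z => ?_)
      rw [norm_pow, Function.Periodic.norm_qParam, one_mul, Real.norm_eq_abs, abs_pow,
        Real.abs_exp]
    have h3 := h1.mul h2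
    refine h3.trans (Asymptotics.IsBigO.of_bound 1 ?_)
    filter_upwards [preimage_mem_comap (Ioi_mem_atTop (0 : ℝ))] with z hz
    have hz : 0 < z.im := hz
    simp only [Function.comp_apply, Pi.one_apply, norm_one, mul_one]
    rw [ofComplex_apply_of_im_pos hz, ← Real.exp_nat_mul, ← Real.exp_add, Real.norm_eq_abs,
      Real.abs_exp, Real.exp_le_one_iff]
    have h4 : A * N ≤ n * (2 * Real.pi) := by
      rwa [div_le_iff₀ (by positivity)] at hn
    have h5 : A * z.im + n * (-2 * Real.pi * z.im / N) =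
        (A * N - n * (2 * Real.pi)) * (z.im / N) := by
      field_simp
      ring
    show A * z.im + n * (-2 * Real.pi * z.im / N) ≤ 0
    rw [h5]
    exact mul_nonpos_of_nonpos_of_nonneg (by linarith) (by positivity)
  -- the cusp function of `f1` is analytic at `0`
  have han : AnalyticAt ℂ (Function.Periodic.cuspFunction N f1) 0 := by
    rw [Complex.analyticAt_iff_eventually_differentiableAt]
    have h0 := Function.Periodic.differentiableAt_cuspFunction_zero hN hf1per hhol hbd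
    have h1 := Function.Periodic.eventually_differentiableAt_cuspFunction_nhds_ne_zero hN hf1per
      hhol
    rw [eventually_nhdsWithin_iff] at h1
    filter_upwards [h1] with q hq
    rcases eq_or_ne q 0 with rfl | hq0
    · exact h0
    · exact hq hq0
  have hmer : MeromorphicAt (fun q : ℂ => (q ^ n)⁻¹ * Function.Periodic.cuspFunction N f1 q) 0 :=
    ((MeromorphicAt.id 0).pow n).inv.mul han.meromorphicAt
  refine hmer.congr ?_
  filter_upwards [self_mem_nhdsWithin] with q hq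
  have hq : q ≠ 0 := hq
  rw [Function.Periodic.cuspFunction_eq_of_nonzero _ _ hq]
  simp only [hf1, hf, cCusp]
  rw [Function.Periodic.qParam_right_inv hN.ne' hq]
  field_simp

/-- polynomials in the `j (d τ)` have moderate growth at all cusps -/
theorem modAll_evH (P : MvPolynomial (Dv N) ℂ) : ModAll (evH ℂ N P) := by
  intro γ
  refine modGrowth_of_meromorphicAt N γ (fun τ => ?_) ((isChart_cCusp N γ).mer_evHK P)
  have := conj_T_zpow_mul_mem_Gamma0 N γ 1
  rw [one_mul] at this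
  exact evH_Gamma0 N P _ this τ

/-! ### AH3b -/

/-- Hermite normal form of an integral matrix of positive determinant -/
theorem hermite_int (M : Matrix (Fin 2) (Fin 2) ℤ) (hM : 0 < M.det) :
    ∃ (γ : SL(2, ℤ)) (a b d : ℤ), 0 < a ∧ 0 < d ∧
      M 0 0 = γ 0 0 * a ∧ M 1 0 = γ 1 0 * a ∧ M 0 1 = γ 0 0 * b + γ 0 1 * d ∧
      M 1 1 = γ 1 0 * b + γ 1 1 * d := by
  obtain ⟨x, hx⟩ : ∃ x, x = M 0 0 := ⟨_, rfl⟩
  obtain ⟨y, hy⟩ : ∃ y, y = M 0 1 := ⟨_, rfl⟩
  obtain ⟨z, hz⟩ : ∃ z, z = M 1 0 := ⟨_, rfl⟩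
  obtain ⟨w, hw⟩ : ∃ w, w = M 1 1 := ⟨_, rfl⟩
  rw [Matrix.det_fin_two, ← hx, ← hy, ← hz, ← hw] at hM
  rw [← hx, ← hy, ← hz, ← hw]
  obtain ⟨a, ha⟩ : ∃ a, a = Int.gcd x z := ⟨_, rfl⟩
  obtain ⟨x', hx'⟩ : (a : ℤ) ∣ x := ha ▸ Int.gcd_dvd_left ..
  obtain ⟨z', hz'⟩ : (a : ℤ) ∣ z := ha ▸ Int.gcd_dvd_right ..
  have ha0 : a ≠ 0 := by
    rintro rfl
    simp only [Nat.cast_zero, zero_mul] at hx' hz'
    rw [hx', hz'] at hM
    simp at hM
  have ha0' : (a : ℤ) ≠ 0 := by exact_mod_cast ha0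
  have hapos : (0 : ℤ) < a := by exact_mod_cast Nat.pos_of_ne_zero ha0
  obtain ⟨u, v, bez⟩ : ∃ u v : ℤ, (a : ℤ) = x * u + z * v := ⟨_, _, ha ▸ Int.gcd_eq_gcd_ab _ _⟩
  have hdet' : x' * u + z' * v = 1 := by
    apply mul_left_cancel₀ ha0'
    linear_combination (-1 : ℤ) * bez + (-u) * hx' + (-v) * hz'
  have had : (a : ℤ) * (x' * w - z' * y) = x * w - y * z := by
    rw [hx', hz']; ring
  have hd : 0 < x' * w - z' * y := by
    have : 0 < (a : ℤ) * (x' * w - z' * y) := by rw [had]; exact hM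
    exact (mul_pos_iff_of_pos_left hapos).1 this
  refine ⟨⟨!![x', -v; z', u], by rw [Matrix.det_fin_two_of]; linear_combination hdet'⟩,
    a, u * y + v * w, x' * w - z' * y, hapos, hd, ?_, ?_, ?_, ?_⟩
  · show x = x' * a
    rw [hx']; ring
  · show z = z' * a
    rw [hz']; ring
  · show y = x' * (u * y + v * w) + (-v) * (x' * w - z' * y)
    linear_combination (-y) * hdet'
  · show w = z' * (u * y + v * w) + u * (x' * w - z' * y)
    linear_combination (-w) * hdet'

theorem coe_upperTriangularGL_smul (a b d : ℝ) (ha : 0 < a) (hd : 0 < d) (τ : ℍ) :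
    ((upperTriangularGL a b d (mul_pos ha hd).ne' • τ : ℍ) : ℂ) = ((a : ℂ) * τ + b) / d := by
  have hdet : 0 < (upperTriangularGL a b d (mul_pos ha hd).ne').det.val := by
    rw [Matrix.GeneralLinearGroup.val_det_apply, val_upperTriangularGL, Matrix.det_fin_two_of]
    simpa using mul_pos ha hd
  rw [UpperHalfPlane.coe_smul_of_det_pos hdet]
  simp [UpperHalfPlane.num, UpperHalfPlane.denom]

theorem im_upperTriangularGL_smul (a b d : ℝ) (ha : 0 < a) (hd : 0 < d) (τ : ℍ) :
    (upperTriangularGL a b d (mul_pos ha hd).ne' • τ : ℍ).im = a / d * τ.im := by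
  rw [← UpperHalfPlane.coe_im, coe_upperTriangularGL_smul a b d ha hd, Complex.div_ofReal_im]
  simp
  ring

/-- (G3 + G4) moderate growth at all cusps is preserved by integral matrices of positive
determinant (Hermite normal form `M γ = γ' (a b; 0 d)`) -/
theorem ModAll.comp_GL {g : ℍ → ℂ} (hg : ModAll g) (α : GL (Fin 2) ℝ)
    (M : Matrix (Fin 2) (Fin 2) ℤ) (hM : 0 < M.det)
    (hα : (α : Matrix (Fin 2) (Fin 2) ℝ) = M.map (Int.cast : ℤ → ℝ)) :
    ModAll (fun τ => g (α • τ)) := by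
  intro γ
  have hdet : 0 < (M * γ.1).det := by
    rw [Matrix.det_mul, γ.2, mul_one]; exact hM
  obtain ⟨γ₁, a, b, d, ha, hd, h00, h10, h01, h11⟩ := hermite_int (M * γ.1) hdet
  have haR : (0 : ℝ) < a := by exact_mod_cast ha
  have hdR : (0 : ℝ) < d := by exact_mod_cast hd
  set β : GL (Fin 2) ℝ := upperTriangularGL a b d (mul_pos haR hdR).ne' with hβ
  have hmat : α * mapGL ℝ γ = mapGL ℝ γ₁ * β := by
    apply Units.ext
    rw [Units.val_mul, Units.val_mul, hα, hβ, val_upperTriangularGL]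
    simp only [Matrix.mul_apply, Fin.sum_univ_two] at h00 h10 h01 h11
    have e00 := congrArg (Int.cast : ℤ → ℝ) h00
    have e10 := congrArg (Int.cast : ℤ → ℝ) h10
    have e01 := congrArg (Int.cast : ℤ → ℝ) h01
    have e11 := congrArg (Int.cast : ℤ → ℝ) h11
    push_cast at e00 e10 e01 e11
    ext i j
    fin_cases i <;> fin_cases j <;>
      simp [Matrix.mul_apply, Fin.sum_univ_two, mapGL_coe_matrix] <;> assumption
  have hsm : ∀ τ : ℍ, α • (γ • τ) = γ₁ • (β • τ) := by
    intro τ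
    show α • (mapGL ℝ γ • τ) = mapGL ℝ γ₁ • (β • τ)
    rw [← mul_smul, hmat, mul_smul]
  obtain ⟨A, hA⟩ := hg γ₁
  have ht : Tendsto (fun τ : ℍ => β • τ) atImInfty atImInfty := by
    rw [atImInfty, tendsto_comap_iff]
    have : (UpperHalfPlane.im ∘ fun τ : ℍ => β • τ) = fun τ : ℍ => (a : ℝ) / d * τ.im := by
      funext τ
      exact im_upperTriangularGL_smul a b d haR hdR τ
    rw [this]
    exact Tendsto.const_mul_atTop (div_pos haR hdR) tendsto_comap
  refine ⟨A * (a / d), ((hA.comp_tendsto ht).congr_left fun τ => ?_).congr_right fun τ => ?_⟩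
  · simp only [Function.comp_apply]
    rw [hsm]
  · simp only [Function.comp_apply]
    rw [hβ, im_upperTriangularGL_smul a b d haR hdR τ]
    ring_nf

theorem ModAll.prodU {g : ℍ → ℂ} (hg : ModAll g) (p : ℕ) [NeZero p] : ModAll (prodU p g) := by
  intro γ
  have hp : p ≠ 0 := NeZero.ne p
  refine ModGrowth.prod _ fun j _ => ?_
  refine hg.comp_GL (heckeMatrix p j) !![1, (j : ℤ); 0, (p : ℤ)] ?_ ?_ γ
  · rw [Matrix.det_fin_two_of]
    simpa using Nat.pos_of_ne_zero hp
  · rw [val_heckeMatrix hp]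
    ext i k
    fin_cases i <;> fin_cases k <;> simp

theorem ModAll.prodT {g : ℍ → ℂ} (hg : ModAll g) (p : ℕ) [NeZero p] : ModAll (prodT p g) := by
  intro γ
  have hp : p ≠ 0 := NeZero.ne p
  refine ModGrowth.mul ?_ (hg.prodU p γ)
  refine hg.comp_GL (heckeDiagMatrix p) !![(p : ℤ), 0; 0, 1] ?_ ?_ γ
  · rw [Matrix.det_fin_two_of]
    simpa using Nat.pos_of_ne_zero hp
  · rw [val_heckeDiagMatrix hp]
    ext i k
    fin_cases i <;> fin_cases k <;> simp

end Fermat.Agent.ESlib
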