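import Fermat.Agent.ES.A.HeckeGrowth
import Fermat.Agent.ES.A.HeckeEquiv

/-!
# ES library, Part A4, row AH4 : the `q`-expansion of `prodU p g`, `prodT p g` is `normU`, `heckeTS`
-/

set_option autoImplicit false

open UpperHalfPlane hiding I
open ModularForm MatrixGroups Filter Topology CongruenceSubgroup ModularCurve Complex
open Matrix.SpecialLinearGroup
open scoped Manifold Real
open Fermat.Agent.S24lib

namespace Fermat.Agent.ESlib

theorem inv_T_zpow {g : ℍ → ℂ} (hT : ∀ τ : ℍ, g (ModularGroup.T • τ) = g τ) (k : ℤ) (τ : ℍ) :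
    g (ModularGroup.T ^ k • τ) = g τ := by
  induction k using Int.induction_on generalizing τ with
  | zero => simp
  | succ n ih => rw [zpow_add_one, mul_smul, ih, hT]
  | pred n ih =>
    rw [zpow_sub_one, mul_smul, ih, ← hT (ModularGroup.T⁻¹ • τ), smul_inv_smul]

variable (N : ℕ) [NeZero N]

theorem comp_cCusp_qParam {g : ℍ → ℂ} (hT : ∀ τ : ℍ, g (ModularGroup.T • τ) = g τ) {w : ℂ}
    (hw : 0 < w.im) : g (cCusp N 1 (Function.Periodic.qParam N w)) = g (ofComplex w) := by
  have hN : (0 : ℝ) < N := by exact_mod_cast Nat.pos_of_ne_zero (NeZero.ne N)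
  obtain ⟨m, hm⟩ := Function.Periodic.qParam_left_inv_mod_period hN.ne' w
  rw [cCusp, one_smul, hm]
  have hw' : 0 < (w + m * (N : ℝ) : ℂ).im := by simpa using hw
  have : (ofComplex (w + m * (N : ℝ) : ℂ) : ℍ) = ModularGroup.T ^ (m * N) • ofComplex w := by
    rw [modular_T_zpow_smul]
    ext
    rw [coe_vadd, ofComplex_apply_of_im_pos hw, ofComplex_apply_of_im_pos hw']
    simp
    ring
  rw [this, inv_T_zpow hT]

theorem qExpand_comm (M : ℕ) [NeZero M] (s : LaurentSeries ℂ) :
    qExpand ℂ M (qExpand ℂ N s) = qExpand ℂ N (qExpand ℂ M s) := by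
  have : NeZero (M * N) := ⟨mul_ne_zero (NeZero.ne M) (NeZero.ne N)⟩
  have : NeZero (N * M) := ⟨mul_ne_zero (NeZero.ne N) (NeZero.ne M)⟩
  rw [qExpand_qExpand, qExpand_qExpand, qExpand_congr (mul_comm M N)]

/-- `g (p τ)` has expansion `s (q^p)` -/
theorem laurent_comp_diag {g : ℍ → ℂ} (hT : ∀ τ : ℍ, g (ModularGroup.T • τ) = g τ)
    (hmer : MeromorphicAt (fun q => g (cCusp N 1 q)) 0) (s : LaurentSeries ℂ)
    (hs : laurent (fun q => g (cCusp N 1 q)) = qExpand ℂ N s) (p : ℕ) [NeZero p] :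
    MeromorphicAt (fun q => g (ModularForm.heckeDiagMatrix p • cCusp N 1 q)) 0 ∧
    laurent (fun q => g (ModularForm.heckeDiagMatrix p • cCusp N 1 q)) =
      qExpand ℂ N (qExpand ℂ p s) := by
  have hN : (0 : ℝ) < N := by exact_mod_cast Nat.pos_of_ne_zero (NeZero.ne N)
  have hp : (0 : ℝ) < p := by exact_mod_cast Nat.pos_of_ne_zero (NeZero.ne p)
  have hev : (fun q => g (ModularForm.heckeDiagMatrix p • cCusp N 1 q)) =ᶠ[𝓝[≠] 0]
      fun q => (fun q => g (cCusp N 1 q)) (1 * q ^ p) := by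
    filter_upwards [eventually_punctured_unit] with q hq
    have hz := im_invQParam_pos N hq.1 hq.2
    set z := Function.Periodic.invQParam N q with hzdef
    have hpz : 0 < ((p : ℂ) * z).im := by
      have : ((p : ℂ) * z).im = p * z.im := by simp
      rw [this]; exact mul_pos hp hz
    have h1 : ModularForm.heckeDiagMatrix p • cCusp N 1 q = ofComplex ((p : ℂ) * z) := by
      ext
      rw [ModularForm.coe_heckeDiagMatrix_smul (NeZero.ne p), cCusp, one_smul,
        ofComplex_apply_of_im_pos hz, ofComplex_apply_of_im_pos hpz]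
    have h2 : Function.Periodic.qParam N ((p : ℂ) * z) = q ^ p := by
      have := Function.Periodic.qParam_right_inv hN.ne' hq.1
      rw [← hzdef] at this
      conv_rhs => rw [← this]
      simp only [Function.Periodic.qParam]
      rw [← Complex.exp_nat_mul]
      congr 1
      ring
    show g _ = g _
    rw [h1, one_mul, ← h2, comp_cCusp_qParam N hT hpz]
  obtain ⟨m1, l1⟩ := laurent_comp_mul_pow hmer one_ne_zero p
  refine ⟨m1.congr hev.symm, ?_⟩
  rw [laurent_congr hev, l1, twist_one, hs, qExpand_comm]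

omit [NeZero N] in
theorem heckeMatrix_smul_eq (p : ℕ) [NeZero p] (j : ℕ) {w : ℂ} (hw : 0 < w.im) :
    ModularForm.heckeMatrix p j • (ofComplex w : ℍ) = ofComplex ((w + j) / p) := by
  have hp : (0 : ℝ) < p := by exact_mod_cast Nat.pos_of_ne_zero (NeZero.ne p)
  have h2 : 0 < ((w + j) / p : ℂ).im := by
    rw [Complex.div_natCast_im]
    simpa using div_pos hw hp
  ext
  rw [ModularForm.coe_heckeMatrix_smul (NeZero.ne p), ofComplex_apply_of_im_pos hw,
    ofComplex_apply_of_im_pos h2]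

omit [NeZero N] in
theorem prodU_T {g : ℍ → ℂ} (hT : ∀ τ : ℍ, g (ModularGroup.T • τ) = g τ) (p : ℕ) [NeZero p]
    (τ : ℍ) : prodU p g (ModularGroup.T • τ) = prodU p g τ := by
  have hp0 : (p : ℂ) ≠ 0 := by exact_mod_cast NeZero.ne p
  have h1 : ∀ j : ℕ, ModularForm.heckeMatrix p j • (ModularGroup.T • τ) =
      ModularForm.heckeMatrix p (j + 1) • τ := by
    intro j
    ext
    rw [ModularForm.coe_heckeMatrix_smul (NeZero.ne p), ModularForm.coe_heckeMatrix_smul (NeZero.ne p),
      modular_T_smul, coe_vadd]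
    push_cast
    ring
  have h2 : ModularForm.heckeMatrix p p • τ = ModularGroup.T • (ModularForm.heckeMatrix p 0 • τ) := by
    ext
    rw [ModularForm.coe_heckeMatrix_smul (NeZero.ne p), modular_T_smul, coe_vadd,
      ModularForm.coe_heckeMatrix_smul (NeZero.ne p)]
    push_cast
    field_simp
    ring
  obtain ⟨n, hn⟩ : ∃ n, p = n + 1 := ⟨p - 1, by have := Nat.pos_of_ne_zero (NeZero.ne p); omega⟩
  simp only [prodU, h1]
  have h3 : g (ModularForm.heckeMatrix p (n + 1) • τ) = g (ModularForm.heckeMatrix p 0 • τ) := by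
    rw [← hn, h2, hT]
  have e1 : Finset.range p = Finset.range (n + 1) := by rw [hn]
  rw [e1, Finset.prod_range_succ, h3, Finset.prod_range_succ']

omit [NeZero N] in
theorem ModGrowth.comp_heckeMatrix {g : ℍ → ℂ} (hg : ModGrowth g) (p : ℕ) [NeZero p] (j : ℕ) :
    ModGrowth (fun τ => g (ModularForm.heckeMatrix p j • τ)) := by
  obtain ⟨A, hA⟩ := hg
  have hp : (0 : ℝ) < p := by exact_mod_cast Nat.pos_of_ne_zero (NeZero.ne p)
  have him : ∀ τ : ℍ, (ModularForm.heckeMatrix p j • τ).im = τ.im / p := by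
    intro τ
    rw [← UpperHalfPlane.coe_im, ModularForm.coe_heckeMatrix_smul (NeZero.ne p),
      Complex.div_natCast_im]
    simp
  have ht : Tendsto (fun τ : ℍ => ModularForm.heckeMatrix p j • τ) atImInfty atImInfty := by
    rw [atImInfty, tendsto_comap_iff]
    have : (UpperHalfPlane.im ∘ fun τ : ℍ => ModularForm.heckeMatrix p j • τ) =
        fun τ : ℍ => τ.im / p := funext him
    rw [this]
    exact Filter.Tendsto.atTop_div_const hp tendsto_comap
  refine ⟨A / p, (hA.comp_tendsto ht).congr_right fun τ => ?_⟩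
  simp only [Function.comp_apply, him]
  congr 1
  ring

theorem laurent_finset_prod {ι : Type*} (s : Finset ι) (F : ι → ℂ → ℂ)
    (hF : ∀ i ∈ s, MeromorphicAt (F i) 0) :
    MeromorphicAt (fun t => ∏ i ∈ s, F i t) 0 ∧
      laurent (fun t => ∏ i ∈ s, F i t) = ∏ i ∈ s, laurent (F i) := by
  classical
  induction s using Finset.induction_on with
  | empty =>
    simp only [Finset.prod_empty]
    exact ⟨MeromorphicAt.const 1 0, (laurent_const 1).trans (map_one _)⟩
  | insert a s ha ih =>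
    obtain ⟨m1, l1⟩ := ih fun i hi => hF i (Finset.mem_insert_of_mem hi)
    have m0 := hF a (Finset.mem_insert_self a s)
    simp only [Finset.prod_insert ha]
    refine ⟨m0.mul m1, ?_⟩
    rw [← l1]
    exact laurent_mul m0 m1

/-- the standard primitive `ℓ`-th root of unity, as a unit -/
noncomputable def zetaC (ℓ : ℕ) : ℂˣ := Units.mk0 (Complex.exp (2 * π * I / ℓ)) (Complex.exp_ne_zero _)

theorem isPrimitiveRoot_zetaC (ℓ : ℕ) [NeZero ℓ] : IsPrimitiveRoot (zetaC ℓ) ℓ := by
  rw [← IsPrimitiveRoot.coe_units_iff]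
  exact Complex.isPrimitiveRoot_exp ℓ (NeZero.ne ℓ)

theorem twist_qExpand_eq (p : ℕ) [NeZero p] (j : ℕ) (s : LaurentSeries ℂ) :
    twist (Complex.exp (2 * π * I / (p * N)) ^ j) (qExpand ℂ N s) =
      qExpand ℂ N (S28lib.scale (zetaC p ^ j) s) := by
  have hp0 : (p : ℂ) ≠ 0 := by exact_mod_cast NeZero.ne p
  have hN0 : (N : ℂ) ≠ 0 := by exact_mod_cast NeZero.ne N
  have hω : Complex.exp (2 * π * I / (p * N)) ^ N = ((zetaC p : ℂˣ) : ℂ) := by
    rw [← Complex.exp_nat_mul]
    show _ = Complex.exp _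
    congr 1
    field_simp
  ext k
  rw [coeff_twist]
  by_cases hk : (N : ℤ) ∣ k
  · obtain ⟨i, rfl⟩ := hk
    rw [qExpand_coeff_mul, qExpand_coeff_mul, S28lib.coeff_scale]
    congr 1
    rw [zpow_mul, zpow_natCast, ← pow_mul, mul_comm j N, pow_mul, hω]
    push_cast
    rfl
  · rw [qExpand_coeff_of_not_dvd _ _ hk, qExpand_coeff_of_not_dvd _ _ hk, mul_zero]

/-- `∏_j g ((τ + j) / p)` has expansion `normU p ζ s` -/
theorem laurent_prodU {g : ℍ → ℂ} (hg : MDiff g) (hT : ∀ τ : ℍ, g (ModularGroup.T • τ) = g τ)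
    (hmer : MeromorphicAt (fun q => g (cCusp N 1 q)) 0) (s : LaurentSeries ℂ)
    (hs : laurent (fun q => g (cCusp N 1 q)) = qExpand ℂ N s) (p : ℕ) [NeZero p] :
    MeromorphicAt (fun q => prodU p g (cCusp N 1 q)) 0 ∧
    laurent (fun q => prodU p g (cCusp N 1 q)) = qExpand ℂ N (normU p (zetaC p) s) := by
  have hN : (0 : ℝ) < N := by exact_mod_cast Nat.pos_of_ne_zero (NeZero.ne N)
  have hp : (0 : ℝ) < p := by exact_mod_cast Nat.pos_of_ne_zero (NeZero.ne p)
  have hp0 : (p : ℂ) ≠ 0 := by exact_mod_cast NeZero.ne p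
  have hN0 : (N : ℂ) ≠ 0 := by exact_mod_cast NeZero.ne N
  have hTU := prodU_T hT p
  have hgr : ModGrowth g := by
    have := modGrowth_of_meromorphicAt N 1 (H := g)
      (fun τ => by rw [one_mul, inv_one, mul_one, inv_T_zpow hT]) hmer
    simpa using this
  have hgrU : ModGrowth (fun τ => prodU p g ((1 : SL(2, ℤ)) • τ)) := by
    simp only [one_smul]
    exact ModGrowth.prod _ fun j _ => hgr.comp_heckeMatrix p j
  have hmerU : MeromorphicAt (fun q => prodU p g (cCusp N 1 q)) 0 :=
    meromorphicAt_of_modGrowth N 1 (mdiff_prodU hg p)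
      (fun τ => by rw [one_mul, inv_one, mul_one, inv_T_zpow hTU]) hgrU
  refine ⟨hmerU, ?_⟩
  set ω : ℂ := Complex.exp (2 * π * I / (p * N)) with hω
  have hev : (fun t => (fun q => prodU p g (cCusp N 1 q)) (1 * t ^ p)) =ᶠ[𝓝[≠] 0]
      fun t => ∏ j ∈ Finset.range p, (fun q => g (cCusp N 1 q)) (ω ^ j * t ^ 1) := by
    filter_upwards [eventually_punctured_unit] with t ht
    have hz := im_invQParam_pos N ht.1 ht.2
    set z := Function.Periodic.invQParam N t with hzdef
    have hqz : Function.Periodic.qParam N z = t := Function.Periodic.qParam_right_inv hN.ne' ht.1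
    have hpz : 0 < ((p : ℂ) * z).im := by
      have : ((p : ℂ) * z).im = p * z.im := by simp
      rw [this]; exact mul_pos hp hz
    have h2 : Function.Periodic.qParam N ((p : ℂ) * z) = t ^ p := by
      conv_rhs => rw [← hqz]
      simp only [Function.Periodic.qParam]
      rw [← Complex.exp_nat_mul]
      congr 1
      ring
    show prodU p g _ = _
    rw [one_mul, ← h2, comp_cCusp_qParam N hTU hpz, prodU]
    refine Finset.prod_congr rfl fun j _ => ?_
    have hzj : 0 < (z + j / p : ℂ).im := by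
      have : (z + j / p : ℂ).im = z.im := by
        rw [Complex.add_im, Complex.div_natCast_im]
        simp
      rw [this]; exact hz
    have h3 : Function.Periodic.qParam N (z + j / p : ℂ) = ω ^ j * t ^ 1 := by
      conv_rhs => rw [← hqz]
      simp only [Function.Periodic.qParam, hω]
      rw [← Complex.exp_nat_mul, pow_one, ← Complex.exp_add]
      congr 1
      push_cast
      field_simp
      ring
    show _ = g _
    rw [← h3, comp_cCusp_qParam N hT hzj, heckeMatrix_smul_eq p j hpz]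
    congr 2
    field_simp
  obtain ⟨-, l1⟩ := laurent_comp_mul_pow hmerU one_ne_zero p
  have hωj : ∀ j : ℕ, ω ^ j ≠ 0 := fun j => pow_ne_zero _ (Complex.exp_ne_zero _)
  have hF : ∀ j ∈ Finset.range p,
      MeromorphicAt (fun t => (fun q => g (cCusp N 1 q)) (ω ^ j * t ^ 1)) 0 :=
    fun j _ => (laurent_comp_mul_pow hmer (hωj j) 1).1
  obtain ⟨-, l2⟩ := laurent_finset_prod (Finset.range p) _ hF
  apply qExpand_injective (R := ℂ) p
  rw [← twist_one (laurent _), ← l1, laurent_congr hev, l2, qExpand_comm,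
    qExpand_normU (isPrimitiveRoot_zetaC p), rotProd, map_prod]
  refine Finset.prod_congr rfl fun j _ => ?_
  rw [(laurent_comp_mul_pow hmer (hωj j) 1).2, qExpand_one_apply, hs, twist_qExpand_eq]

theorem laurent_prodT {g : ℍ → ℂ} (hg : MDiff g) (hT : ∀ τ : ℍ, g (ModularGroup.T • τ) = g τ)
    (hmer : MeromorphicAt (fun q => g (cCusp N 1 q)) 0) (s : LaurentSeries ℂ)
    (hs : laurent (fun q => g (cCusp N 1 q)) = qExpand ℂ N s) (p : ℕ) [NeZero p] :
    MeromorphicAt (fun q => prodT p g (cCusp N 1 q)) 0 ∧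
    laurent (fun q => prodT p g (cCusp N 1 q)) = qExpand ℂ N (heckeTS p (zetaC p) s) := by
  obtain ⟨m1, l1⟩ := laurent_comp_diag N hT hmer s hs p
  obtain ⟨m2, l2⟩ := laurent_prodU N hg hT hmer s hs p
  refine ⟨m1.mul m2, ?_⟩
  have := laurent_mul m1 m2
  rw [heckeTS, map_mul, ← l1, ← l2]
  exact this

end Fermat.Agent.ESlib
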