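import Mathlib

/-!
# ES library, part A1: `m`-th roots of meromorphic functions on the upper half plane
-/

set_option autoImplicit false

open Filter Topology Set Metric Complex

namespace Fermat.Agent.ESlib

/-- a nowhere vanishing holomorphic function on a disc is an exponential -/
theorem exists_exp_eq_on_ball {g : ℂ → ℂ} {c : ℂ} {r : ℝ} (hg : DifferentiableOn ℂ g (ball c r))
    (hne : ∀ z ∈ ball c r, g z ≠ 0) :
    ∃ G : ℂ → ℂ, DifferentiableOn ℂ G (ball c r) ∧ ∀ z ∈ ball c r, g z = Complex.exp (G z) := by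
  by_cases hr : 0 < r
  · have hc : c ∈ ball c r := mem_ball_self hr
    have h1 : DifferentiableOn ℂ (fun z => deriv g z / g z) (ball c r) :=
      (hg.deriv isOpen_ball).div hg hne
    obtain ⟨G, hGc, hG⟩ := h1.isExactOn_ball.with_val_at c (Complex.log (g c))
    have hGd : DifferentiableOn ℂ G (ball c r) :=
      fun z hz => (hG z hz).differentiableAt.differentiableWithinAt
    refine ⟨G, hGd, fun z hz => ?_⟩
    have hu : ∀ w ∈ ball c r, HasDerivAt (fun w => g w * Complex.exp (-G w)) 0 w := by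
      intro w hw
      have hgw : HasDerivAt g (deriv g w) w :=
        (hg.differentiableAt (isOpen_ball.mem_nhds hw)).hasDerivAt
      have h2 : HasDerivAt (fun w => g w * Complex.exp (-G w)) (deriv g w * Complex.exp (-G w) +
          g w * (Complex.exp (-G w) * -(deriv g w / g w))) w := hgw.mul ((hG w hw).neg.cexp)
      have h3 : deriv g w * Complex.exp (-G w) +
          g w * (Complex.exp (-G w) * -(deriv g w / g w)) = 0 := by
        have := hne w hw
        field_simp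
        ring
      rwa [h3] at h2
    have hconst := isOpen_ball.is_const_of_deriv_eq_zero (convex_ball c r).isPreconnected
      (f := fun w => g w * Complex.exp (-G w))
      (fun w hw => (hu w hw).differentiableAt.differentiableWithinAt)
      (fun w hw => (hu w hw).deriv) hz hc
    rw [hGc, Complex.exp_neg, Complex.exp_neg, Complex.exp_log (hne c hc),
      mul_inv_cancel₀ (hne c hc)] at hconst
    exact eq_of_mul_inv_eq_one hconst
  · have : ball c r = ∅ := ball_eq_empty.mpr (not_lt.mp hr)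
    exact ⟨0, by simp [this], by simp [this]⟩

/-- `m`-th root on a disc whose closure lies in the domain of meromorphy -/
theorem exists_mroot_ball {φ : ℂ → ℂ} {m : ℕ} (hm : m ≠ 0) {c : ℂ} {r : ℝ}
    (hφ : MeromorphicOn φ (closedBall c r))
    (hne : ∀ z ∈ closedBall c r, meromorphicOrderAt φ z ≠ ⊤)
    (hdiv : ∀ z ∈ closedBall c r, (m : ℤ) ∣ (meromorphicOrderAt φ z).untop₀) :
    ∃ h : ℂ → ℂ, MeromorphicNFOn h (ball c r) ∧
      ∀ z ∈ ball c r, (fun w => h w ^ m) =ᶠ[𝓝[≠] z] φ := by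
  classical
  set D := MeromorphicOn.divisor φ (closedBall c r) with hD
  have hfin : D.support.Finite := D.finiteSupport (isCompact_closedBall c r)
  obtain ⟨g, hg1, hg2, hg3⟩ := hφ.extract_zeros_poles (fun u => hne u.1 u.2) hfin
  have hsub : ball c r ⊆ closedBall c r := ball_subset_closedBall
  obtain ⟨G, hG1, hG2⟩ := exists_exp_eq_on_ball (g := g) (c := c) (r := r)
    (fun z hz => (hg1 z (hsub hz)).differentiableAt.differentiableWithinAt)
    (fun z hz => hg2 ⟨z, hsub hz⟩)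
  have hDdiv : ∀ u, (m : ℤ) ∣ D u := by
    intro u
    by_cases hu : u ∈ closedBall c r
    · rw [hD, MeromorphicOn.divisor_apply hφ hu]
      exact hdiv u hu
    · rw [Function.locallyFinsuppWithin.apply_eq_zero_of_notMem D hu]
      exact dvd_zero _
  choose d hd using hDdiv
  have hm' : (m : ℤ) ≠ 0 := by exact_mod_cast hm
  have hdfin : (Function.support d).Finite := by
    apply hfin.subset
    intro u hu
    simp only [Function.mem_support] at hu ⊢
    rw [hd u]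
    exact mul_ne_zero hm' hu
  set E : ℂ → ℂ := fun z => Complex.exp (G z / m) with hE
  have hE1 : AnalyticOnNhd ℂ E (ball c r) := by
    apply DifferentiableOn.analyticOnNhd _ isOpen_ball
    exact (hG1.div_const _).cexp
  have hE2 : ∀ z ∈ ball c r, E z ≠ 0 := fun z _ => Complex.exp_ne_zero _
  refine ⟨(∏ᶠ u, (· - u) ^ d u) * E, ?_, ?_⟩
  · rw [meromorphicNFOn_mul_iff_left_of_analyticOnNhd hE1 hE2]
    exact Function.FactorizedRational.meromorphicNFOn d _
  · intro z hz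
    have h1 := mem_codiscreteWithin_iff_forall_mem_nhdsNE.1 hg3 z (hsub hz)
    have h2 : ball c r ∈ 𝓝[≠] z := mem_nhdsWithin_of_mem_nhds (isOpen_ball.mem_nhds hz)
    filter_upwards [h1, h2] with w hw1 hw2
    rcases hw1 with hw1 | hw1
    · have hw1' : φ w = ((∏ᶠ u, (· - u) ^ D u) • g) w := hw1
      rw [hw1', Function.FactorizedRational.finprod_eq_fun hfin,
        Function.FactorizedRational.finprod_eq_fun hdfin]
      simp only [Pi.mul_apply, Pi.smul_apply', smul_eq_mul]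
      rw [mul_pow, hG2 w hw2, hE, ← Complex.exp_nat_mul]
      congr 1
      · rw [finprod_pow]
        · apply finprod_congr
          intro u
          rw [hd u, mul_comm, zpow_mul, zpow_natCast]
        · apply hdfin.subset
          intro u hu
          simp only [Function.mem_mulSupport, Function.mem_support] at hu ⊢
          intro h0
          rw [h0] at hu
          simp at hu
      · congr 1
        have : (m : ℂ) ≠ 0 := by exact_mod_cast hm
        field_simp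
    · exact absurd (hsub hw2) hw1

/-- a meromorphic germ whose `m`-th power is `1` is a constant root of unity -/
theorem eventually_eq_rootOfUnity {u : ℂ → ℂ} {m : ℕ} (hm : m ≠ 0) {z₀ : ℂ}
    (hu : MeromorphicAt u z₀) (h1 : ∀ᶠ w in 𝓝[≠] z₀, u w ^ m = 1) :
    ∃ ζ : ℂ, ζ ^ m = 1 ∧ ∀ᶠ w in 𝓝[≠] z₀, u w = ζ := by
  classical
  by_contra hcon
  push Not at hcon
  have hprod := Polynomial.X_pow_sub_one_eq_prod (Nat.pos_of_ne_zero hm)
    (Complex.isPrimitiveRoot_exp m hm)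
  have hall : ∀ ζ ∈ Polynomial.nthRootsFinset m (1 : ℂ), ∀ᶠ w in 𝓝[≠] z₀, u w - ζ ≠ 0 := by
    intro ζ hζ
    have hζ' : ζ ^ m = 1 := (Polynomial.mem_nthRootsFinset (Nat.pos_of_ne_zero hm) 1).mp hζ
    have hmer : MeromorphicAt (fun w => u w - ζ) z₀ := hu.sub (MeromorphicAt.const ζ z₀)
    rcases hmer.eventually_eq_zero_or_eventually_ne_zero with h | h
    · exact absurd (h.mono fun w hw => sub_eq_zero.mp hw) (Filter.not_eventually.mpr (hcon ζ hζ'))
    · exact h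
  have hall' : ∀ᶠ w in 𝓝[≠] z₀, ∀ ζ ∈ Polynomial.nthRootsFinset m (1 : ℂ), u w - ζ ≠ 0 :=
    (Filter.eventually_all_finset _).mpr hall
  obtain ⟨w, hw1, hw2⟩ := (h1.and hall').exists
  have := congrArg (Polynomial.eval (u w)) hprod
  rw [Polynomial.eval_prod] at this
  simp only [Polynomial.eval_sub, Polynomial.eval_pow, Polynomial.eval_X, Polynomial.eval_one,
    Polynomial.eval_C] at this
  rw [hw1, sub_self] at this
  exact (Finset.prod_ne_zero_iff.mpr hw2) this.symm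

/-- identity principle for meromorphic functions on a preconnected set -/
theorem eventuallyEq_of_isPreconnected {h₁ h₂ : ℂ → ℂ} {U : Set ℂ} (hU : IsPreconnected U)
    (hh₁ : MeromorphicOn h₁ U) (hh₂ : MeromorphicOn h₂ U) {z₀ : ℂ} (hz₀ : z₀ ∈ U)
    (h : h₁ =ᶠ[𝓝[≠] z₀] h₂) {z : ℂ} (hz : z ∈ U) : h₁ =ᶠ[𝓝[≠] z] h₂ := by
  have hmer : MeromorphicOn (h₁ - h₂) U := hh₁.sub hh₂
  have h0 : meromorphicOrderAt (h₁ - h₂) z₀ = ⊤ := by
    rw [meromorphicOrderAt_eq_top_iff]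
    filter_upwards [h] with w hw
    simp [hw]
  have h1 : meromorphicOrderAt (h₁ - h₂) z = ⊤ := by
    by_contra hne
    exact (hmer.meromorphicOrderAt_ne_top_of_isPreconnected hU hz hz₀ hne) h0
  rw [meromorphicOrderAt_eq_top_iff] at h1
  filter_upwards [h1] with w hw
  exact sub_eq_zero.mp hw

/-- two `m`-th roots of the same germ differ by a root of unity -/
theorem eventually_eq_rootOfUnity_mul {h₁ h₂ φ : ℂ → ℂ} {m : ℕ} (hm : m ≠ 0) {z₀ : ℂ}
    (hh₁ : MeromorphicAt h₁ z₀) (hh₂ : MeromorphicAt h₂ z₀)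
    (hφ : ∀ᶠ w in 𝓝[≠] z₀, φ w ≠ 0)
    (e₁ : (fun w => h₁ w ^ m) =ᶠ[𝓝[≠] z₀] φ) (e₂ : (fun w => h₂ w ^ m) =ᶠ[𝓝[≠] z₀] φ) :
    ∃ ζ : ℂ, ζ ^ m = 1 ∧ ∀ᶠ w in 𝓝[≠] z₀, h₁ w = ζ * h₂ w := by
  have hne2 : ∀ᶠ w in 𝓝[≠] z₀, h₂ w ≠ 0 := by
    filter_upwards [hφ, e₂] with w hw1 hw2 h0
    apply hw1
    rw [← hw2]
    simp [h0, hm]
  obtain ⟨ζ, hζ, hζ'⟩ := eventually_eq_rootOfUnity (u := fun w => h₁ w / h₂ w) hm (hh₁.div hh₂) (by
    filter_upwards [hφ, e₁, e₂] with w hw0 hw1 hw2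
    have hw1' : h₁ w ^ m = φ w := hw1
    have hw2' : h₂ w ^ m = φ w := hw2
    rw [div_pow, hw1', hw2', div_self hw0])
  refine ⟨ζ, hζ, ?_⟩
  filter_upwards [hne2, hζ'] with w hw1 hw2
  rw [← hw2]
  field_simp

/-- gluing the local roots along an exhaustion by discs -/
theorem exists_mroot_of_exhaustion {φ : ℂ → ℂ} {m : ℕ} (hm : m ≠ 0) {U : Set ℂ}
    (c : ℕ → ℂ) (r : ℕ → ℝ)
    (hmono : ∀ n k, n ≤ k → ball (c n) (r n) ⊆ ball (c k) (r k))
    (hsub : ∀ n, closedBall (c n) (r n) ⊆ U)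
    (hcov : ∀ z ∈ U, ∃ n, z ∈ ball (c n) (r n))
    (hr0 : 0 < r 0)
    (hφ : MeromorphicOn φ U) (hne : ∀ z ∈ U, meromorphicOrderAt φ z ≠ ⊤)
    (hdiv : ∀ z ∈ U, (m : ℤ) ∣ (meromorphicOrderAt φ z).untop₀) :
    ∃ h : ℂ → ℂ, MeromorphicNFOn h U ∧ ∀ z ∈ U, (fun w => h w ^ m) =ᶠ[𝓝[≠] z] φ := by
  classical
  have hz₀ : ∀ n, c 0 ∈ ball (c n) (r n) := fun n => hmono 0 n (Nat.zero_le n) (mem_ball_self hr0)
  have hz₀U : c 0 ∈ U := hsub 0 (ball_subset_closedBall (hz₀ 0))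
  have hloc : ∀ n, ∃ h : ℂ → ℂ, MeromorphicNFOn h (ball (c n) (r n)) ∧
      ∀ z ∈ ball (c n) (r n), (fun w => h w ^ m) =ᶠ[𝓝[≠] z] φ := fun n =>
    exists_mroot_ball hm (hφ.mono_set (hsub n)) (fun z hz => hne z (hsub n hz))
      (fun z hz => hdiv z (hsub n hz))
  choose h' hNF' hpow' using hloc
  have hφ0 : ∀ᶠ w in 𝓝[≠] (c 0), φ w ≠ 0 :=
    (meromorphicOrderAt_ne_top_iff_eventually_ne_zero (hφ _ hz₀U)).mp (hne _ hz₀U)
  have hloc2 : ∀ n, ∃ h : ℂ → ℂ, MeromorphicNFOn h (ball (c n) (r n)) ∧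
      (∀ z ∈ ball (c n) (r n), (fun w => h w ^ m) =ᶠ[𝓝[≠] z] φ) ∧ h =ᶠ[𝓝[≠] (c 0)] h' 0 := by
    intro n
    obtain ⟨ζ, hζ, hζ'⟩ := eventually_eq_rootOfUnity_mul hm
      ((hNF' 0).meromorphicOn _ (hz₀ 0)) ((hNF' n).meromorphicOn _ (hz₀ n)) hφ0
      (hpow' 0 _ (hz₀ 0)) (hpow' n _ (hz₀ n))
    have hζ0 : ζ ≠ 0 := by
      rintro rfl
      simp [hm] at hζ
    refine ⟨(fun _ => ζ) * h' n, ?_, ?_, ?_⟩
    · rw [meromorphicNFOn_mul_iff_right_of_analyticOnNhd analyticOnNhd_const (fun _ _ => hζ0)]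
      exact hNF' n
    · intro z hz
      filter_upwards [hpow' n z hz] with w hw
      simp only [Pi.mul_apply]
      rw [mul_pow, hζ, one_mul]
      exact hw
    · filter_upwards [hζ'] with w hw
      simp only [Pi.mul_apply]
      exact hw.symm
  choose h hNF hpow hbase using hloc2
  have hagree : ∀ n k, n ≤ k → ∀ z ∈ ball (c n) (r n), h n z = h k z := by
    intro n k hnk z hz
    have h1 : h n =ᶠ[𝓝[≠] z] h k :=
      eventuallyEq_of_isPreconnected (convex_ball _ _).isPreconnected (hNF n).meromorphicOn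
        ((hNF k).meromorphicOn.mono_set (hmono n k hnk)) (hz₀ n)
        ((hbase n).trans (hbase k).symm) hz
    exact (((hNF n) hz).eventuallyEq_nhdsNE_iff_eventuallyEq_nhds
      ((hNF k) (hmono n k hnk hz))).mp h1 |>.eq_of_nhds
  set idx : ℂ → ℕ := fun z => if hz : ∃ n, z ∈ ball (c n) (r n) then Nat.find hz else 0 with hidx
  have hidx_mem : ∀ z, (∃ n, z ∈ ball (c n) (r n)) → z ∈ ball (c (idx z)) (r (idx z)) := by
    intro z hz
    simp only [hidx, dif_pos hz]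
    exact Nat.find_spec hz
  have hidx_le : ∀ z n, z ∈ ball (c n) (r n) → idx z ≤ n := by
    intro z n hz
    have hz' : ∃ n, z ∈ ball (c n) (r n) := ⟨n, hz⟩
    simp only [hidx, dif_pos hz']
    exact Nat.find_min' hz' hz
  have hglue : ∀ n, ∀ w ∈ ball (c n) (r n), h (idx w) w = h n w := fun n w hw =>
    hagree _ _ (hidx_le w n hw) w (hidx_mem w ⟨n, hw⟩)
  have hnhds : ∀ z ∈ U, ∃ n, z ∈ ball (c n) (r n) ∧ (fun w => h (idx w) w) =ᶠ[𝓝 z] h n := by
    intro z hz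
    obtain ⟨n, hn⟩ := hcov z hz
    refine ⟨n, hn, ?_⟩
    filter_upwards [isOpen_ball.mem_nhds hn] with w hw
    exact hglue n w hw
  refine ⟨fun w => h (idx w) w, ?_, ?_⟩
  · intro z hz
    obtain ⟨n, hn, he⟩ := hnhds z hz
    exact (meromorphicNFAt_congr he).mpr (hNF n hn)
  · intro z hz
    obtain ⟨n, hn, he⟩ := hnhds z hz
    filter_upwards [hpow n z hn, he.filter_mono nhdsWithin_le_nhds] with w hw1 hw2
    rw [hw2]
    exact hw1

/-- two `m`-th roots (in normal form) on a preconnected open set differ by a root of unity -/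
theorem mroot_unique {h₁ h₂ φ : ℂ → ℂ} {m : ℕ} (hm : m ≠ 0) {U : Set ℂ} (hU : IsPreconnected U)
    (hh₁ : MeromorphicNFOn h₁ U) (hh₂ : MeromorphicNFOn h₂ U) {z₀ : ℂ} (hz₀ : z₀ ∈ U)
    (hφ : ∀ᶠ w in 𝓝[≠] z₀, φ w ≠ 0)
    (e₁ : (fun w => h₁ w ^ m) =ᶠ[𝓝[≠] z₀] φ) (e₂ : (fun w => h₂ w ^ m) =ᶠ[𝓝[≠] z₀] φ) :
    ∃ ζ : ℂ, ζ ^ m = 1 ∧ ∀ z ∈ U, h₁ z = ζ * h₂ z := by
  obtain ⟨ζ, hζ, hζ'⟩ := eventually_eq_rootOfUnity_mul hm (hh₁.meromorphicOn _ hz₀)
    (hh₂.meromorphicOn _ hz₀) hφ e₁ e₂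
  have hζ0 : ζ ≠ 0 := by
    rintro rfl
    simp [hm] at hζ
  have hNF : MeromorphicNFOn ((fun _ => ζ) * h₂) U := by
    rw [meromorphicNFOn_mul_iff_right_of_analyticOnNhd analyticOnNhd_const (fun _ _ => hζ0)]
    exact hh₂
  refine ⟨ζ, hζ, fun z hz => ?_⟩
  have h1 : h₁ =ᶠ[𝓝[≠] z] (fun _ => ζ) * h₂ :=
    eventuallyEq_of_isPreconnected hU hh₁.meromorphicOn hNF.meromorphicOn hz₀ hζ' hz
  exact ((hh₁ hz).eventuallyEq_nhdsNE_iff_eventuallyEq_nhds (hNF hz)).mp h1 |>.eq_of_nhds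

/-- the order of an `m`-th root -/
theorem meromorphicOrderAt_mroot {h φ : ℂ → ℂ} {m : ℕ} {z : ℂ} (hh : MeromorphicAt h z)
    (e : (fun w => h w ^ m) =ᶠ[𝓝[≠] z] φ) :
    meromorphicOrderAt φ z = m * meromorphicOrderAt h z := by
  rw [← meromorphicOrderAt_congr e]
  exact meromorphicOrderAt_pow hh

/-- **`m`-th roots on the upper half plane.**  A meromorphic function on the upper half plane, not
identically zero, all of whose orders are divisible by `m`, is the `m`-th power of a meromorphic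
function (in normal form). -/
theorem exists_mroot_upperHalfPlane {φ : ℂ → ℂ} {m : ℕ} (hm : m ≠ 0)
    (hφ : MeromorphicOn φ {z : ℂ | 0 < z.im})
    (hne : ∀ z : ℂ, 0 < z.im → meromorphicOrderAt φ z ≠ ⊤)
    (hdiv : ∀ z : ℂ, 0 < z.im → (m : ℤ) ∣ (meromorphicOrderAt φ z).untop₀) :
    ∃ h : ℂ → ℂ, MeromorphicNFOn h {z : ℂ | 0 < z.im} ∧
      ∀ z : ℂ, 0 < z.im → (fun w => h w ^ m) =ᶠ[𝓝[≠] z] φ := by
  have hR : ∀ n : ℕ, (0 : ℝ) < (n : ℝ) + 2 := fun n => by positivity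
  refine exists_mroot_of_exhaustion hm (fun n => (((n : ℝ) + 2 : ℝ) : ℂ) * I)
    (fun n => ((n : ℝ) + 2) - 1 / ((n : ℝ) + 2)) ?_ ?_ ?_ ?_ hφ hne hdiv
  · intro n k hnk
    apply ball_subset_ball'
    have hnk' : (n : ℝ) ≤ k := by exact_mod_cast hnk
    have hd : dist ((((n : ℝ) + 2 : ℝ) : ℂ) * I) ((((k : ℝ) + 2 : ℝ) : ℂ) * I) = (k : ℝ) - n := by
      rw [dist_eq_norm, ← sub_mul, norm_mul, Complex.norm_I, mul_one, ← Complex.ofReal_sub,
        Complex.norm_real, Real.norm_eq_abs, abs_of_nonpos (by linarith)]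
      ring
    rw [hd]
    have : 1 / ((k : ℝ) + 2) ≤ 1 / ((n : ℝ) + 2) :=
      one_div_le_one_div_of_le (hR n) (by linarith)
    linarith
  · intro n z hz
    rw [mem_closedBall, dist_eq_norm] at hz
    have h1 : |(z - (((n : ℝ) + 2 : ℝ) : ℂ) * I).im| ≤ ‖z - (((n : ℝ) + 2 : ℝ) : ℂ) * I‖ :=
      Complex.abs_im_le_norm _
    have h2 : (z - (((n : ℝ) + 2 : ℝ) : ℂ) * I).im = z.im - ((n : ℝ) + 2) := by
      simp
    rw [h2] at h1
    have h3 := (abs_le.mp (h1.trans hz)).1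
    have h4 : 0 < 1 / ((n : ℝ) + 2) := by have := hR n; positivity
    show 0 < z.im
    linarith
  · intro z hz
    have hz' : 0 < z.im := hz
    obtain ⟨n, hn⟩ := exists_nat_gt ((Complex.normSq z + 2) / (2 * z.im))
    refine ⟨n, ?_⟩
    rw [mem_ball, dist_eq_norm]
    have hRn := hR n
    set R : ℝ := (n : ℝ) + 2 with hRdef
    have hR2 : (2 : ℝ) ≤ R := by have : (0 : ℝ) ≤ n := Nat.cast_nonneg n; linarith
    have h1 : Complex.normSq z + 2 < 2 * z.im * R := by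
      rw [div_lt_iff₀ (by positivity)] at hn
      nlinarith
    have h2 : ‖z - (R : ℂ) * I‖ ^ 2 = Complex.normSq z - 2 * z.im * R + R ^ 2 := by
      rw [← Complex.normSq_eq_norm_sq, Complex.normSq_apply, Complex.normSq_apply]
      simp
      ring
    have h3 : (R - 1 / R) ^ 2 = R ^ 2 - 2 + 1 / R ^ 2 := by
      field_simp
      ring
    have h4 : 0 < R - 1 / R := by
      have : 1 / R ≤ 1 / 2 := one_div_le_one_div_of_le (by norm_num) hR2
      linarith
    have h5 : 0 < 1 / R ^ 2 := by positivity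
    apply lt_of_pow_lt_pow_left₀ 2 h4.le
    rw [h2, h3]
    linarith
  · norm_num

end Fermat.Agent.ESlib
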