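import Fermat.Agent.ES.A.FunChar
import Fermat.Agent.ES.A.HeckeFun
import Fermat.Agent.ES.A.ExpChar
import Fermat.Agent.ES.D.Iface

/-!
# T-ES, Part A (AF6, AF8, AF9): the isomorphism `θ_m : W_m(ℂ) ≃ Λ / m Λ`

`IsTheta N m f ψ` : the character of the `m`-th root of `f ∈ FK ℂ N` is `exp (2 π i ψ / m)`,
`ψ ∈ Λ = betti N`.

Element level:
`exists_isTheta`, `IsTheta.sub_mem`, `IsTheta.congr`, `IsTheta.mul`, `IsTheta.mem_iff`,
`exists_mDiv_isTheta`, `IsTheta.of_mul` (transition `m k → m`), `IsTheta.heckeTS`, `IsTheta.normU`.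

Group level:
`thetaX N m : Wm ℂ (FK ℂ N) m ≃* XGrp N m`,
`theta N m : Wm ℂ (FK ℂ N) m ≃* Multiplicative (Λ ⧸ m Λ)` with `theta_mk_eq_iff`,
`thetaPow N p n` (the same with target `Λ ⧸ PartD.powSub Λ p n`) with `thetaPow_mk_eq_iff`.
-/

set_option autoImplicit false
set_option linter.unusedSectionVars false

open UpperHalfPlane ModularForm MatrixGroups CongruenceSubgroup ModularCurve
open scoped Manifold
open Fermat.Agent.S24lib
open P2MW.S_ModularForm_heckeT_slash_eq_self_of_mem_Gamma0.ModularForm.HeckeSlashInvariance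

namespace Fermat.Agent.ESlib

noncomputable section

variable {N : ℕ} [NeZero N] {m : ℕ}

/-- transition: an `m k`-th root gives an `m`-th root -/
theorem IsRootChar.of_mul {k : ℕ} (hm : m ≠ 0) (hk : k ≠ 0) {f : FK ℂ N} {χ : ↥(Gamma0 N) →* ℂˣ}
    (h : IsRootChar N (m * k) f χ) : IsRootChar N m f (χ ^ k) := by
  obtain ⟨P, Q, a, hQ, hf, ha, hpow, hχ⟩ := h
  obtain ⟨k', rfl⟩ : ∃ k', k = k' + 1 := ⟨k - 1, by omega⟩
  obtain ⟨m', rfl⟩ : ∃ m', m = m' + 1 := ⟨m - 1, by omega⟩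
  refine ⟨P * Q ^ k', Q ^ (k' + 1), fun τ => a τ ^ (k' + 1), ?_, ?_, ?_, fun τ => ?_,
    fun γ τ => ?_⟩
  · rw [map_pow]
    exact pow_ne_zero _ hQ
  · rw [map_pow, map_mul, map_pow, ← hf]
    ring
  · exact ha.pow _
  · rw [← pow_mul, mul_comm (k' + 1), hpow, map_mul, map_pow, map_pow]
    simp only [Pi.mul_apply, Pi.pow_apply, Nat.add_sub_cancel]
    have : (m' + 1) * (k' + 1) - 1 = k' + (k' + 1) * m' := by
      have : (m' + 1) * (k' + 1) = k' + (k' + 1) * m' + 1 := by ring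
      omega
    rw [this, pow_add, pow_mul]
    ring
  · simp only
    rw [hχ, mul_pow, MonoidHom.pow_apply, Units.val_pow_eq_pow_val]

/-- `ψ ∈ Λ` describes the character of the `m`-th root of `f` -/
def IsTheta (N : ℕ) [NeZero N] (m : ℕ) (f : FK ℂ N) (ψ : betti N) : Prop :=
  IsRootChar N m f (expChar m ψ)

section Element

variable [NeZero m]

theorem exists_isTheta {f : FK ℂ N} (hf : MDiv ℂ m f) : ∃ ψ : betti N, IsTheta N m f ψ := by
  obtain ⟨χ, hχ, h⟩ := exists_isRootChar (NeZero.ne m) hf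
  obtain ⟨ψ, rfl⟩ := exists_expChar_eq m hχ
  exact ⟨ψ, h⟩

theorem IsTheta.sub_mem {f : FK ℂ N} (hf : f ≠ 0) {ψ ψ' : betti N} (h : IsTheta N m f ψ)
    (h' : IsTheta N m f ψ') : ψ - ψ' ∈ mSub N m :=
  (expChar_eq_iff m ψ ψ').1 (IsRootChar.unique (NeZero.ne m) hf h h')

theorem IsTheta.congr {f : FK ℂ N} {ψ ψ' : betti N} (h : IsTheta N m f ψ)
    (h' : ψ - ψ' ∈ mSub N m) : IsTheta N m f ψ' := by
  unfold IsTheta at h ⊢
  rwa [← (expChar_eq_iff m ψ ψ').2 h']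

theorem IsTheta.mul {f g : FK ℂ N} {φ ψ : betti N} (h : IsTheta N m f φ) (h' : IsTheta N m g ψ) :
    IsTheta N m (f * g) (φ + ψ) := by
  unfold IsTheta at h h' ⊢
  rw [expChar_add]
  exact IsRootChar.mul (NeZero.ne m) h h'

theorem IsTheta.mem_iff {f : FK ℂ N} (hf : f ≠ 0) {ψ : betti N} (h : IsTheta N m f ψ) :
    ψ ∈ mSub N m ↔ ∃ g : FK ℂ N, f = g ^ m := by
  rw [← expChar_eq_one_iff, ← isRootChar_one_iff (NeZero.ne m) hf]
  constructor
  · intro h1
    rw [← h1]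
    exact h
  · intro h1
    exact IsRootChar.unique (NeZero.ne m) hf h h1

theorem exists_mDiv_isTheta (ψ : betti N) : ∃ f : FK ℂ N, MDiv ℂ m f ∧ IsTheta N m f ψ :=
  exists_mDiv_isRootChar (NeZero.ne m) (expChar_mem_XGrp m ψ)

/-- **transition** -/
theorem IsTheta.of_mul {k : ℕ} (hk : k ≠ 0) {f : FK ℂ N} {ψ : betti N}
    (h : IsTheta N (m * k) f ψ) : IsTheta N m f ψ := by
  unfold IsTheta at h ⊢
  rw [← expChar_mul_pow m k hk]
  exact IsRootChar.of_mul (NeZero.ne m) hk h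

/-- **Hecke equivariance**, `T_p` -/
theorem IsTheta.heckeTS {p : ℕ} [NeZero p] (hp : p.Prime) (hpN : ¬ p ∣ N) {ζ : ℂˣ}
    (hζ : IsPrimitiveRoot ζ p) {f : FK ℂ N} (hf : f ≠ 0) {ψ : betti N} (h : IsTheta N m f ψ) :
    IsTheta N m ⟨heckeTS p ζ (f : LaurentSeries ℂ), heckeTS_mem hp hpN hζ f⟩
      (bettiHecke N (CuspForm.heckeAlgebra.T hp hpN (Set.notMem_empty p)) ψ) := by
  have : Fact p.Prime := ⟨hp⟩
  obtain ⟨χ', h1, h2⟩ := isRootChar_heckeTS (NeZero.ne m) hp hpN hζ hf h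
  rw [h1.expChar_T hp hpN] at h2
  exact h2

/-- **Hecke equivariance**, `U_q` -/
theorem IsTheta.normU {q : ℕ} [NeZero q] (hq : q.Prime) (hqN : q ∣ N) {ζ : ℂˣ}
    (hζ : IsPrimitiveRoot ζ q) {f : FK ℂ N} (hf : f ≠ 0) {ψ : betti N} (h : IsTheta N m f ψ) :
    IsTheta N m ⟨normU q ζ (f : LaurentSeries ℂ), normU_mem hq hqN hζ f⟩
      (bettiHecke N (CuspForm.heckeAlgebra.U hq hqN (Set.notMem_empty q)) ψ) := by
  obtain ⟨χ', h1, h2⟩ := isRootChar_normU (NeZero.ne m) hq hqN hζ hf h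
  rw [h1.expChar_U hq hqN] at h2
  exact h2

end Element

section Group

variable (N) (m) [NeZero m]

/-- the character of the `m`-th root of an `m`-divisible function -/
def charOf (f : mDivUnits ℂ (FK ℂ N) m) : XGrp N m :=
  ⟨(exists_isRootChar (NeZero.ne m) (mem_mDivUnits.1 f.2)).choose,
    (exists_isRootChar (NeZero.ne m) (mem_mDivUnits.1 f.2)).choose_spec.1⟩

variable {N m}

theorem isRootChar_charOf (f : mDivUnits ℂ (FK ℂ N) m) :
    IsRootChar N m ((f : (FK ℂ N)ˣ) : FK ℂ N) (charOf N m f : ↥(Gamma0 N) →* ℂˣ) :=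
  (exists_isRootChar (NeZero.ne m) (mem_mDivUnits.1 f.2)).choose_spec.2

theorem charOf_eq_iff (f : mDivUnits ℂ (FK ℂ N) m) (χ : XGrp N m) :
    charOf N m f = χ ↔ IsRootChar N m ((f : (FK ℂ N)ˣ) : FK ℂ N) (χ : ↥(Gamma0 N) →* ℂˣ) := by
  constructor
  · rintro rfl
    exact isRootChar_charOf f
  · intro h
    exact Subtype.ext (IsRootChar.unique (NeZero.ne m) (Units.ne_zero _) (isRootChar_charOf f) h)

variable (N m)

/-- `f ↦` the character of the `m`-th root of `f`, as a group homomorphism -/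
def charHom : mDivUnits ℂ (FK ℂ N) m →* XGrp N m :=
  MonoidHom.mk' (charOf N m) (fun f g => by
    rw [charOf_eq_iff]
    exact IsRootChar.mul (NeZero.ne m) (isRootChar_charOf f) (isRootChar_charOf g))

theorem ker_charHom : (charHom N m).ker =
    (powMonoidHom m : (FK ℂ N)ˣ →* (FK ℂ N)ˣ).range.subgroupOf (mDivUnits ℂ (FK ℂ N) m) := by
  ext f
  rw [MonoidHom.mem_ker, Subgroup.mem_subgroupOf, MonoidHom.mem_range]
  have h1 : charHom N m f = 1 ↔ IsRootChar N m ((f : (FK ℂ N)ˣ) : FK ℂ N) 1 :=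
    charOf_eq_iff f 1
  rw [h1, isRootChar_one_iff (NeZero.ne m) (Units.ne_zero _)]
  constructor
  · rintro ⟨g, hg⟩
    have hg0 : g ≠ 0 := by
      rintro rfl
      rw [zero_pow (NeZero.ne m)] at hg
      exact Units.ne_zero _ hg
    refine ⟨Units.mk0 g hg0, ?_⟩
    ext
    rw [powMonoidHom_apply, Units.val_pow_eq_pow_val, Units.val_mk0, hg]
  · rintro ⟨u, hu⟩
    refine ⟨u, ?_⟩
    rw [← hu, powMonoidHom_apply, Units.val_pow_eq_pow_val]

theorem charHom_surjective : Function.Surjective (charHom N m) := by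
  intro χ
  obtain ⟨f, hf, h⟩ := exists_mDiv_isRootChar (NeZero.ne m) χ.2
  exact ⟨⟨Units.mk0 f hf.1, mem_mDivUnits.2 hf⟩, (charOf_eq_iff _ χ).2 h⟩

/-- **(AF6)** `W_m(ℂ) ≃ XGrp N m` -/
def thetaX : Wm ℂ (FK ℂ N) m ≃* XGrp N m :=
  (QuotientGroup.quotientMulEquivOfEq (ker_charHom N m).symm).trans
    (QuotientGroup.quotientKerEquivOfSurjective (charHom N m) (charHom_surjective N m))

variable {N m}

theorem thetaX_mk (f : mDivUnits ℂ (FK ℂ N) m) :
    thetaX N m (QuotientGroup.mk f) = charOf N m f := rfl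

variable (N m)

/-- **`θ_m : W_m(ℂ) ≃ Λ / m Λ`** -/
def theta : Wm ℂ (FK ℂ N) m ≃* Multiplicative (betti N ⧸ mSub N m) :=
  (thetaX N m).trans (bettiX N m).symm

variable {N m}

theorem theta_mk_eq_iff (f : mDivUnits ℂ (FK ℂ N) m) (ψ : betti N) :
    theta N m (QuotientGroup.mk f) = Multiplicative.ofAdd (Submodule.Quotient.mk ψ) ↔
      IsTheta N m ((f : (FK ℂ N)ˣ) : FK ℂ N) ψ := by
  rw [theta, MulEquiv.trans_apply, MulEquiv.symm_apply_eq, thetaX_mk, charOf_eq_iff, bettiX_mk]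
  rfl

instance finite_Wm : Finite (Wm ℂ (FK ℂ N) m) := by
  have : Finite (betti N ⧸ mSub N m) := by
    apply Module.finite_of_fg_torsion
    intro x
    refine ⟨⟨(m : ℤ), mem_nonZeroDivisors_of_ne_zero (by exact_mod_cast NeZero.ne m)⟩, ?_⟩
    induction x using Submodule.Quotient.induction_on with
    | H ψ =>
      show (m : ℤ) • (Submodule.Quotient.mk ψ : betti N ⧸ mSub N m) = 0
      rw [← Submodule.Quotient.mk_smul, Submodule.Quotient.mk_eq_zero]
      exact ⟨ψ, rfl⟩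
  exact Finite.of_equiv _ (theta N m).symm.toEquiv

theorem mSub_pow (p n : ℕ) : mSub N (p ^ n) = PartD.powSub (betti N) p n := by
  unfold mSub PartD.powSub
  rw [Nat.cast_pow]

variable (N) in
/-- `θ_{p^n}` with target `Λ ⧸ powSub Λ p n` -/
def thetaPow (p n : ℕ) [NeZero p] :
    Wm ℂ (FK ℂ N) (p ^ n) ≃* Multiplicative (betti N ⧸ PartD.powSub (betti N) p n) :=
  (theta N (p ^ n)).trans
    (AddEquiv.toMultiplicative (Submodule.quotEquivOfEq _ _ (mSub_pow p n)).toAddEquiv)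

theorem thetaPow_mk_eq_iff (p n : ℕ) [NeZero p] (f : mDivUnits ℂ (FK ℂ N) (p ^ n))
    (ψ : betti N) :
    thetaPow N p n (QuotientGroup.mk f) = Multiplicative.ofAdd (Submodule.Quotient.mk ψ) ↔
      IsTheta N (p ^ n) ((f : (FK ℂ N)ˣ) : FK ℂ N) ψ := by
  rw [← theta_mk_eq_iff, thetaPow, MulEquiv.trans_apply, ← MulEquiv.eq_symm_apply]
  rfl

end Group

end

end Fermat.Agent.ESlib
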